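import Mathlib

set_option autoImplicit false

namespace Fermat.Agent.GR.A

open UpperHalfPlane ModularForm EisensteinSeries Matrix MatrixGroups Filter Topology
  CongruenceSubgroup
open scoped Manifold

noncomputable section

/-- Weighted Eisenstein sum `∑ w(c,d) (c z + d)^(-k)` over all of `ℤ²`. -/
def wEis (k : ℤ) (w : (Fin 2 → ℤ) → ℂ) (z : ℍ) : ℂ := ∑' v : Fin 2 → ℤ, w v * eisSummand k v z

variable {k : ℤ} {w : (Fin 2 → ℤ) → ℂ}

local notation:1024 "↑ₘ" A:1024 => ((A : SL(2, ℤ)) : Matrix (Fin 2) (Fin 2) ℤ)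

lemma norm_wEis_summand_le (hw : ∀ v, ‖w v‖ ≤ 1) (v : Fin 2 → ℤ) (z : ℍ) :
    ‖w v * eisSummand k v z‖ ≤ ‖eisSummand k v z‖ := by
  rw [norm_mul]
  exact mul_le_of_le_one_left (norm_nonneg _) (hw v)

lemma summable_wEis (hk : 3 ≤ k) (hw : ∀ v, ‖w v‖ ≤ 1) (z : ℍ) :
    Summable fun v : Fin 2 → ℤ => w v * eisSummand k v z :=
  Summable.of_norm_bounded (summable_norm_eisSummand hk z) fun v => norm_wEis_summand_le hw v z

lemma coe_mul_coe_inv (γ : SL(2, ℤ)) : ↑ₘγ * ↑ₘ(γ⁻¹) = 1 :=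
  congrArg (fun A : SL(2, ℤ) => ↑ₘA) (mul_inv_cancel γ)

lemma coe_inv_mul_coe (γ : SL(2, ℤ)) : ↑ₘ(γ⁻¹) * ↑ₘγ = 1 :=
  congrArg (fun A : SL(2, ℤ) => ↑ₘA) (inv_mul_cancel γ)

/-- Right multiplication by `γ` as a permutation of `ℤ²`. -/
def vecMulEquiv (γ : SL(2, ℤ)) : (Fin 2 → ℤ) ≃ (Fin 2 → ℤ) where
  toFun v := v ᵥ* ↑ₘγ
  invFun v := v ᵥ* ↑ₘ(γ⁻¹)
  left_inv v := by
    show (v ᵥ* ↑ₘγ) ᵥ* ↑ₘ(γ⁻¹) = v
    rw [vecMul_vecMul, coe_mul_coe_inv, vecMul_one]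
  right_inv v := by
    show (v ᵥ* ↑ₘ(γ⁻¹)) ᵥ* ↑ₘγ = v
    rw [vecMul_vecMul, coe_inv_mul_coe, vecMul_one]

lemma wEis_slash (k : ℤ) (w : (Fin 2 → ℤ) → ℂ) (γ : SL(2, ℤ)) :
    wEis k w ∣[k] γ = wEis k (fun v => w (v ᵥ* ↑ₘ(γ⁻¹))) := by
  ext1 z
  rw [SL_slash_apply, _root_.zpow_neg,
    mul_inv_eq_iff_eq_mul₀ (zpow_ne_zero _ <| denom_ne_zero _ z), wEis, wEis, ← tsum_mul_right,
    ← (vecMulEquiv γ).tsum_eq (fun v => w (v ᵥ* ↑ₘ(γ⁻¹)) * eisSummand k v z * denom γ z ^ k)]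
  refine tsum_congr fun v => ?_
  have h1 : (vecMulEquiv γ v) ᵥ* ↑ₘ(γ⁻¹) = v := (vecMulEquiv γ).left_inv v
  have h2 : vecMulEquiv γ v = v ᵥ* ↑ₘγ := rfl
  rw [h1, eisSummand_SL2_apply, h2]
  ring

theorem wEis_tendstoLocallyUniformly (hk : 3 ≤ k) (hw : ∀ v, ‖w v‖ ≤ 1) :
    TendstoLocallyUniformly (fun (s : Finset (Fin 2 → ℤ)) ↦ (∑ x ∈ s, w x * eisSummand k x ·))
      (wEis k w ·) Filter.atTop := by
  have hk' : (2 : ℝ) < k := by norm_cast
  have p_sum : Summable fun x : Fin 2 → ℤ ↦ ‖x‖ ^ (-k) :=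
    mod_cast (summable_one_div_norm_rpow hk')
  simp only [tendstoLocallyUniformly_iff_forall_isCompact, wEis]
  intro K hK
  obtain ⟨A, B, hB, HABK⟩ := subset_verticalStrip_of_isCompact hK
  refine (tendstoUniformlyOn_tsum (hu := p_sum.mul_left <| r ⟨⟨A, B⟩, hB⟩ ^ (-k : ℝ))
    (fun p z hz ↦ ?_)).mono HABK
  refine (norm_wEis_summand_le hw p z).trans ?_
  simpa only [eisSummand, one_div, ← _root_.zpow_neg, norm_zpow, ← Real.rpow_intCast,
    Int.cast_neg] using summand_bound_of_mem_verticalStrip (by positivity) p hB hz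

lemma wEis_tendstoLocallyUniformlyOn (hk : 3 ≤ k) (hw : ∀ v, ‖w v‖ ≤ 1) :
    TendstoLocallyUniformlyOn (fun (s : Finset (Fin 2 → ℤ)) ↦
      ↑ₕ(fun (z : ℍ) ↦ ∑ x ∈ s, w x * eisSummand k x z)) (↑ₕ(wEis k w))
          Filter.atTop {z : ℂ | 0 < z.im} := by
  rw [← upperHalfPlaneSet, ← range_coe, ← Set.image_univ]
  apply TendstoLocallyUniformlyOn.comp (s := ⊤) _ _ _ (OpenPartialHomeomorph.continuousOn_symm _)
  · simp only [Set.top_eq_univ, tendstoLocallyUniformlyOn_univ]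
    apply wEis_tendstoLocallyUniformly hk hw
  · simp only [IsOpenEmbedding.toOpenPartialHomeomorph_target, Set.top_eq_univ,
      Set.mapsTo_range_iff, Set.mem_univ, forall_const]

theorem mdiff_wEis (hk : 3 ≤ k) (hw : ∀ v, ‖w v‖ ≤ 1) : MDiff (wEis k w) := by
  intro τ
  suffices DifferentiableAt ℂ (↑ₕ(wEis k w)) τ.1 by
    convert!
      MDifferentiableAt.comp τ (DifferentiableAt.mdifferentiableAt this) τ.mdifferentiable_coe
    exact funext fun z ↦ (comp_ofComplex (wEis k w) z).symm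
  refine DifferentiableOn.differentiableAt ?_ (isOpen_upperHalfPlaneSet.mem_nhds τ.2)
  refine (wEis_tendstoLocallyUniformlyOn hk hw).differentiableOn
    (Eventually.of_forall fun s ↦ ?_) isOpen_upperHalfPlaneSet
  have : (↑ₕ(fun (z : ℍ) ↦ ∑ x ∈ s, w x * eisSummand k x z)) =
      fun z => ∑ x ∈ s, w x * (↑ₕ(eisSummand k x)) z := by
    ext z
    simp [Function.comp]
  rw [this]
  exact DifferentiableOn.fun_sum
    fun _ _ ↦ (eisSummand_extension_differentiableOn _ _).const_mul _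

/-- The full sum of norms `∑ |c z + d|^(-k)`. -/
def normSum (k : ℤ) (z : ℍ) : ℝ := ∑' v : Fin 2 → ℤ, ‖eisSummand k v z‖

lemma norm_wEis_le (hk : 3 ≤ k) (hw : ∀ v, ‖w v‖ ≤ 1) (z : ℍ) : ‖wEis k w z‖ ≤ normSum k z := by
  have h1 : Summable fun v : Fin 2 → ℤ => ‖w v * eisSummand k v z‖ :=
    Summable.of_nonneg_of_le (fun _ => norm_nonneg _) (fun v => norm_wEis_summand_le hw v z)
      (summable_norm_eisSummand hk z)
  exact (norm_tsum_le_tsum_norm h1).trans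
    (h1.tsum_le_tsum (fun v => norm_wEis_summand_le hw v z) (summable_norm_eisSummand hk z))

lemma denom_T_zpow (n : ℤ) (z : ℍ) : denom (ModularGroup.T ^ n : SL(2, ℤ)) z = 1 := by
  rw [ModularGroup.denom_apply]
  have h : ↑ₘ(ModularGroup.T ^ n) = !![1, n; 0, 1] := ModularGroup.coe_T_zpow n
  have h10 : (ModularGroup.T ^ n : SL(2, ℤ)) 1 0 = 0 := by
    have := congrFun (congrFun h 1) 0
    simpa using this
  have h11 : (ModularGroup.T ^ n : SL(2, ℤ)) 1 1 = 1 := by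
    have := congrFun (congrFun h 1) 1
    simpa using this
  rw [h10, h11]
  simp

lemma normSum_T_zpow (k n : ℤ) (z : ℍ) : normSum k ((ModularGroup.T ^ n : SL(2, ℤ)) • z) =
    normSum k z := by
  rw [normSum, normSum, ← (vecMulEquiv (ModularGroup.T ^ n)).tsum_eq (fun v => ‖eisSummand k v z‖)]
  refine tsum_congr fun v => ?_
  rw [eisSummand_SL2_apply, denom_T_zpow, _root_.one_zpow, one_mul]
  rfl

lemma normSum_le (hk : 3 ≤ k) {z : ℍ} (hz : 2 ≤ z.im) :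
    normSum k z ≤ ∑' x : Fin 2 → ℤ, r ⟨⟨1, 2⟩, Nat.ofNat_pos⟩ ^ (-k) * ‖x‖ ^ (-k) := by
  obtain ⟨n, hn⟩ := ModularGroup_T_zpow_mem_verticalStrip z (N := 1) one_pos
  rw [← normSum_T_zpow k ((1 : ℕ) * n) z, normSum]
  have hk' : (2 : ℝ) < k := by norm_cast
  apply (summable_norm_eisSummand hk _).tsum_le_tsum _
  · exact_mod_cast (summable_one_div_norm_rpow hk').mul_left <| r ⟨⟨1, 2⟩, Nat.ofNat_pos⟩ ^ (-k)
  · intro x
    simp_rw [eisSummand, norm_zpow]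
    exact_mod_cast
      summand_bound_of_mem_verticalStrip (lt_trans two_pos hk').le x two_pos
      (verticalStrip_anti_right 1 hz (by exact_mod_cast hn))

theorem isBoundedAtImInfty_wEis (hk : 3 ≤ k) (hw : ∀ v, ‖w v‖ ≤ 1) :
    IsBoundedAtImInfty (wEis k w) := by
  rw [UpperHalfPlane.isBoundedAtImInfty_iff]
  exact ⟨_, 2, fun z hz => (norm_wEis_le hk hw z).trans (normSum_le hk hz)⟩

theorem isBoundedAtImInfty_wEis_slash (hk : 3 ≤ k) (hw : ∀ v, ‖w v‖ ≤ 1) (γ : SL(2, ℤ)) :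
    IsBoundedAtImInfty (wEis k w ∣[k] γ) := by
  rw [wEis_slash]
  exact isBoundedAtImInfty_wEis hk fun v => hw _

/-- The point `i (n + 1)`. -/
def iPt (n : ℕ) : ℍ := ⟨⟨0, n + 1⟩, by show (0 : ℝ) < n + 1; positivity⟩

lemma iPt_im (n : ℕ) : (iPt n).im = n + 1 := rfl

lemma iPt_re (n : ℕ) : (iPt n).re = 0 := rfl

lemma tendsto_iPt : Tendsto iPt atTop atImInfty := by
  rw [atImInfty, tendsto_comap_iff]
  exact tendsto_atTop_add_const_right _ 1 tendsto_natCast_atTop_atTop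

lemma tendsto_eisSummand_iPt (hk : 1 ≤ k) (v : Fin 2 → ℤ) :
    Tendsto (fun n => eisSummand k v (iPt n)) atTop
      (𝓝 (if v 0 = 0 then (v 1 : ℂ) ^ (-k) else 0)) := by
  by_cases h0 : v 0 = 0
  · simp only [h0, if_true, eisSummand, Int.cast_zero, zero_mul, zero_add]
    exact tendsto_const_nhds
  · simp only [h0, if_false]
    refine squeeze_zero_norm (fun n => ?_) (tendsto_one_div_add_atTop_nhds_zero_nat (𝕜 := ℝ))
    have h1 : (1 : ℝ) ≤ |(v 0 : ℝ)| := by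
      have : (1 : ℤ) ≤ |v 0| := Int.one_le_abs h0
      exact_mod_cast this
    have h2 : (n : ℝ) + 1 ≤ ‖(v 0 : ℂ) * (iPt n : ℂ) + v 1‖ := by
      refine le_trans ?_ (Complex.abs_im_le_norm _)
      have : ((v 0 : ℂ) * (iPt n : ℂ) + v 1).im = (v 0 : ℝ) * (n + 1) := by
        simp [iPt_im]
      rw [this, abs_mul, abs_of_pos (by positivity : (0 : ℝ) < n + 1)]
      nlinarith [(by positivity : (0 : ℝ) < (n : ℝ) + 1)]
    have h3 : (1 : ℝ) ≤ ‖(v 0 : ℂ) * (iPt n : ℂ) + v 1‖ := le_trans (by simp) h2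
    rw [eisSummand, norm_zpow]
    calc ‖(v 0 : ℂ) * (iPt n : ℂ) + v 1‖ ^ (-k) ≤ ‖(v 0 : ℂ) * (iPt n : ℂ) + v 1‖ ^ (-1 : ℤ) :=
          zpow_le_zpow_right₀ h3 (by omega)
      _ = 1 / ‖(v 0 : ℂ) * (iPt n : ℂ) + v 1‖ := by simp
      _ ≤ 1 / ((n : ℝ) + 1) := one_div_le_one_div_of_le (by positivity) h2

/-- The constant term of a weighted Eisenstein sum. -/
def wConst (k : ℤ) (w : (Fin 2 → ℤ) → ℂ) : ℂ :=
  ∑' v : Fin 2 → ℤ, w v * (if v 0 = 0 then (v 1 : ℂ) ^ (-k) else 0)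

theorem tendsto_wEis_iPt (hk : 3 ≤ k) (hw : ∀ v, ‖w v‖ ≤ 1) :
    Tendsto (fun n => wEis k w (iPt n)) atTop (𝓝 (wConst k w)) := by
  have hk' : (2 : ℝ) < k := by norm_cast
  refine tendsto_tsum_of_dominated_convergence
    (bound := fun x : Fin 2 → ℤ => r ⟨⟨0, 1⟩, one_pos⟩ ^ (-k) * ‖x‖ ^ (-k)) ?_
    (fun v => (tendsto_eisSummand_iPt (by omega) v).const_mul _)
    (Eventually.of_forall fun n v => ?_)
  · exact_mod_cast (summable_one_div_norm_rpow hk').mul_left <| r ⟨⟨0, 1⟩, one_pos⟩ ^ (-k)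
  · refine (norm_wEis_summand_le hw v _).trans ?_
    simp_rw [eisSummand, norm_zpow]
    have hmem : iPt n ∈ verticalStrip 0 1 := by
      refine ⟨by simp [iPt_re], ?_⟩
      rw [iPt_im]
      have : (0 : ℝ) ≤ n := Nat.cast_nonneg n
      linarith
    exact_mod_cast
      summand_bound_of_mem_verticalStrip (lt_trans two_pos hk').le v one_pos hmem

lemma tendsto_of_periodic {f : ℍ → ℂ} (hper : Function.Periodic (f ∘ ofComplex) 1) (hhol : MDiff f)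
    (hbdd : IsBoundedAtImInfty f) : Tendsto f atImInfty (𝓝 (cuspFunction 1 f 0)) := by
  have han := analyticAt_cuspFunction_zero one_pos hper hhol hbdd
  have ht := han.continuousAt.tendsto.comp (qParam_tendsto_atImInfty one_pos)
  refine ht.congr fun z => ?_
  simpa using eq_cuspFunction z one_ne_zero hper

lemma periodic_of_slash_T {f : ℍ → ℂ} (h : f ∣[k] ModularGroup.T = f) :
    Function.Periodic (f ∘ ofComplex) 1 := by
  have key : ∀ z : ℍ, f (ModularGroup.T • z) = f z := fun z => by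
    have h1 := congrFun h z
    have h2 : denom (ModularGroup.T : SL(2, ℤ)) z = 1 := by
      simpa using denom_T_zpow 1 z
    rw [SL_slash_apply, h2] at h1
    simpa using h1
  intro x
  by_cases! hx : 0 < x.im
  · have hx' : 0 < (x + 1).im := by simpa using hx
    simp only [Function.comp_apply, ofComplex_apply_of_im_pos hx', ofComplex_apply_of_im_pos hx]
    rw [← key ⟨x, hx⟩, UpperHalfPlane.modular_T_smul]
    congr 1
    ext
    simp [add_comm]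
  · have : (x + 1).im ≤ 0 := by simpa using hx
    simp [ofComplex_apply_of_im_nonpos this, ofComplex_apply_of_im_nonpos hx]

theorem tendsto_wEis (hk : 3 ≤ k) (hw : ∀ v, ‖w v‖ ≤ 1)
    (hT : ∀ v, w (v ᵥ* ↑ₘ(ModularGroup.T⁻¹)) = w v) :
    Tendsto (wEis k w) atImInfty (𝓝 (wConst k w)) := by
  have h1 : wEis k w ∣[k] ModularGroup.T = wEis k w := by
    rw [wEis_slash]
    congr 1
    exact funext hT
  have h2 := tendsto_of_periodic (periodic_of_slash_T h1) (mdiff_wEis hk hw)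
    (isBoundedAtImInfty_wEis hk hw)
  rwa [tendsto_nhds_unique (h2.comp tendsto_iPt) (tendsto_wEis_iPt hk hw)] at h2

/-! ### The weight attached to a character of `Γ₀(N)` -/

/-- The bottom row of a matrix in `SL(2, ℤ)`. -/
def botRow (γ : SL(2, ℤ)) : Fin 2 → ℤ := (↑ₘγ) 1

lemma botRow_apply (γ : SL(2, ℤ)) (i : Fin 2) : botRow γ i = γ 1 i := rfl

lemma botRow_mul (γ δ : SL(2, ℤ)) : botRow (γ * δ) = botRow γ ᵥ* ↑ₘδ :=
  Matrix.mul_apply_eq_vecMul ↑ₘγ ↑ₘδ 1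

lemma botRow_one : botRow 1 = ![0, 1] := by
  ext i
  fin_cases i <;> simp [botRow_apply]

variable {N : ℕ}

open Classical in
/-- `χ(γ)⁻¹` if `v` is the bottom row of `γ ∈ Γ₀(N)`, and `0` if there is no such `γ`. -/
def chiWeight (χ : Gamma0 N →* ℂˣ) (v : Fin 2 → ℤ) : ℂ :=
  if h : ∃ γ : Gamma0 N, botRow γ = v then (((χ h.choose)⁻¹ : ℂˣ) : ℂ) else 0

variable {χ : Gamma0 N →* ℂˣ}

lemma chi_eq_of_botRow_eq (hpar : ∀ γ : Gamma0 N, (γ : SL(2, ℤ)) 1 0 = 0 → χ γ = 1)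
    {γ γ' : Gamma0 N} (h : botRow γ' = botRow γ) : χ γ' = χ γ := by
  have h1 : botRow ((γ' * γ⁻¹ : Gamma0 N) : SL(2, ℤ)) = ![0, 1] := by
    rw [Subgroup.coe_mul, botRow_mul, h, ← botRow_mul, Subgroup.coe_inv, mul_inv_cancel,
      botRow_one]
  have h2 : ((γ' * γ⁻¹ : Gamma0 N) : SL(2, ℤ)) 1 0 = 0 := by
    have := congrFun h1 0
    simpa [botRow_apply] using this
  have h3 := hpar _ h2
  rw [map_mul, map_inv, mul_inv_eq_one] at h3
  exact h3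

lemma chiWeight_botRow (hpar : ∀ γ : Gamma0 N, (γ : SL(2, ℤ)) 1 0 = 0 → χ γ = 1)
    (γ : Gamma0 N) : chiWeight χ (botRow γ) = (((χ γ)⁻¹ : ℂˣ) : ℂ) := by
  have h : ∃ γ' : Gamma0 N, botRow γ' = botRow γ := ⟨γ, rfl⟩
  rw [chiWeight, dif_pos h, chi_eq_of_botRow_eq hpar h.choose_spec]

lemma chiWeight_of_not_exists {v : Fin 2 → ℤ} (h : ¬ ∃ γ : Gamma0 N, botRow γ = v) :
    chiWeight χ v = 0 := by
  rw [chiWeight, dif_neg h]

lemma chiWeight_vecMul (hpar : ∀ γ : Gamma0 N, (γ : SL(2, ℤ)) 1 0 = 0 → χ γ = 1)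
    (δ : Gamma0 N) (v : Fin 2 → ℤ) :
    chiWeight χ (v ᵥ* ↑ₘ((δ : SL(2, ℤ))⁻¹)) = (χ δ : ℂ) * chiWeight χ v := by
  by_cases h : ∃ γ : Gamma0 N, botRow γ = v
  · obtain ⟨γ, rfl⟩ := h
    have h1 : botRow γ ᵥ* ↑ₘ((δ : SL(2, ℤ))⁻¹) = botRow ((γ * δ⁻¹ : Gamma0 N) : SL(2, ℤ)) := by
      rw [Subgroup.coe_mul, botRow_mul, Subgroup.coe_inv]
    rw [h1, chiWeight_botRow hpar, chiWeight_botRow hpar, map_mul, map_inv, mul_inv, inv_inv,
      Units.val_mul, mul_comm]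
  · have h' : ¬ ∃ γ : Gamma0 N, botRow γ = v ᵥ* ↑ₘ((δ : SL(2, ℤ))⁻¹) := by
      rintro ⟨γ, hγ⟩
      refine h ⟨γ * δ, ?_⟩
      rw [Subgroup.coe_mul, botRow_mul, hγ, vecMul_vecMul, coe_inv_mul_coe, vecMul_one]
    rw [chiWeight_of_not_exists h, chiWeight_of_not_exists h', mul_zero]

lemma norm_chiWeight_le (hfin : ∀ γ, ‖(χ γ : ℂ)‖ = 1) (v : Fin 2 → ℤ) : ‖chiWeight χ v‖ ≤ 1 := by
  by_cases h : ∃ γ : Gamma0 N, botRow γ = v
  · rw [chiWeight, dif_pos h, Units.val_inv_eq_inv_val, norm_inv, hfin, inv_one]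
  · rw [chiWeight_of_not_exists h, norm_zero]
    exact zero_le_one

/-- `-1` as an element of `Γ₀(N)`. -/
def negOneGamma0 (N : ℕ) : Gamma0 N := ⟨-1, by simp [Gamma0_mem]⟩

lemma botRow_negOne : botRow (negOneGamma0 N : SL(2, ℤ)) = ![0, -1] := by
  ext i
  fin_cases i <;> simp [botRow_apply, negOneGamma0]

lemma wConst_chiWeight (hk2 : Even k)
    (hpar : ∀ γ : Gamma0 N, (γ : SL(2, ℤ)) 1 0 = 0 → χ γ = 1) : wConst k (chiWeight χ) = 2 := by
  have hne : (![0, 1] : Fin 2 → ℤ) ≠ ![0, -1] := by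
    intro h
    have := congrFun h 1
    simp at this
  rw [wConst, tsum_eq_sum (s := {![0, 1], ![0, -1]}), Finset.sum_pair hne]
  · have h1 : chiWeight χ ![0, 1] = 1 := by
      have := chiWeight_botRow hpar (1 : Gamma0 N)
      rw [Subgroup.coe_one, botRow_one, map_one] at this
      simpa using this
    have h2 : chiWeight χ ![0, -1] = 1 := by
      have := chiWeight_botRow hpar (negOneGamma0 N)
      rw [botRow_negOne, hpar (negOneGamma0 N) (by simp [negOneGamma0])] at this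
      simpa using this
    rw [h1, h2]
    have h3 : ((-1 : ℂ)) ^ (-k) = 1 := (Even.neg hk2).neg_one_zpow
    simp [h3]
    norm_num
  · intro v hv
    by_cases h0 : v 0 = 0
    · rw [chiWeight_of_not_exists, zero_mul]
      rintro ⟨γ, hγ⟩
      have hdet := Matrix.det_fin_two ↑ₘ(γ : SL(2, ℤ))
      rw [(γ : SL(2, ℤ)).2] at hdet
      have e0 : (γ : SL(2, ℤ)) 1 0 = 0 := by rw [← botRow_apply, hγ, h0]
      have e1 : (γ : SL(2, ℤ)) 1 1 = v 1 := by rw [← botRow_apply, hγ]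
      have hdet' : (γ : SL(2, ℤ)) 0 0 * v 1 = 1 := by
        rw [← e1]
        have : (1 : ℤ) = (γ : SL(2, ℤ)) 0 0 * (γ : SL(2, ℤ)) 1 1 -
          (γ : SL(2, ℤ)) 0 1 * (γ : SL(2, ℤ)) 1 0 := hdet
        rw [e0] at this
        linarith
      have hu : v 1 = 1 ∨ v 1 = -1 := Int.isUnit_iff.mp (IsUnit.of_mul_eq_one _ (by
        rw [mul_comm]; exact hdet'))
      apply hv
      simp only [Finset.mem_insert, Finset.mem_singleton]
      rcases hu with hu | hu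
      · left
        ext i
        fin_cases i <;> simp [h0, hu]
      · right
        ext i
        fin_cases i <;> simp [h0, hu]
    · simp [h0]

/-- The Eisenstein (Poincaré) series of weight `k` attached to a character `χ` of `Γ₀(N)`. -/
def eisChar (k : ℤ) (χ : Gamma0 N →* ℂˣ) : ℍ → ℂ := wEis k (chiWeight χ)

theorem mdiff_eisChar (hk : 3 ≤ k) (hfin : ∀ γ, ‖(χ γ : ℂ)‖ = 1) : MDiff (eisChar k χ) :=
  mdiff_wEis hk (norm_chiWeight_le hfin)

theorem eisChar_slash (hpar : ∀ γ : Gamma0 N, (γ : SL(2, ℤ)) 1 0 = 0 → χ γ = 1)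
    (γ : Gamma0 N) : eisChar k χ ∣[k] (γ : SL(2, ℤ)) = (χ γ : ℂ) • eisChar k χ := by
  rw [eisChar, wEis_slash]
  ext z
  simp only [wEis, chiWeight_vecMul hpar, Pi.smul_apply, smul_eq_mul, mul_assoc, tsum_mul_left]

theorem isBoundedAtImInfty_eisChar_slash (hk : 3 ≤ k) (hfin : ∀ γ, ‖(χ γ : ℂ)‖ = 1)
    (γ : SL(2, ℤ)) : IsBoundedAtImInfty (eisChar k χ ∣[k] γ) :=
  isBoundedAtImInfty_wEis_slash hk (norm_chiWeight_le hfin) γ

lemma T_one_zero : (ModularGroup.T : SL(2, ℤ)) 1 0 = 0 := by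
  simp

/-- `T` as an element of `Γ₀(N)`. -/
def TGamma0 (N : ℕ) : Gamma0 N := ⟨ModularGroup.T, by rw [Gamma0_mem, T_one_zero]; simp⟩

theorem tendsto_eisChar (hk : 3 ≤ k) (hk2 : Even k) (hfin : ∀ γ, ‖(χ γ : ℂ)‖ = 1)
    (hpar : ∀ γ : Gamma0 N, (γ : SL(2, ℤ)) 1 0 = 0 → χ γ = 1) :
    Tendsto (eisChar k χ) atImInfty (𝓝 2) := by
  rw [← wConst_chiWeight hk2 hpar]
  refine tendsto_wEis hk (norm_chiWeight_le hfin) fun v => ?_
  have := chiWeight_vecMul hpar (TGamma0 N) v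
  rw [hpar (TGamma0 N) T_one_zero] at this
  simpa [TGamma0] using this

/-- **Eisenstein series with a character.** -/
theorem exists_eisChar (N : ℕ) (k : ℤ) (hk : 3 ≤ k) (hk2 : Even k) (χ : Gamma0 N →* ℂˣ)
    (hfin : ∀ γ, ‖(χ γ : ℂ)‖ = 1)
    (hpar : ∀ γ : Gamma0 N, (γ : SL(2, ℤ)) 1 0 = 0 → χ γ = 1) :
    ∃ E : ℍ → ℂ, MDiff E ∧ (∀ γ : Gamma0 N, E ∣[k] (γ : SL(2, ℤ)) = (χ γ : ℂ) • E) ∧
      (∀ γ : SL(2, ℤ), IsBoundedAtImInfty (E ∣[k] γ)) ∧ Tendsto E atImInfty (𝓝 2) :=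
  ⟨eisChar k χ, mdiff_eisChar hk hfin, eisChar_slash hpar, isBoundedAtImInfty_eisChar_slash hk hfin,
    tendsto_eisChar hk hk2 hfin hpar⟩

/-! ### Powers: genuine modular forms on `Γ₀(N)` -/

lemma pow_slash_SL2 (k : ℤ) (n : ℕ) (γ : SL(2, ℤ)) (f : ℍ → ℂ) :
    (f ^ n) ∣[(n : ℤ) * k] γ = (f ∣[k] γ) ^ n := by
  induction n with
  | zero =>
    ext z
    simp [SL_slash_apply]
  | succ n ih =>
    rw [pow_succ, pow_succ, ← ih, ← mul_slash_SL2]
    congr 1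
    push_cast
    ring

lemma isBoundedAtImInfty_pow {f : ℍ → ℂ} (hf : IsBoundedAtImInfty f) (n : ℕ) :
    IsBoundedAtImInfty (f ^ n) := by
  induction n with
  | zero =>
    rw [pow_zero]
    exact const_boundedAtFilter _ (1 : ℂ)
  | succ n ih =>
    rw [pow_succ]
    exact BoundedAtFilter.mul ih hf

/-- A holomorphic function which is slash invariant under `Γ₀(N)` and all of whose
`SL(2, ℤ)`-translates are bounded at `i∞`, as a modular form. -/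
def mkModularForm (N : ℕ) [NeZero N] (k : ℤ) (f : ℍ → ℂ) (hhol : MDiff f)
    (hinv : ∀ γ : Gamma0 N, f ∣[k] (γ : SL(2, ℤ)) = f)
    (hbd : ∀ γ : SL(2, ℤ), IsBoundedAtImInfty (f ∣[k] γ)) : ModularForm (Gamma0 N) k where
  toFun := f
  slash_action_eq' A hA := by
    obtain ⟨A, hA, rfl⟩ := hA
    exact hinv ⟨A, hA⟩
  holo' := hhol
  bdd_at_cusps' {c} hc := by
    rw [Subgroup.IsArithmetic.isCusp_iff_isCusp_SL2Z] at hc
    rw [OnePoint.isBoundedAt_iff_forall_SL2Z hc]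
    exact fun γ _ ↦ hbd γ

@[simp] lemma coe_mkModularForm (N : ℕ) [NeZero N] (k : ℤ) (f : ℍ → ℂ) (hhol : MDiff f)
    (hinv : ∀ γ : Gamma0 N, f ∣[k] (γ : SL(2, ℤ)) = f)
    (hbd : ∀ γ : SL(2, ℤ), IsBoundedAtImInfty (f ∣[k] γ)) :
    (mkModularForm N k f hhol hinv hbd : ℍ → ℂ) = f := rfl

/-- If `χ ^ n = 1` then `E_{k,χ} ^ n` is a modular form of weight `n k` on `Γ₀(N)`. -/
theorem exists_modularForm_eisChar_pow (N : ℕ) [NeZero N] (k : ℤ) (hk : 3 ≤ k) (n : ℕ)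
    (χ : Gamma0 N →* ℂˣ) (hn : ∀ γ, χ γ ^ n = 1) (hn0 : n ≠ 0)
    (hpar : ∀ γ : Gamma0 N, (γ : SL(2, ℤ)) 1 0 = 0 → χ γ = 1) :
    ∃ F : ModularForm (Gamma0 N) ((n : ℤ) * k), (F : ℍ → ℂ) = eisChar k χ ^ n := by
  have hfin : ∀ γ, ‖(χ γ : ℂ)‖ = 1 := fun γ => by
    have h1 : (χ γ : ℂ) ^ n = 1 := by
      have := congrArg Units.val (hn γ)
      simpa using this
    exact Complex.norm_eq_one_of_pow_eq_one h1 hn0
  refine ⟨mkModularForm N _ (eisChar k χ ^ n) ((mdiff_eisChar hk hfin).pow n) (fun γ => ?_)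
    (fun γ => ?_), rfl⟩
  · rw [pow_slash_SL2, eisChar_slash hpar, smul_pow]
    have h1 : (χ γ : ℂ) ^ n = 1 := by
      have := congrArg Units.val (hn γ)
      simpa using this
    rw [h1, one_smul]
  · rw [pow_slash_SL2]
    have := isBoundedAtImInfty_eisChar_slash hk hfin (χ := χ) γ
    exact isBoundedAtImInfty_pow this n

end

end Fermat.Agent.GR.A
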