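import Fermat.Agent.S24.Hol
import Fermat.Agent.S28.An.Defs
import Fermat.Agent.GR.Defs

/-!
# GR-A / GR-B: shared definitions for the analytic side (over `ℂ`)

* `IsModFun N h`: `h` is a holomorphic modular function for `Γ₀(N)` (holomorphic on `ℍ`, invariant,
  meromorphic at all cusps).
* `HasRoot N n c w φ`: `w` is a holomorphic `n`-th root of the holomorphic modular function `c ≠ 0`,
  and `w ∘ γ = e(φ γ / n) w`.
* `HasChar N n u φ`: the class of `u ∈ ℂ((q))` modulo `n`-th powers of the function field contains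
  the `q`-expansion of such a `c`.   This is the relation "`χ_u = φ`" of the blueprint.
-/

set_option autoImplicit false

open UpperHalfPlane CongruenceSubgroup
open scoped MatrixGroups Manifold

namespace Fermat.Agent.GR.A

/-- holomorphic modular functions for `Γ₀(N)`. -/
def IsModFun (N : ℕ) (h : ℍ → ℂ) : Prop :=
  MDiff h ∧ (∀ γ ∈ Gamma0 N, ∀ τ : ℍ, h (γ • τ) = h τ) ∧
    ∀ γ : SL(2, ℤ), (fun τ : ℍ => h (γ • τ)) ∈ S24.MerInf N

/-- `w` is a holomorphic `n`-th root of the nonzero holomorphic modular function `c`, with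
character `φ`. -/
structure HasRoot (N n : ℕ) [NeZero n] (c w : ℍ → ℂ) (φ : Additive (Gamma0 N) →+ ZMod n) :
    Prop where
  modFun : IsModFun N c
  ne_zero : ∃ τ, c τ ≠ 0
  mdiff : MDiff w
  pow_eq : ∀ τ, w τ ^ n = c τ
  char : ∀ (γ : Gamma0 N) (τ : ℍ),
    w ((γ : SL(2, ℤ)) • τ) = ZMod.stdAddChar (φ (Additive.ofMul γ)) * w τ

/-- "`χ_u = φ`": modulo `n`-th powers of `FF ℂ N`, `u` is the `q`-expansion of a holomorphic modular
function having a holomorphic `n`-th root with character `φ`. -/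
def HasChar (N n : ℕ) [NeZero n] (u : LaurentSeries ℂ) (φ : Additive (Gamma0 N) →+ ZMod n) : Prop :=
  ∃ (c w : ℍ → ℂ) (f : LaurentSeries ℂ), HasRoot N n c w φ ∧ S28.IsExp 1 c f ∧ KummerEquiv N n f u

end Fermat.Agent.GR.A
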