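import Fermat.Agent.S24.Count

/-!
# GR-A, piece COUNT (generic algebra, refinement of `S24.UnifData.card_zeros`)
-/

set_option autoImplicit false

namespace Fermat.Agent.GR.A

open AlgebraicCurve IntermediateField
open Fermat.Agent.S24 (UnifData exists_zeros_finset exists_order_eq_mul_ord)

variable {K F : Type} [Field K] [Field F] [Algebra K F]

/-- combinatorial core: all the inequalities are equalities. -/
theorem eq_of_sum_le {Q Z : Type} [Fintype Q] [Fintype Z] [DecidableEq Z] (p : Q → Z)
    (hp : Function.Surjective p) (size : Q → ℕ) (e : Z → ℕ) (he : ∀ z, 0 < e z)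
    (hle : ∀ q, e (p q) ≤ size q) (hsum : ∑ q, size q = ∑ z, e z) (q : Q) :
    e (p q) = size q := by
  classical
  have h1 : ∑ q, e (p q) ≤ ∑ z, e z := hsum ▸ Finset.sum_le_sum fun q _ => hle q
  have h2 : ∑ q, e (p q) = ∑ z, (Finset.univ.filter fun q => p q = z).card * e z := by
    rw [Finset.sum_comp e p]
    have : Finset.univ.image p = Finset.univ := by
      ext z; simpa using hp z
    rw [this]
    simp
  have h3 : ∀ z ∈ (Finset.univ : Finset Z),
      e z ≤ (Finset.univ.filter fun q => p q = z).card * e z := by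
    intro z _
    obtain ⟨q, hq⟩ := hp z
    have : 0 < (Finset.univ.filter fun q => p q = z).card :=
      Finset.card_pos.2 ⟨q, by simp [hq]⟩
    nlinarith [he z]
  have h4 : ∑ z, e z ≤ ∑ q, e (p q) := h2 ▸ Finset.sum_le_sum h3
  have h5 : ∑ q, e (p q) = ∑ q, size q := by
    rw [hsum]; exact le_antisymm h1 h4
  exact (Finset.sum_eq_sum_iff_of_le (fun q _ => hle q)).1 h5 q (Finset.mem_univ q)

/-- PIECE COUNT. The ramification index of `x` at the place induced by the embedding `φ i` is the
length of the `g`-orbit of `i`. -/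
theorem ord_eq_minimalPeriod [IsAlgClosed K] [CharZero K] {X : Type} [Finite X] {x : F}
    {e0 : ℕ} {g : Equiv.Perm X} (U : UnifData K F X x e0 g) (hx : Transcendental K x)
    [FiniteDimensional K⟮x⟯ F] (hn : Nat.card X = Module.finrank K⟮x⟯ F) (i : X) (v : Place K F)
    (h : ∀ f : F, f ∈ v.toValuationSubring ↔ 0 ≤ (U.φ i f).order) :
    v.ord x = (Function.minimalPeriod g i : ℤ) := by
  classical
  haveI := Fintype.ofFinite X
  obtain ⟨Z', hZ', hsum⟩ := exists_zeros_finset (K := K) x hx
  -- the place induced by an embedding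
  choose pl hpl0 hpl using fun i => U.exists_place hx i
  have hperm : ∀ i, pl (g i) = pl i := by
    intro i
    apply Place.ext
    ext f
    rw [hpl, hpl, U.order_perm]
  have hzpow : ∀ (n : ℤ) i, pl ((g ^ n) i) = pl i := by
    intro n i
    induction n using Int.induction_on generalizing i with
    | zero => simp
    | succ n ih => rw [zpow_add_one, Equiv.Perm.mul_apply, ih, hperm]
    | pred n ih =>
      rw [zpow_sub_one, Equiv.Perm.mul_apply, ih]
      have := hperm (g⁻¹ i)
      have h2 : g (g⁻¹ i) = i := by simp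
      rw [h2] at this
      exact this.symm
  let Q := MulAction.orbitRel.Quotient (Subgroup.zpowers g) X
  haveI : Fintype Q := Fintype.ofFinite Q
  let p : Q → Z' := Quotient.lift (fun i => (⟨pl i, (hZ' _).2 (hpl0 i)⟩ : Z')) (by
    rintro a b ⟨⟨σ, n, rfl⟩, rfl⟩
    apply Subtype.ext
    exact hzpow n b)
  have hp : Function.Surjective p := by
    rintro ⟨v, hv⟩
    obtain ⟨i, hi⟩ := U.exists_induced hx hn v ((hZ' v).1 hv)
    refine ⟨Quotient.mk'' i, Subtype.ext ?_⟩
    apply Place.ext
    ext f
    show f ∈ (pl i).toValuationSubring ↔ _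
    rw [hpl, hi]
  have hcard : ∀ i : X, Nat.card (MulAction.orbit (Subgroup.zpowers g) i) =
      Function.minimalPeriod g i := by
    intro i
    haveI : Fintype (MulAction.orbit (Subgroup.zpowers g) i) := Fintype.ofFinite _
    rw [Nat.card_eq_fintype_card, ← MulAction.minimalPeriod_eq_card]
    rfl
  have key := eq_of_sum_le p hp (fun q => Nat.card q.orbit) (fun z => (z.1.ord x).toNat)
    (fun z => by have := (hZ' z.1).1 z.2; omega)
    (by
      intro q
      induction q using Quotient.inductionOn' with
      | h i =>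
        show ((pl i).ord x).toNat ≤ Nat.card (MulAction.orbitRel.Quotient.orbit (Quotient.mk'' i))
        rw [MulAction.orbitRel.Quotient.orbit_mk, hcard]
        have hper : Function.IsPeriodicPt g (Function.minimalPeriod g i) i :=
          Function.isPeriodicPt_minimalPeriod _ _
        have hpos : 0 < Function.minimalPeriod g i := by
          apply Function.IsPeriodicPt.minimalPeriod_pos (n := orderOf g) (orderOf_pos g)
          show g^[orderOf g] i = i
          rw [Equiv.Perm.iterate_eq_pow, pow_orderOf_eq_one]; rfl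
        have hw : (g ^ (Function.minimalPeriod g i)) i = i := by
          rw [← Equiv.Perm.iterate_eq_pow]
          exact hper
        have hdvd := U.ord_dvd_of_period i (pl i) (hpl i) _ hw
        have := Int.le_of_dvd (by exact_mod_cast hpos) hdvd
        omega)
    (by
      have h1 : ∑ q : Q, Nat.card q.orbit = Nat.card X := by
        rw [Nat.card_congr (MulAction.selfEquivSigmaOrbits' (Subgroup.zpowers g) X), Nat.card_sigma]
      rw [h1, hn]
      have h2 : ((∑ z : Z', (z.1.ord x).toNat : ℕ) : ℤ) = ∑ v ∈ Z', v.ord x := by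
        rw [← Finset.sum_coe_sort Z' (fun v => v.ord x)]
        push_cast
        refine Finset.sum_congr rfl fun z _ => ?_
        have := (hZ' z.1).1 z.2
        omega
      have : ((∑ z : Z', (z.1.ord x).toNat : ℕ) : ℤ) = (Module.finrank K⟮x⟯ F : ℤ) := by
        rw [h2, hsum]
      exact_mod_cast this.symm)
    (Quotient.mk'' i)
  have hv : v = pl i := by
    apply Place.ext
    ext f
    rw [hpl, h]
  have key2 : ((pl i).ord x).toNat = Nat.card (MulAction.orbit (Subgroup.zpowers g) i) := by
    have := key
    rwa [MulAction.orbitRel.Quotient.orbit_mk] at this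
  rw [hcard] at key2
  rw [hv, ← key2]
  have := hpl0 i
  omega

/-- Corollary. -/
theorem exists_mul_minimalPeriod_eq [IsAlgClosed K] [CharZero K] {X : Type} [Finite X] {x : F}
    {e0 : ℕ} {g : Equiv.Perm X} (U : UnifData K F X x e0 g) (hx : Transcendental K x)
    [FiniteDimensional K⟮x⟯ F] (hn : Nat.card X = Module.finrank K⟮x⟯ F) (i : X) (v : Place K F)
    (h : ∀ f : F, f ∈ v.toValuationSubring ↔ 0 ≤ (U.φ i f).order) :
    ∃ k : ℕ, 0 < k ∧ k * Function.minimalPeriod g i = e0 ∧
      ∀ f : F, (U.φ i f).order = (k : ℤ) * v.ord f := by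
  obtain ⟨k, hk, hkf⟩ := exists_order_eq_mul_ord v (U.φ i) h
  refine ⟨k, hk, ?_, hkf⟩
  have h1 := hkf x
  rw [U.order_x, ord_eq_minimalPeriod U hx hn i v h] at h1
  exact_mod_cast h1.symm

end Fermat.Agent.GR.A
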