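import Mathlib

/-!
# GR-A, F1: a finite order element of `SL(2,ℤ)` different from `±1` has a fixed point in `ℍ`
-/

set_option autoImplicit false

namespace Fermat.Agent.GR.A

open UpperHalfPlane
open scoped MatrixGroups

/-- the sequence `p_0 = 0, p_1 = 1, p_{k+2} = t p_{k+1} - p_k`. -/
def SL2Fix1_p (t : ℤ) : ℕ → ℤ
  | 0 => 0
  | 1 => 1
  | (k + 2) => t * SL2Fix1_p t (k + 1) - SL2Fix1_p t k

theorem SL2Fix1_abs_lt (t : ℤ) (ht : 2 ≤ |t|) (k : ℕ) :
    |SL2Fix1_p t k| < |SL2Fix1_p t (k + 1)| := by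
  induction k with
  | zero => simp [SL2Fix1_p]
  | succ k ih =>
    have h1 : SL2Fix1_p t (k + 2) = t * SL2Fix1_p t (k + 1) - SL2Fix1_p t k := rfl
    rw [show k + 1 + 1 = k + 2 from rfl, h1]
    have h2 : |t * SL2Fix1_p t (k + 1)| - |SL2Fix1_p t k| ≤
        |t * SL2Fix1_p t (k + 1) - SL2Fix1_p t k| := abs_sub_abs_le_abs_sub _ _
    rw [abs_mul] at h2
    have h3 : 0 ≤ |SL2Fix1_p t (k + 1)| := abs_nonneg _
    nlinarith

theorem SL2Fix1_p_ne_zero (t : ℤ) (ht : 2 ≤ |t|) (k : ℕ) : SL2Fix1_p t (k + 1) ≠ 0 := by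
  intro h
  have := SL2Fix1_abs_lt t ht k
  rw [h, abs_zero] at this
  exact absurd this (not_lt.mpr (abs_nonneg _))

theorem SL2Fix1_sq (M : Matrix (Fin 2) (Fin 2) ℤ) (hdet : M.det = 1) :
    M * M = M.trace • M - 1 := by
  rw [Matrix.det_fin_two] at hdet
  ext i j
  fin_cases i <;> fin_cases j <;>
    simp only [Matrix.mul_apply, Fin.sum_univ_two, Matrix.trace_fin_two, Matrix.sub_apply,
      Matrix.smul_apply, smul_eq_mul, Fin.zero_eta, Fin.mk_one, Fin.isValue, Matrix.one_apply_eq,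
      ne_eq, zero_ne_one, one_ne_zero, not_false_eq_true, Matrix.one_apply_ne] <;>
    first
      | linear_combination (-1 : ℤ) * hdet
      | linear_combination (0 : ℤ) * hdet

theorem SL2Fix1_pow (M : Matrix (Fin 2) (Fin 2) ℤ) (hdet : M.det = 1) (k : ℕ) :
    M ^ (k + 1) = SL2Fix1_p M.trace (k + 1) • M - SL2Fix1_p M.trace k • 1 := by
  induction k with
  | zero => simp [SL2Fix1_p]
  | succ k ih =>
    have h1 : SL2Fix1_p M.trace (k + 2) =
        M.trace * SL2Fix1_p M.trace (k + 1) - SL2Fix1_p M.trace k := rfl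
    rw [pow_succ, ih, show k + 1 + 1 = k + 2 from rfl, h1, sub_mul, smul_mul_assoc,
      SL2Fix1_sq M hdet, smul_mul_assoc, one_mul]
    module

/-- a finite order element different from `±1` has `|trace| ≤ 1`. -/
theorem SL2Fix1_abs_trace_lt (γ : SL(2, ℤ)) (hγ : IsOfFinOrder γ) (h1 : γ ≠ 1) (h2 : γ ≠ -1) :
    |(γ : Matrix (Fin 2) (Fin 2) ℤ).trace| < 2 := by
  by_contra hcon
  push Not at hcon
  obtain ⟨n, hn, hpow⟩ := isOfFinOrder_iff_pow_eq_one.mp hγ
  obtain ⟨k, rfl⟩ : ∃ k, n = k + 1 := ⟨n - 1, by omega⟩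
  set M : Matrix (Fin 2) (Fin 2) ℤ := (γ : Matrix (Fin 2) (Fin 2) ℤ) with hM
  have hdet : M.det = 1 := γ.2
  have hMpow : M ^ (k + 1) = 1 := by
    have := congrArg (fun g : SL(2, ℤ) => (g : Matrix (Fin 2) (Fin 2) ℤ)) hpow
    simpa using this
  have hp := SL2Fix1_p_ne_zero M.trace hcon k
  have hrel := SL2Fix1_pow M hdet k
  rw [hMpow] at hrel
  set P := SL2Fix1_p M.trace (k + 1) with hP
  set Q := SL2Fix1_p M.trace k with hQ
  have e01 := congrFun (congrFun hrel 0) 1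
  have e10 := congrFun (congrFun hrel 1) 0
  have e00 := congrFun (congrFun hrel 0) 0
  have e11 := congrFun (congrFun hrel 1) 1
  simp only [Matrix.sub_apply, Matrix.smul_apply, smul_eq_mul, Fin.isValue, Matrix.one_apply_eq,
      ne_eq, zero_ne_one, one_ne_zero, not_false_eq_true, Matrix.one_apply_ne, mul_zero, mul_one,
      sub_zero] at e01 e10 e00 e11
  have hb : M 0 1 = 0 := by
    rcases mul_eq_zero.mp e01.symm with h | h
    · exact absurd h hp
    · exact h
  have hc : M 1 0 = 0 := by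
    rcases mul_eq_zero.mp e10.symm with h | h
    · exact absurd h hp
    · exact h
  have had : M 0 0 = M 1 1 := by
    have : P * (M 0 0 - M 1 1) = 0 := by linarith
    rcases mul_eq_zero.mp this with h | h
    · exact absurd h hp
    · linarith
  rw [Matrix.det_fin_two, hb, hc, ← had] at hdet
  have ha : M 0 0 = 1 ∨ M 0 0 = -1 := by
    have : (M 0 0 - 1) * (M 0 0 + 1) = 0 := by linarith
    rcases mul_eq_zero.mp this with h | h
    · left; linarith
    · right; linarith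
  rcases ha with ha | ha
  · have hd1 : M 1 1 = 1 := by rw [← had]; exact ha
    apply h1
    ext i j
    fin_cases i <;> fin_cases j
    · simpa using ha
    · simpa using hb
    · simpa using hc
    · simpa using hd1
  · have hd1 : M 1 1 = -1 := by rw [← had]; exact ha
    apply h2
    ext i j
    fin_cases i <;> fin_cases j
    · simpa using ha
    · simpa using hb
    · simpa using hc
    · simpa using hd1

theorem exists_fixed_of_finOrder (γ : SL(2, ℤ)) (hγ : IsOfFinOrder γ) (h1 : γ ≠ 1) (h2 : γ ≠ -1) :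
    ∃ τ : ℍ, γ • τ = τ := by
  have ht := SL2Fix1_abs_trace_lt γ hγ h1 h2
  rw [Matrix.trace_fin_two] at ht
  have hdet : (γ : Matrix (Fin 2) (Fin 2) ℤ).det = 1 := γ.2
  rw [Matrix.det_fin_two] at hdet
  set a : ℤ := γ 0 0 with ha
  set b : ℤ := γ 0 1 with hb
  set c : ℤ := γ 1 0 with hc
  set d : ℤ := γ 1 1 with hd
  have ht2 : (a + d) ^ 2 < 4 := by
    have := abs_lt.mp ht
    nlinarith
  have hc0 : c ≠ 0 := by
    intro h0
    rw [h0, mul_zero, sub_zero] at hdet
    have : (a - d) ^ 2 ≥ 0 := sq_nonneg _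
    nlinarith
  have hcR : (c : ℝ) ≠ 0 := by exact_mod_cast hc0
  have hdetR : (a : ℝ) * d - b * c = 1 := by exact_mod_cast hdet
  have ht2R : ((a : ℝ) + d) ^ 2 < 4 := by exact_mod_cast ht2
  set s : ℝ := Real.sqrt (4 - ((a : ℝ) + d) ^ 2) with hs
  have hs0 : 0 < s := Real.sqrt_pos.mpr (by linarith)
  have hs2 : s ^ 2 = 4 - ((a : ℝ) + d) ^ 2 := Real.sq_sqrt (by linarith)
  set x : ℝ := ((a : ℝ) - d) / (2 * c) with hx
  set y : ℝ := s / (2 * |(c : ℝ)|) with hy
  have hy0 : 0 < y := by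
    have : 0 < |(c : ℝ)| := abs_pos.mpr hcR
    positivity
  have hy2 : y ^ 2 = (4 - ((a : ℝ) + d) ^ 2) / (4 * (c : ℝ) ^ 2) := by
    rw [hy, div_pow, mul_pow, sq_abs, hs2]
    norm_num
  have hre : (a : ℝ) * x + b = c * x ^ 2 - c * y ^ 2 + d * x := by
    have hx1 : 2 * (c : ℝ) * x = a - d := by rw [hx]; field_simp
    have hy1 : 4 * (c : ℝ) ^ 2 * y ^ 2 = 4 - ((a : ℝ) + d) ^ 2 := by rw [hy2]; field_simp
    have key : 4 * (c : ℝ) * ((a : ℝ) * x + b - (c * x ^ 2 - c * y ^ 2 + d * x)) = 0 := by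
      linear_combination (2 * (a : ℝ) - 2 * d - 2 * c * x - (a - d)) * hx1 + hy1 - 4 * hdetR
    have h4c : 4 * (c : ℝ) ≠ 0 := by positivity
    have := (mul_eq_zero.mp key).resolve_left h4c
    linarith
  have him : (a : ℝ) * y = 2 * c * x * y + d * y := by
    have hx1 : 2 * (c : ℝ) * x = a - d := by rw [hx]; field_simp
    linear_combination (-y) * hx1
  have hreC : (a : ℂ) * x + b = c * (x : ℂ) ^ 2 - c * (y : ℂ) ^ 2 + d * x := by exact_mod_cast hre
  have himC : (a : ℂ) * y = 2 * c * x * y + d * y := by exact_mod_cast him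
  let τ : ℍ := ⟨(x : ℂ) + y * Complex.I, by simpa using hy0⟩
  have hτ : (τ : ℂ) = (x : ℂ) + y * Complex.I := rfl
  refine ⟨τ, ?_⟩
  apply UpperHalfPlane.ext
  rw [coe_specialLinearGroup_apply]
  have hden : ((algebraMap ℤ ℝ (γ 1 0) : ℝ) : ℂ) * (τ : ℂ) + ((algebraMap ℤ ℝ (γ 1 1) : ℝ) : ℂ) ≠ 0 := by
    intro h0
    have := congrArg Complex.im h0
    simp [hτ] at this
    rcases this with h | h
    · exact hc0 h
    · exact hy0.ne' h
  rw [div_eq_iff hden, hτ]
  simp only [algebraMap_int_eq, Int.coe_castRingHom, Complex.ofReal_intCast]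
  linear_combination hreC + Complex.I * himC - (c : ℂ) * (y : ℂ) ^ 2 * Complex.I_sq

end Fermat.Agent.GR.A
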