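import Mathlib

/-!
# GR-A F2 : an element of `SL(2, ℤ)` with `trace ^ 2 = 4` is `±` a conjugate of a power of `T`
-/

namespace Fermat.Agent.GR.A

open scoped MatrixGroups

/-- a primitive integral vector in the kernel of `!![x, b; c, -x]`, `x ^ 2 + b * c = 0`. -/
theorem SL2Fix2_exists_kernel (x b c : ℤ) (h : x ^ 2 + b * c = 0) :
    ∃ p r : ℤ, IsCoprime p r ∧ x * p + b * r = 0 ∧ c * p - x * r = 0 := by
  by_cases h0 : x = 0 ∧ b = 0
  · obtain ⟨rfl, rfl⟩ := h0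
    exact ⟨0, 1, isCoprime_zero_left.2 isUnit_one, by ring, by ring⟩
  · have hg : 0 < Int.gcd x b := by
      rw [Int.gcd_pos_iff]
      by_contra hcon
      push Not at hcon
      exact h0 hcon
    obtain ⟨g, x', b', hg0, hcop, hx, hb⟩ := Int.exists_gcd_one' hg
    have hg' : (g : ℤ) ≠ 0 := by exact_mod_cast hg0.ne'
    refine ⟨b', -x', ?_, ?_, ?_⟩
    · exact (Int.isCoprime_iff_gcd_eq_one.2 hcop).symm.neg_right
    · rw [hx, hb]; ring
    · apply mul_left_cancel₀ hg'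
      rw [mul_zero]
      have h1 : (g : ℤ) * (c * b' - x * -x') = x * (x' * g) + (b' * g) * c := by ring
      rw [h1, ← hx, ← hb, ← h]; ring

/-- the case of trace `2`. -/
theorem SL2Fix2_exists_conj_T_of_trace_eq_two (γ : SL(2, ℤ))
    (hγ : (γ : Matrix (Fin 2) (Fin 2) ℤ).trace = 2) :
    ∃ (δ : SL(2, ℤ)) (k : ℤ), γ = δ * ModularGroup.T ^ k * δ⁻¹ := by
  obtain ⟨a, ha⟩ : ∃ a, a = γ 0 0 := ⟨_, rfl⟩
  obtain ⟨b, hb⟩ : ∃ b, b = γ 0 1 := ⟨_, rfl⟩
  obtain ⟨c, hc⟩ : ∃ c, c = γ 1 0 := ⟨_, rfl⟩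
  obtain ⟨d, hd⟩ : ∃ d, d = γ 1 1 := ⟨_, rfl⟩
  have h4 : a + d = 2 := by
    rw [Matrix.trace_fin_two] at hγ
    rw [ha, hd]; exact hγ
  have hdet : a * d - b * c = 1 := by
    have := γ.det_coe
    rw [Matrix.det_fin_two] at this
    rw [ha, hb, hc, hd]; exact this
  obtain ⟨p, r, hcop, hk1, hk2⟩ := SL2Fix2_exists_kernel (a - 1) b c
    (by linear_combination (-1 : ℤ) * hdet + a * h4)
  obtain ⟨δ, hδ0, hδ1⟩ := hcop.exists_SL2_col 0
  obtain ⟨q, hq⟩ : ∃ q, q = δ 0 1 := ⟨_, rfl⟩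
  obtain ⟨s, hs⟩ : ∃ s, s = δ 1 1 := ⟨_, rfl⟩
  have h3 : p * s - q * r = 1 := by
    have := δ.det_coe
    rw [Matrix.det_fin_two] at this
    rw [← hδ0, ← hδ1, hq, hs]; exact this
  have h1 : (a - 1) * p + b * r = 0 := hk1
  have h2 : c * p + (d - 1) * r = 0 := by linear_combination hk2 + r * h4
  refine ⟨δ, (a - d) * q * s + b * s ^ 2 - c * q ^ 2, ?_⟩
  apply eq_mul_inv_of_mul_eq
  ext i j
  rw [Matrix.SpecialLinearGroup.coe_mul, Matrix.SpecialLinearGroup.coe_mul,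
    ModularGroup.coe_T_zpow, Matrix.mul_apply, Matrix.mul_apply, Fin.sum_univ_two,
    Fin.sum_univ_two]
  fin_cases i <;> fin_cases j
  · simp only [Fin.zero_eta, Fin.isValue, Matrix.of_apply, Matrix.cons_val', Matrix.cons_val_zero,
      Matrix.cons_val_one, Matrix.cons_val_fin_one, ← ha, ← hb, hδ0, hδ1]
    linear_combination h1
  · simp only [Fin.zero_eta, Fin.mk_one, Fin.isValue, Matrix.of_apply, Matrix.cons_val',
      Matrix.cons_val_zero, Matrix.cons_val_one, Matrix.cons_val_fin_one, ← ha, ← hb, ← hq, ← hs,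
      hδ0]
    linear_combination (-1 : ℤ) * (((1 - d) * q + b * s) * h3 + s * q * h1 - q ^ 2 * h2 - q * h4)
  · simp only [Fin.zero_eta, Fin.mk_one, Fin.isValue, Matrix.of_apply, Matrix.cons_val',
      Matrix.cons_val_zero, Matrix.cons_val_one, Matrix.cons_val_fin_one, ← hc, ← hd, hδ0, hδ1]
    linear_combination h2
  · simp only [Fin.mk_one, Fin.isValue, Matrix.of_apply, Matrix.cons_val',
      Matrix.cons_val_zero, Matrix.cons_val_one, Matrix.cons_val_fin_one, ← hc, ← hd, ← hq, ← hs,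
      hδ1]
    linear_combination (-1 : ℤ) * (((1 - a) * s + c * q) * h3 + s ^ 2 * h1 - q * s * h2 - s * h4)

theorem exists_conj_T_of_trace (γ : SL(2, ℤ))
    (hγ : (γ : Matrix (Fin 2) (Fin 2) ℤ).trace ^ 2 = 4) :
    ∃ (δ : SL(2, ℤ)) (k : ℤ),
      γ = δ * ModularGroup.T ^ k * δ⁻¹ ∨ γ = -(δ * ModularGroup.T ^ k * δ⁻¹) := by
  have h : (γ : Matrix (Fin 2) (Fin 2) ℤ).trace = 2 ∨ (γ : Matrix (Fin 2) (Fin 2) ℤ).trace = -2 := by
    have h1 : ((γ : Matrix (Fin 2) (Fin 2) ℤ).trace - 2) *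
        ((γ : Matrix (Fin 2) (Fin 2) ℤ).trace + 2) = 0 := by linear_combination hγ
    rcases mul_eq_zero.1 h1 with h2 | h2
    · left; linarith
    · right; linarith
  rcases h with h | h
  · obtain ⟨δ, k, hk⟩ := SL2Fix2_exists_conj_T_of_trace_eq_two γ h
    exact ⟨δ, k, Or.inl hk⟩
  · obtain ⟨δ, k, hk⟩ := SL2Fix2_exists_conj_T_of_trace_eq_two (-γ) (by
      rw [Matrix.SpecialLinearGroup.coe_neg, Matrix.trace_neg, h]; norm_num)
    exact ⟨δ, k, Or.inr (by rw [← hk, neg_neg])⟩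

end Fermat.Agent.GR.A
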