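import Fermat.Agent.S28.Analytic
import Fermat.Agent.S24.Conj
import Fermat.Agent.GR.Defs

/-!
# GR-A / (A-mod): holomorphic `Γ₀(N)`-invariant functions with Laurent expansions at all cusps
lie in the function field `FF ℂ N`.
-/

set_option autoImplicit false

namespace Fermat.Agent.GR.A

open ModularCurve Polynomial UpperHalfPlane Complex
open scoped MatrixGroups Real Manifold
open Fermat.Agent.S28

noncomputable section

theorem mod_affH_eq_mulPos (d : ℕ) [NeZero d] (τ : ℍ) : affH d 0 1 τ = S24.mulPos d τ := by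
  apply UpperHalfPlane.ext
  rw [coe_affH 0 (Nat.pos_of_ne_zero (NeZero.ne d)) one_pos, S24.coe_mulPos]
  simp

theorem mod_jdF_eq_jdfun (d : ℕ) [NeZero d] (τ : ℍ) : jdF d τ = S24.jdfun d τ := by
  unfold jdF S24.jdfun
  rw [mod_affH_eq_mulPos]
  rfl

/-- change of the local parameter `q ↦ t = q^{1/N}`. -/
theorem isExp_level (N : ℕ) [NeZero N] {h : ℍ → ℂ} {u : LaurentSeries ℂ} (H : IsExp 1 h u) :
    IsExp N h (qExpand ℂ N u) := by
  have h1 := H.comp_affH (N := N) (a := 1) (δ := 1) (m := N) 0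
    (Nat.pos_of_ne_zero (NeZero.ne N)) one_pos one_pos (by ring)
  rw [sym_rootU_zero_one, substL_one] at h1
  simpa [sym_affH_one] using h1

theorem mod_evP_qExpand (N : ℕ) [NeZero N] (x : LaurentSeries ℂ) :
    (qExpand ℂ N).comp (evP ℂ x) = evP ℂ (qExpand ℂ N x) := by
  apply Polynomial.ringHom_ext
  · intro p
    show qExpand ℂ N (aeval x (C p)) = aeval (qExpand ℂ N x) (C p)
    rw [aeval_C, aeval_C]
    exact (qExpandAlgHomC ℂ N).commutes p
  · show qExpand ℂ N (aeval x X) = aeval (qExpand ℂ N x) X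
    rw [aeval_X, aeval_X]

theorem mod_eval₂_qExpand (N : ℕ) [NeZero N] (x y : LaurentSeries ℂ) (P : ℂ[X][X]) :
    P.eval₂ (evP ℂ (qExpand ℂ N x)) (qExpand ℂ N y) = qExpand ℂ N (P.eval₂ (evP ℂ x) y) := by
  rw [Polynomial.hom_eval₂, mod_evP_qExpand]

theorem mod_eval₂_mem {K L : Type*} [Field K] [Field L] [Algebra K L] (E : IntermediateField K L)
    {x y : L} (hx : x ∈ E) (hy : y ∈ E) (P : K[X][X]) : P.eval₂ (evP K x) y ∈ E := by
  rw [Polynomial.eval₂_eq_sum_range]
  refine sum_mem fun i _ => mul_mem ?_ (pow_mem hy i)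
  show aeval x (P.coeff i) ∈ E
  have := IntermediateField.aeval_coe E (⟨x, hx⟩ : E) (P.coeff i)
  simp only at this
  rw [this]
  exact Subtype.prop _

/-- **(A-mod), holomorphic case.** A holomorphic `Γ₀(N)`-invariant function on `ℍ` having a Laurent
expansion in `t = q^{1/N}` at every cusp is (the function of) an element of `ℂ(j, j_N)`. -/
theorem mem_FF_of_invariant (N : ℕ) [NeZero N] (h : ℍ → ℂ) (u : LaurentSeries ℂ)
    (hhol : MDiff h)
    (hinv : ∀ γ ∈ CongruenceSubgroup.Gamma0 N, ∀ τ, h (γ • τ) = h τ)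
    (hcusp : ∀ γ : SL(2, ℤ), ∃ F : LaurentSeries ℂ, IsExp N (fun τ => h (γ • τ)) F)
    (hu : IsExp 1 h u) : u ∈ FF ℂ N := by
  classical
  let _ : Fintype (Cos N) := Fintype.ofFinite _
  have hN : 0 < N := Nat.pos_of_ne_zero (NeZero.ne N)
  set q₀ : Cos N := ((1 : SL(2, ℤ)) : Cos N) with hq₀
  let f : Cos N → ℍ → ℂ := fun q τ => jdF N (cosRep N q • τ)
  choose F hF using fun q : Cos N => exists_isExp_jdF_smul N N dvd_rfl (cosRep N q)
  have hholf : ∀ q, MDiff (f q) := fun q => mdiff_comp_smul (mdiff_jdF N) (cosRep N q)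
  let perm : SL(2, ℤ) → Equiv.Perm (Cos N) := fun γ => MulAction.toPerm γ⁻¹
  have hperm : ∀ γ q τ, f q (γ • τ) = f (perm γ q) τ := fun γ q τ =>
    cosRep_smul N (jdF_smul_of_mem_Gamma0 N N dvd_rfl) γ q τ
  let g : Cos N → ℍ → ℂ := fun q τ => h (cosRep N q • τ)
  choose G hG using fun q : Cos N => hcusp (cosRep N q)
  have hholg : ∀ q, MDiff (g q) := fun q => mdiff_comp_smul hhol (cosRep N q)
  have hpermg : ∀ γ q τ, g q (γ • τ) = g (perm γ q) τ := fun γ q τ => cosRep_smul N hinv γ q τ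
  have hf₀ : f q₀ = jdF N := by
    funext τ
    exact jdF_smul_of_mem_Gamma0 N N dvd_rfl _ (cosRep_one_mem N) τ
  have hF₀ : F q₀ = qExpand ℂ N (qExpand ℂ N (jqModC ℂ)) := by
    refine IsExp.unique hN (hF q₀) ?_
    have h1 := isExp_jdF N N dvd_rfl
    rw [← hf₀] at h1
    exact h1
  have hG₀ : G q₀ = qExpand ℂ N u := by
    refine IsExp.unique hN (hG q₀) ?_
    have h1 := isExp_level N hu
    have h2 : g q₀ = h := by
      funext τ
      exact hinv _ (cosRep_one_mem N) τ
    rw [← h2] at h1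
    exact h1
  obtain ⟨W, hW⟩ := sym_prod N f F hF hholf perm hperm
  obtain ⟨P, hP⟩ := sym_interp N f F hF hholf g G hG hholg perm hperm hpermg
  set D : LaurentSeries ℂ := ∏ k ∈ Finset.univ.erase q₀, (F q₀ - F k) with hD
  have hD0 : D ≠ 0 := by
    rw [hD, Finset.prod_ne_zero_iff]
    intro k hk h0
    have hk' : k ≠ q₀ := Finset.ne_of_mem_erase hk
    apply cosRep_not_mem N hk'
    apply S24.mem_Gamma0_of_jdfun_smul N
    intro τ
    rw [← mod_jdF_eq_jdfun, ← mod_jdF_eq_jdfun]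
    have h1 : F q₀ = F k := sub_eq_zero.mp h0
    have h2 := hF q₀
    rw [h1] at h2
    have h3 := IsExp.fun_unique (hF k) h2 τ
    rw [h3]
    exact congrFun hf₀ τ
  have hPev : P.eval₂ (evP ℂ (JC N)) (F q₀) = G q₀ * D := by
    rw [← Polynomial.eval_map, hP, Polynomial.eval_finsetSum, Finset.sum_eq_single q₀]
    · rw [Polynomial.eval_mul, Polynomial.eval_C, Polynomial.eval_prod]
      simp [hD]
    · intro q _ hq
      rw [Polynomial.eval_mul, Polynomial.eval_prod,
        Finset.prod_eq_zero (Finset.mem_erase.mpr ⟨Ne.symm hq, Finset.mem_univ q₀⟩), mul_zero]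
      simp
    · intro h
      exact absurd (Finset.mem_univ q₀) h
  have hWev : (derivative W).eval₂ (evP ℂ (JC N)) (F q₀) = D := by
    rw [← Polynomial.eval_map, ← Polynomial.derivative_map, hW,
      ← Finset.mul_prod_erase Finset.univ _ (Finset.mem_univ q₀), Polynomial.derivative_mul]
    simp [hD, Polynomial.eval_prod]
  set x : LaurentSeries ℂ := jqModC ℂ with hx
  set y : LaurentSeries ℂ := qExpand ℂ N x with hy
  have hJ : JC N = qExpand ℂ N x := rfl
  rw [hJ, hF₀, mod_eval₂_qExpand] at hPev hWev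
  rw [hG₀, ← hWev, ← map_mul] at hPev
  have hmain := qExpand_injective N hPev
  have hW0 : (derivative W).eval₂ (evP ℂ x) y ≠ 0 := by
    intro h0
    rw [h0, map_zero] at hWev
    exact hD0 hWev.symm
  have hxm : x ∈ FF ℂ N := jqModC_mem_full ℂ N
  have hym : y ∈ FF ℂ N := jqModCd_mem_full ℂ N dvd_rfl
  have : u = P.eval₂ (evP ℂ x) y / (derivative W).eval₂ (evP ℂ x) y := by
    rw [hmain, mul_div_assoc, div_self hW0, mul_one]
  rw [this]
  exact div_mem (mod_eval₂_mem _ hxm hym P) (mod_eval₂_mem _ hxm hym _)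

end

end Fermat.Agent.GR.A
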