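/-
Project GR, module A: meromorphic `n`-th roots on the upper half plane.

If `u` is meromorphic on `{z | 0 < z.im}`, not locally zero, and all its orders are divisible
by `n`, then `u` has a meromorphic `n`-th root `v`; two such roots differ by a constant
`n`-th root of unity.
-/
import Mathlib

set_option autoImplicit false

namespace Fermat.Agent.GR.A.Root

open Filter Topology Metric Complex Set


/-- A nowhere vanishing holomorphic function on a disc is an exponential. -/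
theorem exists_log_on_ball {c : ℂ} {r : ℝ} {g : ℂ → ℂ} (hg : DifferentiableOn ℂ g (ball c r))
    (h0 : ∀ z ∈ ball c r, g z ≠ 0) :
    ∃ G : ℂ → ℂ, DifferentiableOn ℂ G (ball c r) ∧ ∀ z ∈ ball c r, Complex.exp (G z) = g z := by
  rcases (ball c r).eq_empty_or_nonempty with he | ⟨z₀, hz₀⟩
  · exact ⟨0, by simp [he], by simp [he]⟩
  have hopen : IsOpen (ball c r) := isOpen_ball
  have hd : DifferentiableOn ℂ (deriv g) (ball c r) := hg.deriv hopen
  have hq : DifferentiableOn ℂ (fun z => deriv g z / g z) (ball c r) := hd.div hg h0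
  obtain ⟨G₀, hG₀⟩ := hq.isExactOn_ball
  have hG₀d : DifferentiableOn ℂ G₀ (ball c r) :=
    fun z hz => (hG₀ z hz).differentiableAt.differentiableWithinAt
  -- `g * exp (-G₀)` is constant
  set F : ℂ → ℂ := fun z => g z * Complex.exp (-G₀ z) with hF
  have hFd : ∀ z ∈ ball c r, HasDerivAt F 0 z := by
    intro z hz
    have h1 : HasDerivAt g (deriv g z) z := (hg.differentiableAt (hopen.mem_nhds hz)).hasDerivAt
    have h2 : HasDerivAt (fun z => Complex.exp (-G₀ z))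
        (Complex.exp (-G₀ z) * -(deriv g z / g z)) z := (hG₀ z hz).neg.cexp
    have h3 : HasDerivAt F
        (deriv g z * Complex.exp (-G₀ z) + g z * (Complex.exp (-G₀ z) * -(deriv g z / g z))) z :=
      h1.mul h2
    have h4 : deriv g z * Complex.exp (-G₀ z) +
        g z * (Complex.exp (-G₀ z) * -(deriv g z / g z)) = 0 := by
      have := h0 z hz
      field_simp
      ring
    rwa [h4] at h3
  have hconst : ∀ z ∈ ball c r, F z = F z₀ := by
    intro z hz
    refine hopen.is_const_of_deriv_eq_zero (convex_ball c r).isPreconnected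
      (fun w hw => (hFd w hw).differentiableAt.differentiableWithinAt)
      (fun w hw => (hFd w hw).deriv) hz hz₀
  have hF0 : F z₀ ≠ 0 := mul_ne_zero (h0 z₀ hz₀) (Complex.exp_ne_zero _)
  refine ⟨fun z => G₀ z + Complex.log (F z₀), hG₀d.add_const _, fun z hz => ?_⟩
  rw [Complex.exp_add, Complex.exp_log hF0, ← hconst z hz, hF]
  simp only
  rw [mul_comm, mul_assoc, ← Complex.exp_add]
  simp

/-- A nowhere vanishing holomorphic function on a disc has a holomorphic `n`-th root. -/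
theorem exists_root_on_ball {c : ℂ} {r : ℝ} {g : ℂ → ℂ} (hg : DifferentiableOn ℂ g (ball c r))
    (h0 : ∀ z ∈ ball c r, g z ≠ 0) (n : ℕ) (hn : 0 < n) :
    ∃ h : ℂ → ℂ, AnalyticOnNhd ℂ h (ball c r) ∧ (∀ z ∈ ball c r, h z ≠ 0) ∧
      ∀ z ∈ ball c r, h z ^ n = g z := by
  obtain ⟨G, hG, hexp⟩ := exists_log_on_ball hg h0
  refine ⟨fun z => Complex.exp (G z / n), ?_, fun z _ => Complex.exp_ne_zero _, fun z hz => ?_⟩
  · apply DifferentiableOn.analyticOnNhd _ isOpen_ball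
    exact (hG.div_const _).cexp
  · rw [← Complex.exp_nat_mul, ← hexp z hz]
    congr 1
    have : (n : ℂ) ≠ 0 := Nat.cast_ne_zero.mpr hn.ne'
    field_simp



/-- `v` is an `n`-th root of `u` on `U`, in meromorphic normal form. -/
def IsRootOn (n : ℕ) (u v : ℂ → ℂ) (U : Set ℂ) : Prop :=
  MeromorphicNFOn v U ∧ ∀ z ∈ U, (fun w => v w ^ n) =ᶠ[𝓝[≠] z] u

lemma factorized_pow (d : ℂ → ℤ) (n : ℕ) (hd : d.HasFiniteSupport) :
    (∏ᶠ a, (fun z : ℂ => z - a) ^ d a) ^ n = ∏ᶠ a, (fun z : ℂ => z - a) ^ ((n : ℤ) * d a) := by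
  rw [finprod_pow]
  · refine finprod_congr fun a => ?_
    rw [mul_comm, zpow_mul, zpow_natCast]
  · have := Function.FactorizedRational.mulSupport d
    rw [Function.HasFiniteMulSupport, this]
    exact hd

theorem exists_isRootOn_ball (n : ℕ) (hn : 0 < n) (u : ℂ → ℂ) {c : ℂ} {r : ℝ}
    (hu : MeromorphicOn u (closedBall c r))
    (hfin : ∀ z ∈ closedBall c r, meromorphicOrderAt u z ≠ ⊤)
    (hdiv : ∀ z ∈ closedBall c r, (n : ℤ) ∣ (meromorphicOrderAt u z).untop₀) :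
    ∃ v, IsRootOn n u v (ball c r) := by
  set K := closedBall c r with hK
  set D := MeromorphicOn.divisor u K with hD
  have hDfin : D.support.Finite := D.finiteSupport (isCompact_closedBall c r)
  obtain ⟨g, hg, hg0, heq⟩ := hu.extract_zeros_poles (fun z => hfin z z.2) hDfin
  have hn' : (n : ℤ) ≠ 0 := Int.natCast_ne_zero.mpr hn.ne'
  have hDdvd : ∀ a, (n : ℤ) ∣ D a := by
    intro a
    by_cases ha : a ∈ K
    · rw [hD, MeromorphicOn.divisor_apply hu ha]
      exact hdiv a ha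
    · rw [hD, MeromorphicOn.divisor_def, if_neg (fun h => ha h.2)]
      exact dvd_zero _
  set d' : ℂ → ℤ := fun a => D a / n with hd'
  have hDd' : ∀ a, (n : ℤ) * d' a = D a := fun a => Int.mul_ediv_cancel' (hDdvd a)
  have hd'fin : d'.HasFiniteSupport := by
    refine hDfin.subset fun a ha => ?_
    simp only [Function.mem_support] at ha ⊢
    intro h
    apply ha
    simp [hd', h]
  have hsub : ball c r ⊆ K := ball_subset_closedBall
  obtain ⟨h, hh, hh0, hhn⟩ := exists_root_on_ball (c := c) (r := r) (g := g)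
    (fun z hz => (hg z (hsub hz)).differentiableAt.differentiableWithinAt)
    (fun z hz => hg0 ⟨z, hsub hz⟩) n hn
  refine ⟨(∏ᶠ a, (fun z : ℂ => z - a) ^ d' a) * h, ?_, ?_⟩
  · rw [meromorphicNFOn_mul_iff_left_of_analyticOnNhd hh hh0]
    exact Function.FactorizedRational.meromorphicNFOn d' _
  · intro z hz
    have h1 := (mem_codiscreteWithin_iff_forall_mem_nhdsNE.mp heq) z (hsub hz)
    have h2 : ball c r ∈ 𝓝[≠] z := mem_nhdsWithin_of_mem_nhds (isOpen_ball.mem_nhds hz)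
    filter_upwards [h1, h2] with w hw1 hw2
    rcases hw1 with hw1 | hw1
    · have hw3 : u w = ((∏ᶠ a, (fun z : ℂ => z - a) ^ D a) • g) w := hw1
      rw [hw3]
      have h4 := congrFun (factorized_pow d' n hd'fin) w
      simp only [hDd'] at h4
      simp only [Pi.mul_apply, Pi.smul_apply', smul_eq_mul, mul_pow, hhn w hw2]
      rw [← h4]
      rfl
    · exact absurd (hsub hw2) hw1



/-- Two meromorphic `n`-th roots of the same function on a connected open set differ by a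
constant `n`-th root of unity. -/
theorem root_unique_on {U : Set ℂ} (hU : IsOpen U) (hUc : IsPreconnected U) (n : ℕ) (hn : 0 < n)
    (u v v' : ℂ → ℂ) (hfin : ∀ z ∈ U, meromorphicOrderAt u z ≠ ⊤)
    (hv : MeromorphicOn v U) (hv' : MeromorphicOn v' U)
    (hvn : ∀ z ∈ U, (fun w => v w ^ n) =ᶠ[𝓝[≠] z] u)
    (hvn' : ∀ z ∈ U, (fun w => v' w ^ n) =ᶠ[𝓝[≠] z] u) :
    ∃ ζ : ℂ, ζ ^ n = 1 ∧ ∀ z ∈ U, v' =ᶠ[𝓝[≠] z] fun w => ζ * v w := by
  have hw : MeromorphicOn (v' * v⁻¹) U := hv'.mul hv.inv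
  set W := toMeromorphicNFOn (v' * v⁻¹) U with hW
  have hWNF : MeromorphicNFOn W U := meromorphicNFOn_toMeromorphicNFOn _ _
  have hu0 : ∀ z ∈ U, ∀ᶠ w in 𝓝[≠] z, u w ≠ 0 := by
    intro z hz
    have hum : MeromorphicAt u z := ((hv z hz).pow n).congr (hvn z hz)
    exact (meromorphicOrderAt_ne_top_iff_eventually_ne_zero hum).mp (hfin z hz)
  have hWeq : ∀ z ∈ U, ∀ᶠ w in 𝓝[≠] z, v w ≠ 0 ∧ W w = v' w / v w ∧ W w ^ n = 1 := by
    intro z hz
    filter_upwards [hu0 z hz, hvn z hz, hvn' z hz, hw.toMeromorphicNFOn_eq_self_on_nhdsNE hz]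
      with w h1 h2 h3 h4
    have hv0 : v w ≠ 0 := by
      intro h
      apply h1
      rw [← h2]
      simp [h, hn.ne']
    have h5 : W w = v' w / v w := by
      rw [hW, h4]
      simp [div_eq_mul_inv]
    refine ⟨hv0, h5, ?_⟩
    rw [h5, div_pow]
    have h2' : v w ^ n = u w := h2
    have h3' : v' w ^ n = u w := h3
    rw [h2', h3', div_self h1]
  have hWn : ∀ z ∈ U, W z ^ n = 1 := by
    intro z hz
    have h1 : MeromorphicNFAt (W ^ (n : ℤ)) z := (hWNF hz).zpow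
    have h2 : MeromorphicNFAt (fun _ : ℂ => (1 : ℂ)) z := analyticAt_const.meromorphicNFAt
    have h3 : (W ^ (n : ℤ)) =ᶠ[𝓝[≠] z] (fun _ : ℂ => (1 : ℂ)) := by
      filter_upwards [hWeq z hz] with w hw
      simpa using hw.2.2
    have h4 := ((h1.eventuallyEq_nhdsNE_iff_eventuallyEq_nhds h2).mp h3).eq_of_nhds
    simpa using h4
  have hWan : ∀ z ∈ U, AnalyticAt ℂ W z := by
    intro z hz
    have h0 : W z ≠ 0 := by
      intro h
      have := hWn z hz
      rw [h, zero_pow hn.ne'] at this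
      exact zero_ne_one this
    have h1 := (hWNF hz).meromorphicOrderAt_eq_zero_iff.mpr h0
    exact (hWNF hz).meromorphicOrderAt_nonneg_iff_analyticAt.mp h1.ge
  have hWc : ContinuousOn W U := fun z hz => (hWan z hz).continuousAt.continuousWithinAt
  have hconst : ∀ z ∈ U, ∀ z' ∈ U, W z = W z' := by
    intro z hz z' hz'
    refine hUc.constant_of_mapsTo (T := ((Polynomial.nthRootsFinset n (1 : ℂ) : Finset ℂ) : Set ℂ))
      (Finset.finite_toSet _).isDiscrete hWc ?_ hz hz'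
    intro x hx
    simp only [Finset.mem_coe]
    rw [Polynomial.mem_nthRootsFinset hn]
    exact hWn x hx
  rcases U.eq_empty_or_nonempty with he | ⟨z₀, hz₀⟩
  · exact ⟨1, one_pow _, by simp [he]⟩
  refine ⟨W z₀, hWn z₀ hz₀, fun z hz => ?_⟩
  filter_upwards [hWeq z hz, mem_nhdsWithin_of_mem_nhds (hU.mem_nhds hz)] with w h1 h2
  rw [← hconst w h2 z₀ hz₀, h1.2.1]
  field_simp [h1.1]

theorem IsRootOn.mono {n : ℕ} {u v : ℂ → ℂ} {U U' : Set ℂ} (h : IsRootOn n u v U) (hs : U' ⊆ U) :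
    IsRootOn n u v U' :=
  ⟨fun _ hz => h.1 (hs hz), fun z hz => h.2 z (hs hz)⟩

theorem IsRootOn.const_mul {n : ℕ} {u v : ℂ → ℂ} {U : Set ℂ} (h : IsRootOn n u v U) {ζ : ℂ}
    (hζ : ζ ^ n = 1) (hn : 0 < n) : IsRootOn n u (fun w => ζ * v w) U := by
  have hζ0 : ζ ≠ 0 := by
    intro h0
    rw [h0, zero_pow hn.ne'] at hζ
    exact zero_ne_one hζ
  refine ⟨?_, fun z hz => ?_⟩
  · exact (meromorphicNFOn_mul_iff_right_of_analyticOnNhd (g := fun _ => ζ) (f := v)
      analyticOnNhd_const (fun _ _ => hζ0)).mpr h.1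
  · filter_upwards [h.2 z hz] with w hw
    rw [mul_pow, hζ, one_mul]
    exact hw

/-- Exact version of uniqueness for roots in normal form. -/
theorem IsRootOn.unique {U : Set ℂ} (hU : IsOpen U) (hUc : IsPreconnected U) {n : ℕ} (hn : 0 < n)
    {u v v' : ℂ → ℂ} (hfin : ∀ z ∈ U, meromorphicOrderAt u z ≠ ⊤)
    (hv : IsRootOn n u v U) (hv' : IsRootOn n u v' U) :
    ∃ ζ : ℂ, ζ ^ n = 1 ∧ ∀ z ∈ U, v' z = ζ * v z := by
  obtain ⟨ζ, hζ, h⟩ := root_unique_on hU hUc n hn u v v' hfin hv.1.meromorphicOn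
    hv'.1.meromorphicOn hv.2 hv'.2
  refine ⟨ζ, hζ, fun z hz => ?_⟩
  have h1 := (hv.const_mul hζ hn).1 hz
  exact (((hv'.1 hz).eventuallyEq_nhdsNE_iff_eventuallyEq_nhds h1).mp (h z hz)).eq_of_nhds

/-- Extension step. -/
theorem IsRootOn.extend {U U' : Set ℂ} (hU : IsOpen U) (hUc : IsPreconnected U) (hs : U ⊆ U')
    {n : ℕ} (hn : 0 < n) {u v : ℂ → ℂ} (hfin : ∀ z ∈ U, meromorphicOrderAt u z ≠ ⊤)
    (hv : IsRootOn n u v U) (hex : ∃ v', IsRootOn n u v' U') :
    ∃ v', IsRootOn n u v' U' ∧ EqOn v' v U := by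
  obtain ⟨v'', hv''⟩ := hex
  obtain ⟨ζ, hζ, h⟩ := IsRootOn.unique hU hUc hn hfin (hv''.mono hs) hv
  exact ⟨fun w => ζ * v'' w, hv''.const_mul hζ hn, fun z hz => (h z hz).symm⟩

/-- Gluing along an increasing sequence of connected open sets. -/
theorem exists_isRootOn_iUnion (n : ℕ) (hn : 0 < n) (u : ℂ → ℂ) (U : ℕ → Set ℂ)
    (hUo : ∀ k, IsOpen (U k)) (hUc : ∀ k, IsPreconnected (U k)) (hmono : ∀ k, U k ⊆ U (k + 1))
    (hfin : ∀ k, ∀ z ∈ U k, meromorphicOrderAt u z ≠ ⊤)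
    (hex : ∀ k, ∃ v, IsRootOn n u v (U k)) : ∃ v, IsRootOn n u v (⋃ k, U k) := by
  classical
  have step : ∀ k (v : {v // IsRootOn n u v (U k)}),
      ∃ v' : {v // IsRootOn n u v (U (k + 1))}, EqOn v'.1 v.1 (U k) := by
    intro k v
    obtain ⟨v', h1, h2⟩ := IsRootOn.extend (hUo k) (hUc k) (hmono k) hn (hfin k) v.2 (hex (k + 1))
    exact ⟨⟨v', h1⟩, h2⟩
  choose next hnext using step
  let V : ∀ k, {v // IsRootOn n u v (U k)} := fun k =>
    Nat.rec (motive := fun k => {v // IsRootOn n u v (U k)})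
      ⟨(hex 0).choose, (hex 0).choose_spec⟩ (fun k v => next k v) k
  have hVs : ∀ k, EqOn (V (k + 1)).1 (V k).1 (U k) := fun k => hnext k (V k)
  have hUm : ∀ k m, k ≤ m → U k ⊆ U m := by
    intro k m hkm
    induction m, hkm using Nat.le_induction with
    | base => exact Subset.rfl
    | succ m _ ih => exact ih.trans (hmono m)
  have hV : ∀ k m, k ≤ m → EqOn (V m).1 (V k).1 (U k) := by
    intro k m hkm
    induction m, hkm using Nat.le_induction with
    | base => exact fun _ _ => rfl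
    | succ m hm ih => exact fun z hz => ((hVs m) (hUm k m hm hz)).trans (ih hz)
  let v : ℂ → ℂ := fun z => if h : ∃ k, z ∈ U k then (V (Nat.find h)).1 z else 0
  have hv : ∀ k, EqOn v (V k).1 (U k) := by
    intro k z hz
    have h : ∃ k, z ∈ U k := ⟨k, hz⟩
    have h1 : v z = (V (Nat.find h)).1 z := dif_pos h
    rw [h1]
    exact (hV _ _ (Nat.find_min' h hz) (Nat.find_spec h)).symm
  refine ⟨v, ?_, ?_⟩
  · intro z hz
    obtain ⟨k, hk⟩ := mem_iUnion.mp hz
    have h1 : v =ᶠ[𝓝 z] (V k).1 := (hv k).eventuallyEq_of_mem ((hUo k).mem_nhds hk)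
    exact (meromorphicNFAt_congr h1).mpr ((V k).2.1 hk)
  · intro z hz
    obtain ⟨k, hk⟩ := mem_iUnion.mp hz
    filter_upwards [(V k).2.2 z hk, mem_nhdsWithin_of_mem_nhds ((hUo k).mem_nhds hk)] with w h1 h2
    rw [hv k h2]
    exact h1

/-- The exhausting discs of the upper half plane. -/
noncomputable def ctr (k : ℕ) : ℂ := ((k : ℝ) + 1) * I

noncomputable def rad (k : ℕ) : ℝ := ((k : ℝ) + 1) - 1 / ((k : ℝ) + 1)

lemma closedBall_subset_Hs (k : ℕ) : closedBall (ctr k) (rad k) ⊆ {z : ℂ | 0 < z.im} := by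
  intro z hz
  rw [mem_closedBall, dist_eq_norm] at hz
  have h1 : |(z - ctr k).im| ≤ ‖z - ctr k‖ := Complex.abs_im_le_norm _
  have h2 : (z - ctr k).im = z.im - ((k : ℝ) + 1) := by
    simp [ctr]
  have h3 : (0 : ℝ) < 1 / ((k : ℝ) + 1) := by positivity
  rw [h2] at h1
  have h4 := (abs_le.mp (h1.trans hz)).1
  simp only [rad] at h4
  simp only [mem_ofPred_eq]
  linarith

lemma ball_subset_succ (k : ℕ) : ball (ctr k) (rad k) ⊆ ball (ctr (k + 1)) (rad (k + 1)) := by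
  apply ball_subset_ball'
  have h1 : dist (ctr k) (ctr (k + 1)) = 1 := by
    rw [dist_eq_norm]
    have : ctr k - ctr (k + 1) = -I := by
      simp only [ctr]
      push_cast
      ring
    rw [this]
    simp
  rw [h1]
  simp only [rad]
  push_cast
  have h2 : 1 / ((k : ℝ) + 1 + 1) ≤ 1 / ((k : ℝ) + 1) := by
    apply one_div_le_one_div_of_le
    · positivity
    · linarith
  linarith

lemma iUnion_ball_eq : (⋃ k, ball (ctr k) (rad k)) = {z : ℂ | 0 < z.im} := by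
  apply Subset.antisymm
  · exact iUnion_subset fun k => ball_subset_closedBall.trans (closedBall_subset_Hs k)
  · intro z hz
    simp only [mem_ofPred_eq] at hz
    obtain ⟨k, hk⟩ := exists_nat_gt ((z.re ^ 2 + z.im ^ 2 + 2) / (2 * z.im))
    refine mem_iUnion.mpr ⟨k, ?_⟩
    rw [mem_ball, dist_eq_norm]
    have hR : (1 : ℝ) ≤ (k : ℝ) + 1 := by
      have : (0 : ℝ) ≤ k := Nat.cast_nonneg k
      linarith
    set R : ℝ := (k : ℝ) + 1 with hRdef
    have hRpos : 0 < R := by linarith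
    have hrad : rad k = R - 1 / R := rfl
    have h1 : 1 / R ≤ 1 := by
      rw [div_le_one hRpos]
      exact hR
    have hrad0 : 0 ≤ rad k := by
      rw [hrad]; linarith
    have h2 : z.re ^ 2 + z.im ^ 2 + 2 < 2 * z.im * R := by
      have h3 : (z.re ^ 2 + z.im ^ 2 + 2) / (2 * z.im) < R := by linarith
      rw [div_lt_iff₀ (by positivity)] at h3
      linarith
    have h4 : ‖z - ctr k‖ ^ 2 = z.re ^ 2 + (z.im - R) ^ 2 := by
      rw [Complex.sq_norm, Complex.normSq_apply]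
      simp [ctr, hRdef]
      ring
    have h5 : (rad k) ^ 2 = R ^ 2 - 2 + (1 / R) ^ 2 := by
      rw [hrad]
      field_simp
      ring
    have h6 : ‖z - ctr k‖ ^ 2 < (rad k) ^ 2 := by
      rw [h4, h5]
      have : 0 ≤ (1 / R) ^ 2 := by positivity
      nlinarith
    exact lt_of_pow_lt_pow_left₀ 2 hrad0 h6

end Fermat.Agent.GR.A.Root

namespace Fermat.Agent.GR.A

open Filter Topology Metric Complex Set Root

lemma isOpen_Hs : IsOpen {z : ℂ | 0 < z.im} := isOpen_lt continuous_const Complex.continuous_im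

lemma isPreconnected_Hs : IsPreconnected {z : ℂ | 0 < z.im} :=
  (convex_halfSpace_im_gt 0).isPreconnected

/-- The order of an `n`-th root. -/
theorem order_of_root {n : ℕ} {u v : ℂ → ℂ} {z : ℂ} (hv : MeromorphicAt v z)
    (h : (fun w => v w ^ n) =ᶠ[𝓝[≠] z] u) :
    (n : ℤ) * (meromorphicOrderAt v z).untop₀ = (meromorphicOrderAt u z).untop₀ := by
  have h1 : meromorphicOrderAt u z = n * meromorphicOrderAt v z := by
    rw [← meromorphicOrderAt_pow hv]
    exact (meromorphicOrderAt_congr h).symm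
  rw [h1, WithTop.untop₀_mul]
  rfl

/-- **Existence of meromorphic `n`-th roots on the upper half plane.** -/
theorem exists_meromorphic_root (n : ℕ) (hn : 0 < n) (u : ℂ → ℂ)
    (hu : MeromorphicOn u {z : ℂ | 0 < z.im})
    (hfin : ∀ z ∈ {z : ℂ | 0 < z.im}, meromorphicOrderAt u z ≠ ⊤)
    (hdiv : ∀ z ∈ {z : ℂ | 0 < z.im}, (n : ℤ) ∣ (meromorphicOrderAt u z).untop₀) :
    ∃ v : ℂ → ℂ, MeromorphicNFOn v {z : ℂ | 0 < z.im} ∧
      (∀ z ∈ {z : ℂ | 0 < z.im}, (fun w => v w ^ n) =ᶠ[𝓝[≠] z] u) ∧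
      (∀ z ∈ {z : ℂ | 0 < z.im},
        (n : ℤ) * (meromorphicOrderAt v z).untop₀ = (meromorphicOrderAt u z).untop₀) := by
  obtain ⟨v, hv⟩ := exists_isRootOn_iUnion n hn u (fun k => ball (ctr k) (rad k))
    (fun _ => isOpen_ball) (fun k => (convex_ball _ _).isPreconnected) ball_subset_succ
    (fun k z hz => hfin z (closedBall_subset_Hs k (ball_subset_closedBall hz)))
    (fun k => exists_isRootOn_ball n hn u (fun z hz => hu z (closedBall_subset_Hs k hz))
      (fun z hz => hfin z (closedBall_subset_Hs k hz))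
      (fun z hz => hdiv z (closedBall_subset_Hs k hz)))
  rw [iUnion_ball_eq] at hv
  exact ⟨v, hv.1, hv.2, fun z hz => order_of_root (hv.1 hz).meromorphicAt (hv.2 z hz)⟩

/-- **Uniqueness of meromorphic `n`-th roots on the upper half plane** up to a constant root of
unity. -/
theorem root_unique (n : ℕ) (hn : 0 < n) (u v v' : ℂ → ℂ)
    (hfin : ∀ z ∈ {z : ℂ | 0 < z.im}, meromorphicOrderAt u z ≠ ⊤)
    (hv : MeromorphicOn v {z : ℂ | 0 < z.im}) (hv' : MeromorphicOn v' {z : ℂ | 0 < z.im})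
    (hvn : ∀ z ∈ {z : ℂ | 0 < z.im}, (fun w => v w ^ n) =ᶠ[𝓝[≠] z] u)
    (hvn' : ∀ z ∈ {z : ℂ | 0 < z.im}, (fun w => v' w ^ n) =ᶠ[𝓝[≠] z] u) :
    ∃ ζ : ℂ, ζ ^ n = 1 ∧ ∀ z ∈ {z : ℂ | 0 < z.im}, v' =ᶠ[𝓝[≠] z] fun w => ζ * v w :=
  root_unique_on isOpen_Hs isPreconnected_Hs n hn u v v' hfin hv hv' hvn hvn'

/-- Exact version for roots in normal form. -/
theorem root_unique_NF (n : ℕ) (hn : 0 < n) (u v v' : ℂ → ℂ)
    (hfin : ∀ z ∈ {z : ℂ | 0 < z.im}, meromorphicOrderAt u z ≠ ⊤)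
    (hv : MeromorphicNFOn v {z : ℂ | 0 < z.im}) (hv' : MeromorphicNFOn v' {z : ℂ | 0 < z.im})
    (hvn : ∀ z ∈ {z : ℂ | 0 < z.im}, (fun w => v w ^ n) =ᶠ[𝓝[≠] z] u)
    (hvn' : ∀ z ∈ {z : ℂ | 0 < z.im}, (fun w => v' w ^ n) =ᶠ[𝓝[≠] z] u) :
    ∃ ζ : ℂ, ζ ^ n = 1 ∧ ∀ z ∈ {z : ℂ | 0 < z.im}, v' z = ζ * v z :=
  IsRootOn.unique isOpen_Hs isPreconnected_Hs hn hfin ⟨hv, hvn⟩ ⟨hv', hvn'⟩

/-- **The multiplier of a root under a symmetry of `u`.**  If `φ` is a holomorphic self map of the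
upper half plane with nowhere vanishing derivative and `u ∘ φ = u` (generically), then
`v ∘ φ = ζ v` for a constant `n`-th root of unity `ζ`. -/
theorem root_comp (n : ℕ) (hn : 0 < n) (u v φ : ℂ → ℂ)
    (hfin : ∀ z ∈ {z : ℂ | 0 < z.im}, meromorphicOrderAt u z ≠ ⊤)
    (hv : MeromorphicNFOn v {z : ℂ | 0 < z.im})
    (hvn : ∀ z ∈ {z : ℂ | 0 < z.im}, (fun w => v w ^ n) =ᶠ[𝓝[≠] z] u)
    (hφ : AnalyticOnNhd ℂ φ {z : ℂ | 0 < z.im})
    (hφm : MapsTo φ {z : ℂ | 0 < z.im} {z : ℂ | 0 < z.im})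
    (hφd : ∀ z ∈ {z : ℂ | 0 < z.im}, deriv φ z ≠ 0)
    (huφ : ∀ z ∈ {z : ℂ | 0 < z.im}, (fun w => u (φ w)) =ᶠ[𝓝[≠] z] u) :
    ∃ ζ : ℂ, ζ ^ n = 1 ∧ ∀ z ∈ {z : ℂ | 0 < z.im}, v (φ z) = ζ * v z := by
  refine root_unique_NF n hn u v (v ∘ φ) hfin hv
    (fun z hz => (hv (hφm hz)).comp_analyticAt (hφ z hz)) hvn (fun z hz => ?_)
  have h1 : Tendsto φ (𝓝[≠] z) (𝓝[≠] (φ z)) :=
    (hφ z hz).differentiableAt.hasDerivAt.tendsto_nhdsNE (hφd z hz)
  exact ((hvn (φ z) (hφm hz)).comp_tendsto h1).trans (huφ z hz)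

end Fermat.Agent.GR.A
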