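/-
Project GR, module A: holomorphic `n`-th roots in the ring `S24.Hol` of holomorphic functions
on the upper half plane.
-/
import Fermat.Agent.GR.A.Root
import Fermat.Agent.S24.Hol

set_option autoImplicit false

namespace Fermat.Agent.GR.A

open Filter Topology Complex Set UpperHalfPlane
open scoped Manifold

/-- A root (in normal form) of an analytic function is analytic, and the equation holds
exactly. -/
theorem analyticAt_of_root {n : ℕ} (hn : 0 < n) {u v : ℂ → ℂ} {z : ℂ} (hu : AnalyticAt ℂ u z)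
    (hv : MeromorphicNFAt v z) (h : (fun w => v w ^ n) =ᶠ[𝓝[≠] z] u) :
    AnalyticAt ℂ v z ∧ v z ^ n = u z := by
  have h1 : meromorphicOrderAt u z = n * meromorphicOrderAt v z := by
    rw [← meromorphicOrderAt_pow hv.meromorphicAt]
    exact (meromorphicOrderAt_congr h).symm
  have h2 : 0 ≤ meromorphicOrderAt u z := hu.meromorphicOrderAt_nonneg
  have h3 : 0 ≤ meromorphicOrderAt v z := by
    by_contra hneg
    rw [not_le] at hneg
    obtain ⟨k, hk⟩ := WithTop.ne_top_iff_exists.mp (ne_top_of_lt hneg)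
    rw [← hk] at hneg h1
    have hk0 : k < 0 := by exact_mod_cast hneg
    rw [h1] at h2
    have h4 : (0 : WithTop ℤ) ≤ (((n : ℤ) * k : ℤ) : WithTop ℤ) := by
      simpa using h2
    have h5 : (0 : ℤ) ≤ (n : ℤ) * k := by exact_mod_cast h4
    have h6 : (0 : ℤ) < n := by exact_mod_cast hn
    nlinarith
  have hva : AnalyticAt ℂ v z := hv.meromorphicOrderAt_nonneg_iff_analyticAt.mp h3
  refine ⟨hva, ?_⟩
  have h7 : ContinuousAt (fun w => v w ^ n) z := hva.continuousAt.pow n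
  exact ((h7.eventuallyEq_nhds_iff_eventuallyEq_nhdsNE hu.continuousAt).mp h).eq_of_nhds

/-- **Holomorphic `n`-th roots.** A nonzero holomorphic function on the upper half plane all of
whose vanishing orders are divisible by `n` is an `n`-th power. -/
theorem exists_hol_root (n : ℕ) (hn : 0 < n) (c : S24.Hol)
    (hdiv : ∀ τ : ℍ, ∃ m : ℕ, (S24.taylorHom τ c).order = (n : ℕ∞) * m) :
    ∃ w : S24.Hol, w ^ n = c := by
  set u : ℂ → ℂ := (c : ℍ → ℂ) ∘ ofComplex with hu
  have hua : ∀ z ∈ {z : ℂ | 0 < z.im}, AnalyticAt ℂ u z := fun z hz =>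
    S24.Hol_analyticAt' c ⟨z, hz⟩
  have hord : ∀ z ∈ {z : ℂ | 0 < z.im}, ∃ m : ℕ, meromorphicOrderAt u z = ((n * m : ℕ) : ℤ) := by
    intro z hz
    obtain ⟨m, hm⟩ := hdiv ⟨z, hz⟩
    rw [S24.order_taylorHom] at hm
    refine ⟨m, ?_⟩
    have h1 : analyticOrderAt u z = ((n * m : ℕ) : ℕ∞) := by
      rw [hu]
      push_cast
      exact hm
    rw [(hua z hz).meromorphicOrderAt_eq, h1]
    rfl
  obtain ⟨v, hv, hvn, -⟩ := exists_meromorphic_root n hn u
    (fun z hz => (hua z hz).meromorphicAt)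
    (fun z hz => by
      obtain ⟨m, hm⟩ := hord z hz
      rw [hm]
      exact WithTop.coe_ne_top)
    (fun z hz => by
      obtain ⟨m, hm⟩ := hord z hz
      rw [hm, WithTop.untop₀_coe]
      push_cast
      exact dvd_mul_right _ _)
  have key := fun z hz => analyticAt_of_root hn (hua z hz) (hv hz) (hvn z hz)
  have hmd : MDiff (fun τ : ℍ => v τ) := by
    rw [UpperHalfPlane.mdifferentiable_iff]
    have h1 : DifferentiableOn ℂ v {z : ℂ | 0 < z.im} :=
      fun z hz => (key z hz).1.differentiableAt.differentiableWithinAt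
    refine h1.congr fun z hz => ?_
    simp [ofComplex_apply_of_im_pos hz]
  refine ⟨⟨fun τ : ℍ => v τ, hmd⟩, ?_⟩
  ext τ
  have h2 := (key τ τ.im_pos).2
  simpa [hu] using h2

/-- Variant with divisibility in `ℕ∞`. -/
theorem exists_hol_root' (n : ℕ) (hn : 0 < n) (c : S24.Hol) (hc : c ≠ 0)
    (hdiv : ∀ τ : ℍ, ∃ m : ℕ∞, (S24.taylorHom τ c).order = (n : ℕ∞) * m) :
    ∃ w : S24.Hol, w ^ n = c := by
  refine exists_hol_root n hn c fun τ => ?_
  obtain ⟨m, hm⟩ := hdiv τ
  have h1 : (S24.taylorHom τ c).order ≠ ⊤ := by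
    rw [Ne, PowerSeries.order_eq_top]
    intro h
    exact hc (S24.taylorHom_injective τ (h.trans (map_zero _).symm))
  have h2 : m ≠ ⊤ := by
    rintro rfl
    apply h1
    rw [hm, ENat.mul_top (by exact_mod_cast hn.ne')]
  lift m to ℕ using h2
  exact ⟨m, hm⟩

lemma meromorphicOrderAt_hol_ne_top (w : S24.Hol) (hw : w ≠ 0) (τ : ℍ) :
    meromorphicOrderAt ((w : ℍ → ℂ) ∘ ofComplex) (τ : ℂ) ≠ ⊤ := by
  have h1 : (S24.taylorHom τ w).order ≠ ⊤ := by
    rw [Ne, PowerSeries.order_eq_top]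
    intro h
    exact hw (S24.taylorHom_injective τ (h.trans (map_zero _).symm))
  rw [S24.order_taylorHom] at h1
  rw [(S24.Hol_analyticAt' w τ).meromorphicOrderAt_eq]
  lift analyticOrderAt ((w : ℍ → ℂ) ∘ ofComplex) (τ : ℂ) to ℕ using h1 with k
  exact WithTop.coe_ne_top

/-- **Uniqueness of holomorphic `n`-th roots** up to a constant root of unity. -/
theorem hol_root_unique (n : ℕ) (hn : 0 < n) (w w' : S24.Hol) (hw : w ≠ 0)
    (h : w' ^ n = w ^ n) : ∃ ζ : ℂ, ζ ^ n = 1 ∧ w' = S24.constHol ζ * w := by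
  set v : ℂ → ℂ := (w : ℍ → ℂ) ∘ ofComplex with hv
  set v' : ℂ → ℂ := (w' : ℍ → ℂ) ∘ ofComplex with hv'
  have hva : ∀ z ∈ {z : ℂ | 0 < z.im}, AnalyticAt ℂ v z := fun z hz =>
    S24.Hol_analyticAt' w ⟨z, hz⟩
  have hva' : ∀ z ∈ {z : ℂ | 0 < z.im}, AnalyticAt ℂ v' z := fun z hz =>
    S24.Hol_analyticAt' w' ⟨z, hz⟩
  have hpow : ∀ z, v' z ^ n = v z ^ n := by
    intro z
    have := congrArg (fun f : S24.Hol => (f : ℍ → ℂ) (ofComplex z)) h
    simpa [hv, hv'] using this
  obtain ⟨ζ, hζ, hζv⟩ := root_unique_NF n hn (v ^ n) v v'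
    (fun z hz => by
      rw [meromorphicOrderAt_pow (hva z hz).meromorphicAt]
      have h1 := meromorphicOrderAt_hol_ne_top w hw ⟨z, hz⟩
      obtain ⟨k, hk⟩ := WithTop.ne_top_iff_exists.mp h1
      have h2 : meromorphicOrderAt v z = (k : WithTop ℤ) := hk.symm
      rw [h2]
      exact WithTop.coe_ne_top (a := (n : ℤ) * k))
    (fun z hz => (hva z hz).meromorphicNFAt) (fun z hz => (hva' z hz).meromorphicNFAt)
    (fun z _ => Eventually.of_forall fun _ => rfl)
    (fun z _ => Eventually.of_forall fun x => hpow x)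
  refine ⟨ζ, hζ, ?_⟩
  ext τ
  have := hζv τ τ.im_pos
  simpa [hv, hv'] using this

end Fermat.Agent.GR.A
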