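import Fermat.Agent.GR.A.Val
import Fermat.Agent.GR.A.RootHol
import Fermat.Agent.GR.F.Kummer

/-!
# GR-A, (A1) part 1: a Kummer function has a holomorphic `n`-th root with a character
-/

set_option autoImplicit false

namespace Fermat.Agent.GR.A

open ModularCurve AlgebraicCurve UpperHalfPlane CongruenceSubgroup
open scoped MatrixGroups Manifold
open Fermat.Agent.S28 (IsExp)
open Fermat.Agent.S24 (Hol taylorHom compHom constHol)

noncomputable section

variable (N : ℕ)

/-- modular functions are holomorphic. -/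
def modFunToHol : modFunRing N →+* Hol :=
  Subring.inclusion (fun _ hh => IsModFun.mdiff hh)

theorem coe_modFunToHol (h : modFunRing N) : ((modFunToHol N h : Hol) : ℍ → ℂ) = h := rfl

theorem modFunToHol_injective : Function.Injective (modFunToHol N) :=
  Subring.inclusion_injective _

/-- Taylor expansion at `τ`, as a Laurent series. -/
def taylorE (τ : ℍ) : modFunRing N →+* LaurentSeries ℂ :=
  (HahnSeries.ofPowerSeries ℤ ℂ).comp ((taylorHom τ).comp (modFunToHol N))

theorem taylorE_apply (τ : ℍ) (h : modFunRing N) :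
    taylorE N τ h = HahnSeries.ofPowerSeries ℤ ℂ (taylorHom τ (modFunToHol N h)) := rfl

theorem taylorE_injective (τ : ℍ) : Function.Injective (taylorE N τ) := by
  intro a b h
  rw [taylorE_apply, taylorE_apply] at h
  exact modFunToHol_injective N
    (S24.taylorHom_injective τ (HahnSeries.ofPowerSeries_injective h))

theorem order_taylorE (τ : ℍ) (h : modFunRing N) :
    (taylorE N τ h).order = ((taylorHom τ (modFunToHol N h)).order.toNat : ℤ) := by
  rw [taylorE_apply, S24.local_order_ofPowerSeries]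

variable [NeZero N]

theorem taylorE_const (τ : ℍ) (c : ℂ) : taylorE N τ (constModFun N c) = HahnSeries.C c := by
  rw [taylorE_apply]
  have : modFunToHol N (constModFun N c) = constHol c := rfl
  rw [this, S24.taylorHom_constHol, HahnSeries.ofPowerSeries_C]

/-- `j` as a modular function. -/
def jModFun : modFunRing N := ⟨S28.jdF 1, isModFun_jdF N 1 (one_dvd N)⟩

theorem jModFun_sub_const_ne_zero (c : ℂ) : jModFun N - constModFun N c ≠ 0 := by
  intro h0
  have h1 : qexpHom N (jModFun N) = qexpHom N (constModFun N c) := by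
    rw [← sub_eq_zero, ← map_sub, h0, map_zero]
  have h2 := congrArg (fun z : FF ℂ N => (z : LaurentSeries ℂ).coeff (-1)) h1
  simp only [coe_qexpHom] at h2
  have h3 : qexp ((jModFun N : modFunRing N) : ℍ → ℂ) = jqModC ℂ := by
    show qexp (S28.jdF 1) = _
    rw [qexp_jdF N 1 (one_dvd N), qExpand_one_apply]
  have h4 : qexp ((constModFun N c : modFunRing N) : ℍ → ℂ) = HahnSeries.C c := qexp_const c
  rw [h3, h4, S24.local_coeff_jqModC_neg_one, HahnSeries.C_apply,
    HahnSeries.coeff_single_of_ne (by norm_num)] at h2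
  exact one_ne_zero h2

theorem order_taylorE_j_ne_zero (τ : ℍ) :
    (taylorE N τ (jModFun N - constModFun N (S28.jdF 1 τ))).order ≠ 0 := by
  rw [order_taylorE]
  set f : Hol := modFunToHol N (jModFun N - constModFun N (S28.jdF 1 τ)) with hf
  have hf0 : f ≠ 0 := by
    intro h0
    exact jModFun_sub_const_ne_zero N _ (modFunToHol_injective N (by rw [← hf, h0, map_zero]))
  have h1 : (taylorHom τ f).order ≠ ⊤ := S24.local_order_ne_top τ f hf0
  have h2 : (taylorHom τ f).order ≠ 0 := by
    rw [PowerSeries.order_ne_zero_iff_constCoeff_eq_zero, S24.constantCoeff_taylorHom]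
    show S28.jdF 1 τ - S28.jdF 1 τ = 0
    ring
  intro h3
  have h4 : (taylorHom τ f).order.toNat = 0 := by exact_mod_cast h3
  rcases (ENat.toNat_eq_zero).mp h4 with h | h
  · exact h2 h
  · exact h1 h

/-- the place attached to a point of the upper half plane. -/
theorem exists_place_taylor (τ : ℍ) :
    ∃ (v : Place ℂ (FF ℂ N)) (k : ℕ), 0 < k ∧
      ∀ h : modFunRing N, (taylorE N τ h).order = k * v.ord (qexpHom N h) :=
  exists_place_of_modFun N (taylorE N τ) (taylorE_injective N τ) (taylorE_const N τ) _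
    (order_taylorE_j_ne_zero N τ)

variable {N} {n : ℕ}

omit [NeZero N] in
theorem isKummer_dvd_ord {u : LaurentSeries ℂ} (hK : IsKummer (N := N) n u) (hu : u ∈ FF ℂ N)
    (v : Place ℂ (FF ℂ N)) : (n : ℤ) ∣ v.ord (⟨u, hu⟩ : FF ℂ N) := by
  obtain ⟨-, hu', h⟩ := hK
  exact h v

/-- **(A1-a)** all vanishing orders of a Kummer modular function are divisible by `n`. -/
theorem dvd_order_taylor (c : modFunRing N) (hK : IsKummer (N := N) n (qexp c)) (τ : ℍ) :
    n ∣ (taylorHom τ (modFunToHol N c)).order.toNat := by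
  obtain ⟨v, k, -, hv⟩ := exists_place_taylor N τ
  have h1 := hv c
  rw [order_taylorE] at h1
  have h2 : (n : ℤ) ∣ v.ord (qexpHom N c) := isKummer_dvd_ord hK _ v
  have h3 : (n : ℤ) ∣ ((taylorHom τ (modFunToHol N c)).order.toNat : ℤ) := by
    rw [h1]
    exact Dvd.dvd.mul_left h2 _
  exact_mod_cast h3

theorem exists_stdAddChar_eq [NeZero n] {ζ : ℂ} (h : ζ ^ n = 1) :
    ∃ a : ZMod n, ZMod.stdAddChar a = ζ := by
  have hζ0 : ζ ≠ 0 := by
    rintro rfl
    rw [zero_pow (NeZero.ne n)] at h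
    exact zero_ne_one h
  have h1 : Units.mk0 ζ hζ0 ∈ rootsOfUnity n ℂ := by
    rw [mem_rootsOfUnity]
    apply Units.ext
    simpa using h
  obtain ⟨i, -, hi⟩ := (Complex.mem_rootsOfUnity n _).mp h1
  refine ⟨((i : ℤ) : ZMod n), ?_⟩
  rw [ZMod.stdAddChar_coe]
  simp only [Units.val_mk0] at hi
  rw [← hi]
  congr 1
  push_cast
  ring

/-- **(A1-i)** a Kummer modular function has a holomorphic `n`-th root with a character. -/
theorem exists_hasRoot [NeZero n] {c : ℍ → ℂ} (hc : IsModFun N c) (hc0 : ∃ τ, c τ ≠ 0)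
    (hK : IsKummer (N := N) n (qexp c)) :
    ∃ (w : ℍ → ℂ) (φ : Additive (Gamma0 N) →+ ZMod n), HasRoot N n c w φ := by
  have hn : 0 < n := Nat.pos_of_ne_zero (NeZero.ne n)
  set C : modFunRing N := ⟨c, hc⟩ with hC
  set cH : Hol := modFunToHol N C with hcH
  have hcH0 : cH ≠ 0 := by
    intro h0
    obtain ⟨τ, hτ⟩ := hc0
    exact hτ (congrFun (congrArg (fun z : Hol => (z : ℍ → ℂ)) h0) τ)
  obtain ⟨w, hw⟩ := exists_hol_root n hn cH (fun τ => by
    obtain ⟨m, hm⟩ := dvd_order_taylor C hK τ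
    refine ⟨m, ?_⟩
    rw [← ENat.natCast_toNat (S24.local_order_ne_top τ cH hcH0), hm]
    push_cast
    rfl)
  have hw0 : w ≠ 0 := by
    rintro rfl
    rw [zero_pow hn.ne'] at hw
    exact hcH0 hw.symm
  have hinv : ∀ γ : Gamma0 N, compHom (γ : SL(2, ℤ)) cH = cH := by
    intro γ
    apply Subtype.ext
    funext τ
    exact hc.inv γ γ.2 τ
  have hex : ∀ γ : Gamma0 N, ∃ a : ZMod n,
      compHom (γ : SL(2, ℤ)) w = constHol (ZMod.stdAddChar a) * w := by
    intro γ
    obtain ⟨ζ, hζ, h1⟩ := hol_root_unique n hn w (compHom (γ : SL(2, ℤ)) w) hw0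
      (by rw [← map_pow, hw, hinv])
    obtain ⟨a, rfl⟩ := exists_stdAddChar_eq hζ
    exact ⟨a, h1⟩
  choose a ha using hex
  have : IsDomain Hol := (S24.taylorHom_injective UpperHalfPlane.I).isDomain _
  have hadd : ∀ γ δ : Gamma0 N, a (γ * δ) = a γ + a δ := by
    intro γ δ
    apply ZMod.injective_stdAddChar
    have h1 := ha (γ * δ)
    rw [Subgroup.coe_mul, S24.compHom_mul, ha γ, map_mul, S24.compHom_constHol, ha δ] at h1
    have h2 : constHol (ZMod.stdAddChar (a γ) * ZMod.stdAddChar (a δ)) * w =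
        constHol (ZMod.stdAddChar (a (γ * δ))) * w := by
      rw [← h1, map_mul]
      ring
    have h3 := mul_right_cancel₀ hw0 h2
    have h4 := congrFun (congrArg (fun z : Hol => (z : ℍ → ℂ)) h3) UpperHalfPlane.I
    simp only [S24.constHol_apply] at h4
    rw [AddChar.map_add_eq_mul, h4]
  refine ⟨w, AddMonoidHom.mk' (fun γ => a (Additive.toMul γ)) (fun γ δ => hadd _ _),
    ⟨hc, hc0, w.2, fun τ => ?_, fun γ τ => ?_⟩⟩
  · exact congrFun (congrArg (fun z : Hol => (z : ℍ → ℂ)) hw) τ
  · exact congrFun (congrArg (fun z : Hol => (z : ℍ → ℂ)) (ha γ)) τ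

end

end Fermat.Agent.GR.A
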