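import Fermat.Agent.S24.Conj
import Fermat.Agent.GR.A.EvC

/-!
# GR-A, port of `S24/Conj.lean` (the part depending on the base field)
-/

set_option autoImplicit false

namespace Fermat.Agent.GR.A

open UpperHalfPlane Function
open Fermat.Agent.S24 (Hol constHol compHom taylorHom MerInf laurentHom jfun jdfun jHol Cosets
  compHom_apply compHom_constHol compHom_mul compHom_one compHom_jHol jdfun_smul_of_mem_Gamma0
  mem_Gamma0_of_jdfun_smul exists_hermite jfun_smul)
open scoped Manifold MatrixGroups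

variable {K : Type} [Field K] (ι : K →+* ℂ)

theorem compHom_evA_of_mem_Gamma0 (N : ℕ) [NeZero N] (γ : SL(2, ℤ))
    (hγ : γ ∈ CongruenceSubgroup.Gamma0 N) (a : A1 K N) : compHom γ (evA ι N a) = evA ι N a := by
  induction a using A1_induction with
  | hgen d _ hd =>
    ext τ
    rw [compHom_apply, evA_jdA, evA_jdA, jdfun_smul_of_mem_Gamma0 N d hd γ hγ]
  | hconst c => rw [evA_algebraMap, compHom_constHol]
  | hadd a b ha hb => rw [map_add, map_add, ha, hb]
  | hmul a b ha hb => rw [map_mul, map_mul, ha, hb]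


/-- The conjugate embeddings `a ↦ ev(a) ∘ g⁻¹` indexed by cosets `gΓ₀(N)`. -/
noncomputable def conjHom (N : ℕ) [NeZero N] (x : Cosets N) : A1 K N →+* Hol :=
  (compHom (x.out)⁻¹).comp (evA ι N)

/-- PIECE W4. -/
theorem conjHom_mk (N : ℕ) [NeZero N] (γ : SL(2, ℤ)) (a : A1 K N) :
    conjHom ι N (QuotientGroup.mk γ) a = compHom γ⁻¹ (evA ι N a) := by
  obtain ⟨h, hh⟩ := QuotientGroup.mk_out_eq_mul (CongruenceSubgroup.Gamma0 N) γ
  show compHom ((QuotientGroup.mk γ : Cosets N).out)⁻¹ (evA ι N a) = _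
  rw [hh, mul_inv_rev, compHom_mul,
    compHom_evA_of_mem_Gamma0 ι N _ ((CongruenceSubgroup.Gamma0 N).inv_mem h.2)]

theorem conjHom_smul (N : ℕ) [NeZero N] (γ : SL(2, ℤ)) (x : Cosets N) (a : A1 K N) :
    conjHom ι N (γ • x) a = compHom γ⁻¹ (conjHom ι N x a) := by
  induction x using QuotientGroup.induction_on with
  | H g =>
    have h1 : γ • (QuotientGroup.mk g : Cosets N) = QuotientGroup.mk (γ * g) := rfl
    rw [h1, conjHom_mk, conjHom_mk, mul_inv_rev, compHom_mul]


theorem conjHom_injective (N : ℕ) [NeZero N] (x : Cosets N) : Function.Injective (conjHom ι N x) :=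
  (Fermat.Agent.S24.Conj.compHom_injective _).comp (evA_injective ι N)

/-- PIECE W5. -/
theorem conjHom_index_injective (N : ℕ) [NeZero N] : Function.Injective (conjHom ι N) := by
  intro x y hxy
  induction x using QuotientGroup.induction_on with
  | H g =>
  induction y using QuotientGroup.induction_on with
  | H g' =>
    rw [QuotientGroup.eq]
    apply mem_Gamma0_of_jdfun_smul
    intro τ
    have h1 := congrArg (fun F : A1 K N →+* Hol => ((F (jdA K N N dvd_rfl) : Hol) : ℍ → ℂ) (g' • τ)) hxy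
    simp only [conjHom_mk, compHom_apply, evA_jdA] at h1
    rw [inv_smul_smul, ← mul_smul] at h1
    exact h1

theorem conjHom_algebraMap (N : ℕ) [NeZero N] (x : Cosets N) (c : K) :
    conjHom ι N x (algebraMap K (A1 K N) c) = constHol (ι c) := by
  show compHom _ (evA ι N _) = _
  rw [evA_algebraMap, compHom_constHol]

theorem conjHom_jA (N : ℕ) [NeZero N] (x : Cosets N) : conjHom ι N x (jA K N) = jHol := by
  show compHom _ (evA ι N _) = _
  rw [evA_jA, compHom_jHol]


/-- PIECE W6. The conjugates are `N`-periodic and meromorphic at `i∞`. -/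
theorem conjHom_mem_MerInf (N : ℕ) [NeZero N] (x : Cosets N) (a : A1 K N) :
    ((conjHom ι N x a : Hol) : ℍ → ℂ) ∈ MerInf N := by
  induction a using A1_induction with
  | hgen d _ hd =>
    obtain ⟨δ, a, e, b, ha, he, hae, -, hact⟩ := exists_hermite d (x.out)⁻¹
    have h1 : ((conjHom ι N x (jdA K N d hd) : Hol) : ℍ → ℂ) =
        fun τ : ℍ => jfun (Fermat.Agent.S24.Conj.affPt a e b ha he τ) := by
      funext τ
      show ((compHom _ (evA ι N _) : Hol) : ℍ → ℂ) τ = _
      rw [compHom_apply, evA_jdA, jdfun, hact τ (Fermat.Agent.S24.Conj.affPt a e b ha he τ) rfl, jfun_smul]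
    have h2 : MDiff (fun τ : ℍ => jfun (Fermat.Agent.S24.Conj.affPt a e b ha he τ)) := by
      rw [← h1]
      exact (conjHom ι N x (jdA K N d hd)).2
    rw [h1]
    exact Fermat.Agent.S24.Conj.jfun_affPt_mem_MerInf N a e b ha he ((Dvd.intro_left a hae).trans hd) h2
  | hconst c =>
    rw [conjHom_algebraMap]
    exact Fermat.Agent.S24.Conj.constHol_mem_MerInf N _
  | hadd a b ha hb =>
    rw [map_add]
    exact (MerInf N).add_mem ha hb
  | hmul a b ha hb =>
    rw [map_mul]
    exact (MerInf N).mul_mem ha hb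

end Fermat.Agent.GR.A
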