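import Fermat.Agent.GR.A.CuspHalf

/-!
# GR-A, (A1), analytic lemmas at the cusp `i∞` (no function fields)

* `eq_zero_of_dvd_order` : if `W(z+N) = e(a/n) W(z)`, `W^n ∈ MerInf N` has `q_N`-order divisible by
  `n`, then `a = 0`.
* `eq_exp_of_T_zpow` : multiplier of an element of `MerInf N` under `z ↦ z + m`.
-/

set_option autoImplicit false

namespace Fermat.Agent.GR.A

open UpperHalfPlane Function CongruenceSubgroup
open Fermat.Agent.S24 (Hol constHol compHom taylorHom MerInf laurentHom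
  compHom_mul compHom_one compHom_apply local_laurentHom_congr coeff_laurentHom_compHom_T
  laurentHom_injective)
open scoped Manifold MatrixGroups Real

local notation "𝕢" => Periodic.qParam

/-- `τ ↦ exp(s τ)` -/
noncomputable def expHol (s : ℂ) : Hol :=
  ⟨fun τ : ℍ => Complex.exp (s * τ), by
    rw [S24.mem_Hol, UpperHalfPlane.mdifferentiable_iff]
    have h1 : DifferentiableOn ℂ (fun z : ℂ => Complex.exp (s * z)) {z | 0 < z.im} :=
      ((differentiable_id.const_mul s).cexp).differentiableOn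
    refine h1.congr fun z hz => ?_
    simp [ofComplex_apply_of_im_pos hz]⟩

@[simp] theorem expHol_apply (s : ℂ) (τ : ℍ) : (expHol s : ℍ → ℂ) τ = Complex.exp (s * τ) := rfl

theorem compHom_T_pow_expHol (s : ℂ) (m : ℕ) :
    compHom (ModularGroup.T ^ m) (expHol s) = constHol (Complex.exp (s * m)) * expHol s := by
  ext τ
  show Complex.exp (s * ((ModularGroup.T ^ m • τ : ℍ) : ℂ)) =
    Complex.exp (s * m) * Complex.exp (s * τ)
  rw [← zpow_natCast, UpperHalfPlane.modular_T_zpow_smul, UpperHalfPlane.coe_vadd,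
    ← Complex.exp_add]
  congr 1
  push_cast
  ring

theorem laurentHom_order_ne {N : ℕ} [NeZero N] {F : Hol} (hF : (F : ℍ → ℂ) ∈ MerInf N)
    (hF0 : F ≠ 0) : laurentHom N ⟨_, hF⟩ ≠ 0 := by
  intro h0
  apply hF0
  have h1 : (⟨_, hF⟩ : MerInf N) = 0 := laurentHom_injective N (by rw [h0, map_zero])
  exact Subtype.ext (congrArg (fun g : MerInf N => (g : ℍ → ℂ)) h1)

/-- **(P1)**. -/
theorem eq_zero_of_dvd_order (N n : ℕ) [NeZero N] [NeZero n] (W : Hol) (hW0 : W ≠ 0) (a : ZMod n)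
    (hshift : compHom (ModularGroup.T ^ N) W = constHol (ZMod.stdAddChar a) * W)
    (hpow : ((W ^ n : Hol) : ℍ → ℂ) ∈ MerInf N)
    (hdiv : (n : ℤ) ∣ (laurentHom N ⟨_, hpow⟩).order) : a = 0 := by
  have hn : 0 < n := Nat.pos_of_ne_zero (NeZero.ne n)
  have hnC : (n : ℂ) ≠ 0 := by exact_mod_cast NeZero.ne n
  have hNC : (N : ℂ) ≠ 0 := by exact_mod_cast NeZero.ne N
  set b : ℕ := (-a).val with hb
  set s : ℂ := 2 * π * Complex.I * b / (n * N) with hs
  set V : Hol := W * expHol s with hV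
  have hE0 : expHol s ≠ 0 := by
    intro h0
    have := congrArg (fun g : Hol => (g : ℍ → ℂ) UpperHalfPlane.I) h0
    exact Complex.exp_ne_zero _ this
  have hV0 : V ≠ 0 := mul_ne_zero hW0 hE0
  -- periodicity of `V`
  have hmul : (ZMod.stdAddChar a : ℂ) * Complex.exp (s * N) = 1 := by
    have h1 : Complex.exp (s * N) = ZMod.stdAddChar (-a) := by
      rw [ZMod.stdAddChar_apply, ZMod.toCircle_apply, hs]
      congr 1
      field_simp
      rw [hb]
    rw [h1, ← AddChar.map_add_eq_mul, add_neg_cancel, AddChar.map_zero_eq_one]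
  have hVper : compHom (ModularGroup.T ^ N) V = V := by
    rw [hV, map_mul, hshift, compHom_T_pow_expHol]
    have : constHol (ZMod.stdAddChar a) * W * (constHol (Complex.exp (s * N)) * expHol s) =
        constHol ((ZMod.stdAddChar a : ℂ) * Complex.exp (s * N)) * (W * expHol s) := by
      rw [map_mul]; ring
    rw [this, hmul, map_one, one_mul]
  -- `E^n = q_N^b`
  have hEn : ((expHol s ^ n : Hol) : ℍ → ℂ) = fun τ : ℍ => S28.tParam N τ ^ (b : ℤ) := by
    funext τ
    show Complex.exp (s * τ) ^ n = (𝕢 (N : ℝ) (τ : ℂ)) ^ (b : ℤ)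
    rw [zpow_natCast, Periodic.qParam, ← Complex.exp_nat_mul, ← Complex.exp_nat_mul, hs]
    congr 1
    push_cast
    field_simp
  have hEexp : S28.IsExp N ((expHol s ^ n : Hol) : ℍ → ℂ) (HahnSeries.single (b : ℤ) 1) := by
    rw [hEn]; exact S28.isExp_single N b
  have hEmem : ((expHol s ^ n : Hol) : ℍ → ℂ) ∈ MerInf N := mem_MerInf_of_isExp N hEexp
  have hEL : laurentHom N ⟨_, hEmem⟩ = HahnSeries.single (b : ℤ) 1 :=
    laurentHom_eq_of_isExp N hEexp hEmem
  have hVn : V ^ n = W ^ n * expHol s ^ n := by rw [hV, mul_pow]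
  have hVnmem : ((V ^ n : Hol) : ℍ → ℂ) ∈ MerInf N := by
    rw [hVn]; exact (MerInf N).mul_mem hpow hEmem
  have hVmem : (V : ℍ → ℂ) ∈ MerInf N := mem_MerInf_of_pow_mem N n hn V hVper hVnmem
  have h1 : (⟨_, hVmem⟩ : MerInf N) ^ n = ⟨_, hpow⟩ * ⟨_, hEmem⟩ := by
    apply Subtype.ext
    exact congrArg (fun g : Hol => (g : ℍ → ℂ)) hVn
  have h2 := congrArg (fun x => (laurentHom N x).order) h1
  simp only [map_pow, map_mul] at h2
  rw [HahnSeries.order_pow, nsmul_eq_mul, HahnSeries.order_mul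
    (laurentHom_order_ne hpow (pow_ne_zero n hW0)) (by rw [hEL]; simp), hEL,
    HahnSeries.order_single one_ne_zero] at h2
  have h3 : (n : ℤ) ∣ (b : ℤ) := by
    have : (b : ℤ) = (n : ℤ) * (laurentHom N ⟨_, hVmem⟩).order -
      (laurentHom N ⟨_, hpow⟩).order := by rw [h2]; ring
    rw [this]
    exact dvd_sub (dvd_mul_right _ _) hdiv
  have h4 : b = 0 := by
    have h5 : n ∣ b := by exact_mod_cast h3
    exact Nat.eq_zero_of_dvd_of_lt h5 (ZMod.val_lt _)
  have h6 : -a = 0 := (ZMod.val_eq_zero _).1 h4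
  exact neg_eq_zero.1 h6

/-- **(P2)** multiplier of an element of `MerInf N` under `z ↦ z + m`. -/
theorem eq_exp_of_T_pow (N : ℕ) [NeZero N] (F : Hol) (hF : (F : ℍ → ℂ) ∈ MerInf N) (hF0 : F ≠ 0)
    (m : ℕ) (c : ℂ) (hc : compHom (ModularGroup.T ^ m) F = constHol c * F) :
    c = Complex.exp (2 * π * Complex.I * (m : ℤ) * (laurentHom N ⟨_, hF⟩).order / N) := by
  set L := laurentHom N ⟨_, hF⟩ with hLdef
  have hL : L ≠ 0 := laurentHom_order_ne hF hF0
  have hcmem : ((constHol c : Hol) : ℍ → ℂ) ∈ MerInf N := S24.Conj.constHol_mem_MerInf N c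
  have hcL : laurentHom N ⟨_, hcmem⟩ = HahnSeries.C c :=
    laurentHom_eq_of_isExp N (S28.isExp_C N c) hcmem
  have hfun : ((compHom (ModularGroup.T ^ (m : ℤ)) F : Hol) : ℍ → ℂ) =
      ((constHol c * F : Hol) : ℍ → ℂ) := by
    rw [zpow_natCast, hc]
  have hmem2 : ((constHol c * F : Hol) : ℍ → ℂ) ∈ MerInf N := (MerInf N).mul_mem hcmem hF
  have hmem : ((compHom (ModularGroup.T ^ (m : ℤ)) F : Hol) : ℍ → ℂ) ∈ MerInf N :=
    hfun.symm ▸ hmem2
  have h1 := coeff_laurentHom_compHom_T N F hF m hmem L.order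
  rw [local_laurentHom_congr N hmem hmem2 hfun] at h1
  have h2 : (⟨_, hmem2⟩ : MerInf N) = ⟨_, hcmem⟩ * ⟨_, hF⟩ := rfl
  rw [h2, map_mul, hcL, ← hLdef, HahnSeries.C_mul_eq_smul, HahnSeries.coeff_smul,
    smul_eq_mul] at h1
  have hne : L.coeff L.order ≠ 0 := fun h0 => hL (HahnSeries.coeff_order_eq_zero.mp h0)
  exact mul_right_cancel₀ hne h1

end Fermat.Agent.GR.A
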