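import Fermat.Agent.GR.A.EvF
import Fermat.Agent.GR.A.DegreeC
import Fermat.Agent.GR.A.LocalC
import Fermat.Agent.GR.A.Count
import Fermat.Agent.GR.A.ModFun
import Fermat.Agent.S24.Final

/-!
# GR-A, (A2), the places at infinity

If `c` is a holomorphic modular function with a holomorphic `n`-th root `w` which is invariant under
all parabolic elements of `Γ₀(N)`, then `n ∣ ord_v c` for every place `v` above `j = ∞`.
-/

set_option autoImplicit false

namespace Fermat.Agent.GR.A

open UpperHalfPlane Function AlgebraicCurve CongruenceSubgroup IntermediateField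
open Fermat.Agent.S24 (Hol constHol compHom taylorHom MerInf laurentHom jfun jdfun jHol Cosets permOf
  compHom_mul compHom_one compHom_apply local_laurentHom_congr coeff_laurentHom_compHom_T
  laurentHom_injective)
open Fermat.Agent.GR (FF)
open scoped Manifold MatrixGroups

local notation "𝕢" => Periodic.qParam

/-- multiplier at the cusp: a `T^w`-invariant function has `q_N`-order `M` with `N ∣ w M`. -/
theorem dvd_mul_order_of_T_pow_invariant (N : ℕ) [NeZero N] (F : Hol)
    (hF : (F : ℍ → ℂ) ∈ MerInf N) (hF0 : F ≠ 0) (w : ℕ)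
    (hinv : compHom (ModularGroup.T ^ w) F = F) :
    (N : ℤ) ∣ (w : ℤ) * (laurentHom N ⟨_, hF⟩).order := by
  set L := laurentHom N ⟨_, hF⟩ with hLdef
  have hL : L ≠ 0 := by
    intro h0
    apply hF0
    have h1 : (⟨_, hF⟩ : MerInf N) = 0 := laurentHom_injective N (by rw [← hLdef, h0, map_zero])
    exact Subtype.ext (congrArg (fun g : MerInf N => (g : ℍ → ℂ)) h1)
  have hfun : ((compHom (ModularGroup.T ^ (w : ℤ)) F : Hol) : ℍ → ℂ) = (F : ℍ → ℂ) := by
    rw [zpow_natCast, hinv]
  have hmem : ((compHom (ModularGroup.T ^ (w : ℤ)) F : Hol) : ℍ → ℂ) ∈ MerInf N := hfun.symm ▸ hF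
  have hc := coeff_laurentHom_compHom_T N F hF w hmem L.order
  rw [local_laurentHom_congr N hmem hF hfun, ← hLdef] at hc
  have hne : L.coeff L.order ≠ 0 := fun h0 => hL (HahnSeries.coeff_order_eq_zero.mp h0)
  have hexp : Complex.exp (2 * Real.pi * Complex.I * ((w : ℤ) : ℂ) * (L.order : ℂ) / N) = 1 := by
    have h4 : (1 : ℂ) * L.coeff L.order =
        Complex.exp (2 * Real.pi * Complex.I * ((w : ℤ) : ℂ) * (L.order : ℂ) / N) *
          L.coeff L.order := by
      rw [one_mul]; exact hc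
    exact (mul_right_cancel₀ hne h4).symm
  rw [Complex.exp_eq_one_iff] at hexp
  obtain ⟨k, hk⟩ := hexp
  have hN : (N : ℂ) ≠ 0 := by exact_mod_cast NeZero.ne N
  have hpi : (2 * Real.pi * Complex.I : ℂ) ≠ 0 := Complex.two_pi_I_ne_zero
  have h2 : ((w : ℤ) : ℂ) * (L.order : ℂ) = (N : ℂ) * k := by
    field_simp at hk
    have h3 : (2 * Real.pi * Complex.I : ℂ) * (((w : ℤ) : ℂ) * (L.order : ℂ)) =
        (2 * Real.pi * Complex.I : ℂ) * ((N : ℂ) * k) := by
      linear_combination (2 * Real.pi * Complex.I : ℂ) * hk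
    exact mul_left_cancel₀ hpi h3
  refine ⟨k, ?_⟩
  exact_mod_cast h2

/-- a `T^N`-invariant holomorphic `n`-th root of an element of `MerInf N` is in `MerInf N`. -/
theorem mem_MerInf_of_pow_mem (N n : ℕ) (hn : 0 < n) (W : Hol)
    (hper : compHom (ModularGroup.T ^ N) W = W) (hpow : ((W ^ n : Hol) : ℍ → ℂ) ∈ MerInf N) :
    (W : ℍ → ℂ) ∈ MerInf N := by
  obtain ⟨-, -, m, hm⟩ := S24.mem_MerInf.mp hpow
  refine S24.mem_MerInf.mpr ⟨W.2, ?_, m, isBoundedAtImInfty_of_pow hn hm⟩
  refine S24.Hol_periodic_of_forall N fun τ τ' hτ => ?_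
  have h1 : τ' = (ModularGroup.T ^ (N : ℤ)) • τ := by
    rw [UpperHalfPlane.modular_T_zpow_smul]
    apply UpperHalfPlane.ext
    rw [hτ, UpperHalfPlane.coe_vadd]
    push_cast
    ring
  have h2 := congrArg (fun g : Hol => (g : ℍ → ℂ) τ) hper
  simp only [compHom_apply] at h2
  rw [h1, zpow_natCast]
  exact h2

theorem compHom_pow_of_invariant (γ : SL(2, ℤ)) (F : Hol) (h : compHom γ F = F) (k : ℕ) :
    compHom (γ ^ k) F = F := by
  induction k with
  | zero => simp
  | succ k ih => rw [pow_succ, compHom_mul, ih, h]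

variable {K : Type} [Field K] [IsAlgClosed K] [CharZero K] (ι : K →+* ℂ) (N : ℕ) [NeZero N]

/-- **(A2), cusps** (generic base field). -/
theorem dvd_ord_of_root_of_ord_j_neg (n : ℕ) (hn : 0 < n) (f : FF K N) (hf : f ≠ 0) (c w : Hol)
    (hc : evF ι N f = holMer c) (hcusp : ∀ δ : SL(2, ℤ), ((compHom δ c : Hol) : ℍ → ℂ) ∈ MerInf N)
    (hw : w ^ n = c)
    (hpar : ∀ (δ : SL(2, ℤ)) (m : ℕ), δ * ModularGroup.T ^ m * δ⁻¹ ∈ Gamma0 N →
      compHom (δ * ModularGroup.T ^ m * δ⁻¹) w = w)
    (v : Place K (FF K N)) (hv : v.ord (jF K N) < 0) : (n : ℤ) ∣ v.ord f := by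
  obtain ⟨U, -, hUφ⟩ := (preUnifInfty ι N).toUnifDataInv
  have hx : Transcendental K (jF K N)⁻¹ := S24.transcendental_inv (transcendental_jF ι N)
  haveI := finiteDimensional_FF ι N
  haveI : FiniteDimensional K⟮(jF K N)⁻¹⟯ (FF K N) :=
    S24.finiteDimensional_of_eq (S24.adjoin_inv (jF K N))
  have hcard : Nat.card (Cosets N) = Module.finrank K⟮(jF K N)⁻¹⟯ (FF K N) := by
    rw [finrank_FF ι N, S24.finrank_eq_of_eq (S24.adjoin_inv (jF K N))]
  have hv' : 0 < v.ord (jF K N)⁻¹ := by rw [v.ord_inv]; omega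
  obtain ⟨i, hi⟩ := U.exists_induced hx hcard v hv'
  obtain ⟨k, hk, hkw, hkf⟩ := exists_mul_minimalPeriod_eq U hx hcard i v hi
  set w0 := Function.minimalPeriod (permOf N ModularGroup.T) i with hw0
  have hw0pos : 0 < w0 := by
    rcases Nat.eq_zero_or_pos w0 with h0 | h0
    · rw [h0, mul_zero] at hkw
      exact absurd hkw.symm (NeZero.ne N)
    · exact h0
  have hper : (permOf N ModularGroup.T ^ w0) i = i := by
    rw [← Equiv.Perm.iterate_eq_pow]
    exact Function.isPeriodicPt_minimalPeriod _ _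
  -- the coset
  obtain ⟨g, rfl⟩ := QuotientGroup.mk_surjective i
  set δ := g⁻¹ with hδ
  have hmemΓ : δ * ModularGroup.T ^ w0 * δ⁻¹ ∈ Gamma0 N := by
    rw [S24.local_permOf_pow] at hper
    have h1 : (ModularGroup.T ^ w0) • (QuotientGroup.mk g : Cosets N) =
        QuotientGroup.mk (ModularGroup.T ^ w0 * g) := rfl
    rw [h1, eq_comm, QuotientGroup.eq] at hper
    rw [hδ, inv_inv, mul_assoc]
    exact hper
  -- the functions
  set W := compHom δ w with hW
  set C := compHom δ c with hC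
  have hWn : W ^ n = C := by rw [hW, hC, ← map_pow, hw]
  have hWinv : compHom (ModularGroup.T ^ w0) W = W := by
    have h1 := hpar δ w0 hmemΓ
    rw [compHom_mul, compHom_mul] at h1
    have h2 := congrArg (compHom δ) h1
    rw [← compHom_mul δ⁻¹ δ, inv_mul_cancel, compHom_one] at h2
    exact h2
  have hWN : compHom (ModularGroup.T ^ N) W = W := by
    rw [← hkw, mul_comm, pow_mul]
    exact compHom_pow_of_invariant _ _ hWinv k
  have hCmem : (C : ℍ → ℂ) ∈ MerInf N := hcusp δ
  have hWmem : (W : ℍ → ℂ) ∈ MerInf N :=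
    mem_MerInf_of_pow_mem N n hn W hWN (by rw [hWn]; exact hCmem)
  have hc0 : c ≠ 0 := by
    rintro rfl
    rw [map_zero] at hc
    exact hf ((map_eq_zero _).1 hc)
  have hC0 : C ≠ 0 := fun h => hc0 (compHom_injective δ (by rw [← hC, h, map_zero]))
  have hW0 : W ≠ 0 := by
    rintro h
    rw [h, zero_pow hn.ne'] at hWn
    exact hC0 hWn.symm
  -- orders
  have hord1 : (laurentHom N ⟨_, hCmem⟩).order = (n : ℤ) * (laurentHom N ⟨_, hWmem⟩).order := by
    have h1 : (⟨_, hCmem⟩ : MerInf N) = (⟨_, hWmem⟩ : MerInf N) ^ n := by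
      apply Subtype.ext
      have := congrArg (fun g : Hol => (g : ℍ → ℂ)) hWn
      exact this.symm
    rw [h1, map_pow, HahnSeries.order_pow, nsmul_eq_mul]
  have hord2 : (laurentHom N ⟨_, hCmem⟩).order = (k : ℤ) * v.ord f := by
    rw [← hkf]
    obtain ⟨a, b, hb, rfl⟩ := exists_frac K N f
    have ha : a ≠ 0 := by
      rintro rfl
      apply hf
      rw [map_zero, zero_div]
    have hb' : incl K N b ≠ 0 := fun h => hb (incl_injective K N (by rw [h, map_zero]))
    have ha' : incl K N a ≠ 0 := fun h => ha (incl_injective K N (by rw [h, map_zero]))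
    rw [S24.order_map_div _ ha' hb', hUφ, hUφ]
    show _ = (localPsiInf ι N _ a).order - (localPsiInf ι N _ b).order
    rw [localPsiInf_apply, localPsiInf_apply]
    -- relation `evA a = c * evA b`
    have hrel : evA ι N a = c * evA ι N b := by
      apply holMer_injective
      rw [map_mul, ← hc, map_div₀, evF_incl, evF_incl, div_mul_cancel₀]
      intro h
      exact hb (evA_injective ι N (holMer_injective (by rw [h, map_zero, map_zero])))
    have hrel2 : conjHom ι N (QuotientGroup.mk g) a = C * conjHom ι N (QuotientGroup.mk g) b := by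
      rw [conjHom_mk, conjHom_mk, hrel, map_mul]
    have h3 : (⟨_, conjHom_mem_MerInf ι N (QuotientGroup.mk g) a⟩ : MerInf N) =
        (⟨_, hCmem⟩ : MerInf N) * ⟨_, conjHom_mem_MerInf ι N (QuotientGroup.mk g) b⟩ := by
      apply Subtype.ext
      exact congrArg (fun g : Hol => (g : ℍ → ℂ)) hrel2
    rw [h3, map_mul, HahnSeries.order_mul]
    · ring
    · intro h0
      apply hC0
      have h1 : (⟨_, hCmem⟩ : MerInf N) = 0 := laurentHom_injective N (by rw [h0, map_zero])
      exact Subtype.ext (congrArg (fun g : MerInf N => (g : ℍ → ℂ)) h1)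
    · intro h0
      apply hb
      apply conjHom_injective ι N (QuotientGroup.mk g)
      rw [map_zero]
      have h1 : (⟨_, conjHom_mem_MerInf ι N (QuotientGroup.mk g) b⟩ : MerInf N) = 0 :=
        laurentHom_injective N (by rw [h0, map_zero])
      exact Subtype.ext (congrArg (fun g : MerInf N => (g : ℍ → ℂ)) h1)
  have hdvd := dvd_mul_order_of_T_pow_invariant N W hWmem hW0 w0 hWinv
  set M := (laurentHom N ⟨_, hWmem⟩).order with hM
  -- `k w0 ∣ w0 M`
  have hkM : (k : ℤ) ∣ M := by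
    have h1 : ((w0 : ℤ) * (k : ℤ)) ∣ (w0 : ℤ) * M := by
      have : ((w0 : ℤ) * (k : ℤ)) = (N : ℤ) := by rw [← hkw]; push_cast; ring
      rw [this]; exact hdvd
    exact (mul_dvd_mul_iff_left (by exact_mod_cast hw0pos.ne')).1 h1
  obtain ⟨M', hM'⟩ := hkM
  refine ⟨M', ?_⟩
  have h5 : (k : ℤ) * v.ord f = (k : ℤ) * ((n : ℤ) * M') := by
    rw [← hord2, hord1, hM']; ring
  exact mul_left_cancel₀ (by exact_mod_cast hk.ne') h5

end Fermat.Agent.GR.A
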