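import Fermat.Agent.S24.Hol
import Fermat.Agent.GR.Defs

/-!
# GR-A : basic definitions

* `Mer` : the field of fractions of the ring `Hol` of holomorphic functions on `ℍ`
  ("meromorphic functions"), with the composition action of `SL₂(ℤ)` and Taylor/Laurent expansions.
* `epHoms R Γ A` : homomorphisms `Γ → A` killing all elliptic and parabolic elements (`tr² ≤ 4`).
* `IsKummerPair N n φ ρ` : `ρ ∘ γ = e(φ(γ)/n) ρ` for all `γ ∈ Γ₀(N)`.
-/

set_option autoImplicit false

namespace Fermat.Agent.GR.A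

open UpperHalfPlane Function AlgebraicCurve CongruenceSubgroup
open Fermat.Agent.S24 (Hol constHol compHom taylorHom MerInf laurentHom)
open scoped Manifold MatrixGroups

instance instIsDomainHol : IsDomain Hol :=
  (Fermat.Agent.S24.taylorHom_injective UpperHalfPlane.I).isDomain _

/-- "Meromorphic functions on `ℍ`": the fraction field of the ring of holomorphic functions. -/
abbrev Mer : Type := FractionRing Hol

/-- holomorphic functions as meromorphic functions -/
noncomputable def holMer : Hol →+* Mer := algebraMap Hol Mer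

theorem holMer_injective : Function.Injective holMer := IsFractionRing.injective Hol Mer

/-- constants -/
noncomputable def constMer : ℂ →+* Mer := holMer.comp constHol

theorem compHom_injective (γ : SL(2, ℤ)) : Function.Injective (compHom γ) := by
  intro f g h
  have h2 := congrArg (compHom γ⁻¹) h
  rwa [← Fermat.Agent.S24.compHom_mul, ← Fermat.Agent.S24.compHom_mul, mul_inv_cancel,
    Fermat.Agent.S24.compHom_one, Fermat.Agent.S24.compHom_one] at h2

/-- Precomposition with `γ ∈ SL₂(ℤ)` on meromorphic functions: `f ↦ f ∘ γ`.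
NB `compMer (γ * δ) = compMer δ ∘ compMer γ`. -/
noncomputable def compMer (γ : SL(2, ℤ)) : Mer →+* Mer :=
  IsFractionRing.lift (g := holMer.comp (compHom γ))
    (holMer_injective.comp (compHom_injective γ))

@[simp] theorem compMer_holMer (γ : SL(2, ℤ)) (f : Hol) :
    compMer γ (holMer f) = holMer (compHom γ f) :=
  IsFractionRing.lift_algebraMap _ f

@[simp] theorem compMer_constMer (γ : SL(2, ℤ)) (c : ℂ) : compMer γ (constMer c) = constMer c := by
  simp [constMer]

theorem exists_holMer_div (f : Mer) : ∃ a b : Hol, b ≠ 0 ∧ f = holMer a / holMer b := by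
  obtain ⟨a, b, hb, h⟩ := IsFractionRing.div_surjective (A := Hol) f
  exact ⟨a, b, nonZeroDivisors.ne_zero hb, h.symm⟩

theorem compMer_mul (γ δ : SL(2, ℤ)) (f : Mer) :
    compMer (γ * δ) f = compMer δ (compMer γ f) := by
  obtain ⟨a, b, -, rfl⟩ := exists_holMer_div f
  simp [Fermat.Agent.S24.compHom_mul]

@[simp] theorem compMer_one (f : Mer) : compMer 1 f = f := by
  obtain ⟨a, b, -, rfl⟩ := exists_holMer_div f
  simp

/-- Laurent expansion of a meromorphic function at `τ` (in the variable `z - τ`). -/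
noncomputable def taylorMer (τ : ℍ) : Mer →+* LaurentSeries ℂ :=
  IsFractionRing.lift (g := (HahnSeries.ofPowerSeries ℤ ℂ).comp (taylorHom τ))
    (HahnSeries.ofPowerSeries_injective.comp (Fermat.Agent.S24.taylorHom_injective τ))

@[simp] theorem taylorMer_holMer (τ : ℍ) (f : Hol) :
    taylorMer τ (holMer f) = HahnSeries.ofPowerSeries ℤ ℂ (taylorHom τ f) :=
  IsFractionRing.lift_algebraMap _ f

/-- order of vanishing at `τ` -/
noncomputable def ordAt (τ : ℍ) (f : Mer) : ℤ := (taylorMer τ f).order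

/-- elements of `MerInf h` as holomorphic functions -/
def MerInf.toHol {h : ℕ} (a : MerInf h) : Hol := ⟨a.1, a.2.1⟩

/-- `f` is a quotient `a / b` of `h`-periodic holomorphic functions, meromorphic at `i∞`, and
`ord_{q_h} a - ord_{q_h} b = m` (`q_h = e^{2π i z / h}`). -/
def HasCuspOrder (h : ℕ) [NeZero h] (f : Mer) (m : ℤ) : Prop :=
  ∃ a b : MerInf h, a ≠ 0 ∧ b ≠ 0 ∧ f * holMer (MerInf.toHol b) = holMer (MerInf.toHol a) ∧
    (laurentHom h a).order - (laurentHom h b).order = m

/-- A homomorphism `Γ → A` killing all elliptic and parabolic elements (and `±1`):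
all `γ` with `tr(γ)² ≤ 4`. -/
def IsEPHom {Γ : Subgroup SL(2, ℤ)} {A : Type*} [AddCommGroup A] (φ : Additive Γ →+ A) : Prop :=
  ∀ γ : Γ, ((γ : SL(2, ℤ)) : Matrix (Fin 2) (Fin 2) ℤ).trace ^ 2 ≤ 4 → φ (Additive.ofMul γ) = 0

/-- The module of homomorphisms killing elliptic and parabolic elements. -/
def epHoms (R : Type*) [Semiring R] (Γ : Subgroup SL(2, ℤ)) (A : Type*) [AddCommGroup A]
    [Module R A] : Submodule R (Additive Γ →+ A) where
  carrier := {φ | IsEPHom φ}
  zero_mem' := fun _ _ => rfl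
  add_mem' := by
    intro φ ψ hφ hψ γ hγ
    show φ (Additive.ofMul γ) + ψ (Additive.ofMul γ) = 0
    rw [hφ γ hγ, hψ γ hγ, add_zero]
  smul_mem' := by
    intro c φ hφ γ hγ
    show c • φ (Additive.ofMul γ) = 0
    rw [hφ γ hγ, smul_zero]

theorem mem_epHoms {R : Type*} [Semiring R] {Γ : Subgroup SL(2, ℤ)} {A : Type*} [AddCommGroup A]
    [Module R A] {φ : Additive Γ →+ A} : φ ∈ epHoms R Γ A ↔ IsEPHom φ := Iff.rfl

/-- `ρ ≠ 0` is a meromorphic function with `ρ ∘ γ = e^{2π i φ(γ)/n} ρ` for all `γ ∈ Γ₀(N)`. -/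
def IsKummerPair (N n : ℕ) [NeZero n] (φ : Additive (Gamma0 N) →+ ZMod n) (ρ : Mer) : Prop :=
  ρ ≠ 0 ∧ ∀ γ : Gamma0 N,
    compMer (γ : SL(2, ℤ)) ρ = constMer (ZMod.stdAddChar (φ (Additive.ofMul γ))) * ρ

end Fermat.Agent.GR.A
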