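import Fermat.Agent.GR.A.EllA1
import Fermat.Agent.GR.A.KillsParC
import Fermat.Agent.GR.A.RootChar
import Fermat.Agent.GR.A.RootHol
import Fermat.Agent.GR.B.ModFrac

/-!
# GR-A : exports

* `exists_char` (A1): `IsKummer n u → ∃ φ, Kills φ ∧ HasChar N n u φ`
* (A2) is `isKummer_of_hasChar` of `IsKummerOfChar.lean`
* `isKummer_iff_exists_hasChar`: the dictionary.
-/

set_option autoImplicit false

open UpperHalfPlane CongruenceSubgroup ModularCurve AlgebraicCurve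
open scoped MatrixGroups Manifold

namespace Fermat.Agent.GR.A

variable {N : ℕ} [NeZero N] {n : ℕ} [NeZero n]

omit [NeZero N] [NeZero n] in
/-- `IsKummer` only depends on the class modulo `n`-th powers. -/
theorem isKummer_congr {u u' : LaurentSeries ℂ} (hu : IsKummer (N := N) n u)
    (h : KummerEquiv N n u u') : IsKummer (N := N) n u' := by
  obtain ⟨hu0, hmem, hdiv⟩ := hu
  obtain ⟨z, hz, hz0, rfl⟩ := h
  refine ⟨mul_ne_zero hu0 (pow_ne_zero _ hz0), mul_mem hmem (pow_mem hz n), fun v => ?_⟩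
  have h1 : (⟨u * z ^ n, mul_mem hmem (pow_mem hz n)⟩ : FF ℂ N) =
      (⟨u, hmem⟩ : FF ℂ N) * (⟨z, hz⟩ : FF ℂ N) ^ (n : ℤ) := by
    apply Subtype.ext
    simp
  have hu' : (⟨u, hmem⟩ : FF ℂ N) ≠ 0 := fun h => hu0 (congrArg Subtype.val h)
  have hz' : (⟨z, hz⟩ : FF ℂ N) ≠ 0 := fun h => hz0 (congrArg Subtype.val h)
  rw [h1, v.ord_mul hu' (zpow_ne_zero _ hz'), v.ord_zpow]
  exact dvd_add (hdiv v) (dvd_mul_right _ _)

/-- **(A1)** -/
theorem exists_char {u : LaurentSeries ℂ} (hu : IsKummer (N := N) n u) :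
    ∃ φ : Additive (Gamma0 N) →+ ZMod n, B.Kills φ ∧ HasChar N n u φ := by
  have hn : 0 < n := Nat.pos_of_ne_zero (NeZero.ne n)
  obtain ⟨a, b, fa, fb, ha, hb, hfa, hfb, hfb0, hab⟩ := B.exists_modFun_frac hu.2.1
  have hfa' : fa = qexp a := S28.IsExp.unique one_pos hfa ha.isExp
  have hfb' : fb = qexp b := S28.IsExp.unique one_pos hfb hb.isExp
  subst hfa' hfb'
  set c : ℍ → ℂ := a * b ^ (n - 1) with hc
  have hcm : IsModFun N c := ha.mul (hb.pow _)
  have hq : qexp c = u * qexp b ^ n := by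
    rw [hc, qexp_mul ha (hb.pow _), qexp_pow hb, ← hab, mul_assoc, ← pow_succ']
    congr 2
    omega
  have hequiv : KummerEquiv N n u (qexp c) := ⟨qexp b, hb.qexp_mem, hfb0, hq⟩
  have hK : IsKummer (N := N) n (qexp c) := isKummer_congr hu hequiv
  have hc0 : c ≠ 0 := fun h0 => hK.1 (hcm.qexp_eq_zero_iff.mpr h0)
  obtain ⟨w, hw⟩ := exists_hol_root n hn ⟨c, hcm.mdiff⟩ (dvd_order_of_isKummer hcm hc0 hK)
  have hwc : ∀ τ, (w : ℍ → ℂ) τ ^ n = c τ := fun τ =>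
    congrFun (congrArg Subtype.val hw) τ
  obtain ⟨φ, hroot⟩ := exists_hasRoot_of_pow_eq hcm hc0 w.2 hwc
  refine ⟨φ, ?_, c, w, qexp c, hroot, hcm.isExp, C.kummerEquiv_symm hequiv⟩
  rintro γ (hγ | hγ)
  · exact hroot.eq_zero_of_finOrder hK γ hγ
  · exact hroot.eq_zero_of_trace hK γ hγ

/-- **The dictionary** (`= GR.B.Dict N`). -/
theorem isKummer_iff_exists_hasChar (u : LaurentSeries ℂ) :
    IsKummer (N := N) n u ↔ ∃ φ : Additive (Gamma0 N) →+ ZMod n, B.Kills φ ∧ HasChar N n u φ :=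
  ⟨exists_char, fun ⟨_, hφ, h⟩ => isKummer_of_hasChar h hφ⟩

end Fermat.Agent.GR.A
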