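import Fermat.Agent.S24.Local

/-!
# GR-A: elements of `SL₂(ℤ)` of finite order have `|trace| ≤ 2`; elements with `|trace| < 2` have a
fixed point in the upper half plane.
-/

set_option autoImplicit false

namespace Fermat.Agent.GR.A

open UpperHalfPlane
open scoped MatrixGroups

theorem FixedPt_mul_self_eq (M : Matrix (Fin 2) (Fin 2) ℤ) (hdet : M.det = 1) :
    M * M = M.trace • M - 1 := by
  rw [Matrix.det_fin_two] at hdet
  ext i j
  rw [Matrix.sub_apply, Matrix.smul_apply, smul_eq_mul, Matrix.mul_apply, Fin.sum_univ_two,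
    Matrix.trace_fin_two]
  fin_cases i <;> fin_cases j <;> simp <;> linarith

theorem FixedPt_trace_pow_succ_succ (M : Matrix (Fin 2) (Fin 2) ℤ) (hdet : M.det = 1) (k : ℕ) :
    (M ^ (k + 2)).trace = M.trace * (M ^ (k + 1)).trace - (M ^ k).trace := by
  rw [pow_add, pow_two, FixedPt_mul_self_eq M hdet, mul_sub, mul_one, Matrix.mul_smul, ← pow_succ,
    Matrix.trace_sub, Matrix.trace_smul, smul_eq_mul]

theorem FixedPt_abs_trace_pow (M : Matrix (Fin 2) (Fin 2) ℤ) (hdet : M.det = 1)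
    (ht : 3 ≤ |M.trace|) (k : ℕ) :
    |(M ^ k).trace| < |(M ^ (k + 1)).trace| ∧ 2 ≤ |(M ^ k).trace| := by
  induction k with
  | zero =>
    simp only [pow_zero, zero_add, pow_one, Matrix.trace_one, Fintype.card_fin]
    norm_num
    linarith
  | succ k ih =>
    obtain ⟨h1, h2⟩ := ih
    refine ⟨?_, by linarith⟩
    rw [FixedPt_trace_pow_succ_succ M hdet]
    have h3 := abs_sub_abs_le_abs_sub (M.trace * (M ^ (k + 1)).trace) ((M ^ k).trace)
    rw [abs_mul] at h3
    nlinarith [abs_nonneg (M ^ (k + 1)).trace]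

theorem abs_trace_le_two_of_isOfFinOrder (g : SL(2, ℤ)) (hg : IsOfFinOrder g) :
    |(g : Matrix (Fin 2) (Fin 2) ℤ).trace| ≤ 2 := by
  by_contra hcon
  have ht : 3 ≤ |(g : Matrix (Fin 2) (Fin 2) ℤ).trace| := by omega
  obtain ⟨k, hk, hgk⟩ := isOfFinOrder_iff_pow_eq_one.mp hg
  obtain ⟨k, rfl⟩ : ∃ j, k = j + 1 := ⟨k - 1, by omega⟩
  have h1 := FixedPt_abs_trace_pow (g : Matrix (Fin 2) (Fin 2) ℤ) g.det_coe ht k
  have h2 : ((g : Matrix (Fin 2) (Fin 2) ℤ) ^ (k + 1)) = 1 := by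
    rw [← Matrix.SpecialLinearGroup.coe_pow, hgk, Matrix.SpecialLinearGroup.coe_one]
  rw [h2] at h1
  simp only [Matrix.trace_one, Fintype.card_fin] at h1
  norm_num at h1
  linarith

/-- an element with `|trace| < 2` has a fixed point in `ℍ`. -/
theorem exists_fixed_point (g : SL(2, ℤ))
    (ht : (g : Matrix (Fin 2) (Fin 2) ℤ).trace ^ 2 < 4) : ∃ τ : ℍ, g • τ = τ := by
  have hdet : g 0 0 * g 1 1 - g 0 1 * g 1 0 = 1 := by
    have := g.det_coe
    rwa [Matrix.det_fin_two] at this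
  rw [Matrix.trace_fin_two] at ht
  set a := g 0 0 with ha
  set b := g 0 1 with hb
  set c := g 1 0 with hc
  set d := g 1 1 with hd
  have ht' : (a + d) ^ 2 < 4 := ht
  have hc0 : c ≠ 0 := by
    intro h0
    rw [h0, mul_zero, sub_zero] at hdet
    rcases Int.eq_one_or_neg_one_of_mul_eq_one' hdet with ⟨h1, h2⟩ | ⟨h1, h2⟩ <;>
      rw [h1, h2] at ht' <;> norm_num at ht'
  set D : ℝ := 4 - ((a : ℝ) + d) ^ 2 with hD
  have hDpos : 0 < D := by
    have : ((a : ℝ) + d) ^ 2 < 4 := by exact_mod_cast ht'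
    linarith
  have hcR : (c : ℝ) ≠ 0 := by exact_mod_cast hc0
  set y : ℝ := Real.sqrt D / (2 * |(c : ℝ)|) with hy
  have hypos : 0 < y := by
    have := abs_pos.mpr hcR
    have := Real.sqrt_pos.mpr hDpos
    positivity
  set x : ℝ := ((a : ℝ) - d) / (2 * c) with hx
  refine ⟨⟨⟨x, y⟩, hypos⟩, ?_⟩
  apply UpperHalfPlane.ext
  rw [S24.local_coe_smul]
  set τ : ℍ := ⟨⟨x, y⟩, hypos⟩ with hτ
  have hden := S24.local_denom_ne_zero g τ
  unfold S24.localMob
  rw [div_eq_iff hden]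
  have hy2 : y ^ 2 = D / (4 * (c : ℝ) ^ 2) := by
    rw [hy, div_pow, Real.sq_sqrt hDpos.le, mul_pow, sq_abs]
    norm_num
  have hdetR : (a : ℝ) * d - b * c = 1 := by exact_mod_cast hdet
  have hτc : (τ : ℂ) = ⟨x, y⟩ := rfl
  rw [hτc]
  apply Complex.ext
  · simp only [Complex.add_re, Complex.mul_re, Complex.intCast_re, Complex.intCast_im, zero_mul,
      sub_zero, Complex.add_im, Complex.mul_im, add_zero]
    have h1 : (c : ℝ) * (x ^ 2 - y ^ 2) + (d - a) * x - b = 0 := by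
      rw [hy2, hx, hD]
      field_simp
      linear_combination 16 * hdetR
    linear_combination -h1
  · simp only [Complex.add_re, Complex.mul_re, Complex.intCast_re, Complex.intCast_im, zero_mul,
      sub_zero, Complex.add_im, Complex.mul_im, add_zero]
    have h2 : 2 * (c : ℝ) * x = a - d := by
      rw [hx]
      field_simp
    linear_combination (-y) * h2

end Fermat.Agent.GR.A
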