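import Fermat.Agent.GR.A.CharExists

/-!
# GR-A, (A1) part 2: the character of a Kummer function kills the elements having a fixed point in
`ℍ`, in particular the elements of finite order which are not parabolic.
-/

set_option autoImplicit false

namespace Fermat.Agent.GR.A

open ModularCurve AlgebraicCurve UpperHalfPlane CongruenceSubgroup Filter Topology
open scoped MatrixGroups Manifold
open Fermat.Agent.S24 (Hol taylorHom compHom constHol localMob)

noncomputable section

/-- twisted version of `S24.local_pow_eq_one`. -/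
theorem KillsEll_pow_eq {F h : ℂ → ℂ} {z0 ζ χ : ℂ} {n : ℕ} (hF : AnalyticAt ℂ F z0)
    (hn : analyticOrderAt F z0 = n) (hh : HasDerivAt h ζ z0) (hz : h z0 = z0)
    (hinv : F ∘ h =ᶠ[𝓝 z0] fun z => χ * F z) : ζ ^ n = χ := by
  obtain ⟨g, hg, hg0, hFg⟩ := (hF.analyticOrderAt_eq_natCast).mp hn
  have hcont : Filter.Tendsto h (𝓝 z0) (𝓝 z0) := by
    have := hh.continuousAt.tendsto
    rwa [hz] at this
  have hFg' : ∀ᶠ z in 𝓝 z0, F (h z) = (h z - z0) ^ n • g (h z) := hcont.eventually hFg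
  have hslope : Filter.Tendsto (slope h z0) (𝓝[≠] z0) (𝓝 ζ) := hasDerivAt_iff_tendsto_slope.mp hh
  have hev : ∀ᶠ z in 𝓝[≠] z0, χ * g z = (slope h z0 z) ^ n * g (h z) := by
    have h1 : ∀ᶠ z in 𝓝[≠] z0, F z = (z - z0) ^ n • g z := hFg.filter_mono nhdsWithin_le_nhds
    have h2 : ∀ᶠ z in 𝓝[≠] z0, F (h z) = (h z - z0) ^ n • g (h z) :=
      hFg'.filter_mono nhdsWithin_le_nhds
    have h3 : ∀ᶠ z in 𝓝[≠] z0, F (h z) = χ * F z := hinv.filter_mono nhdsWithin_le_nhds
    filter_upwards [h1, h2, h3, self_mem_nhdsWithin] with z e1 e2 e3 hne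
    have hne' : z - z0 ≠ 0 := sub_ne_zero.mpr hne
    have hs : slope h z0 z = (h z - z0) / (z - z0) := by
      rw [slope_def_field, hz]
    rw [hs, div_pow]
    have : χ * ((z - z0) ^ n * g z) = (h z - z0) ^ n * g (h z) := by
      rw [← smul_eq_mul (a := (z - z0) ^ n), ← smul_eq_mul (a := (h z - z0) ^ n), ← e1, ← e2, e3]
    field_simp
    linear_combination this
  have hl1 : Filter.Tendsto (fun z => χ * g z) (𝓝[≠] z0) (𝓝 (χ * g z0)) :=
    (hg.continuousAt.tendsto.mono_left nhdsWithin_le_nhds).const_mul χ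
  have hl2 : Filter.Tendsto (fun z => (slope h z0 z) ^ n * g (h z)) (𝓝[≠] z0)
      (𝓝 (ζ ^ n * g z0)) := by
    refine (hslope.pow n).mul ?_
    exact (hg.continuousAt.tendsto.comp hcont).mono_left nhdsWithin_le_nhds
  have heq : χ * g z0 = ζ ^ n * g z0 :=
    tendsto_nhds_unique hl1 (hl2.congr' (hev.mono fun _ h => h.symm))
  exact (mul_right_cancel₀ hg0 heq).symm

/-- the multiplier of `γ` at a fixed point. -/
def multiplier (γ : SL(2, ℤ)) (τ : ℍ) : ℂ :=
  1 / (((γ 1 0 : ℤ) : ℂ) * τ + ((γ 1 1 : ℤ) : ℂ)) ^ 2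

/-- `f ∘ γ = χ f`, `γ τ = τ` ⟹ `χ = multiplier ^ ord_τ f`. -/
theorem multiplier_pow_eq (τ : ℍ) (γ : SL(2, ℤ)) (hγ : γ • τ = τ) (f : Hol) (hf : f ≠ 0) (χ : ℂ)
    (h : compHom γ f = constHol χ * f) :
    multiplier γ τ ^ (taylorHom τ f).order.toNat = χ := by
  have hn : analyticOrderAt ((f : ℍ → ℂ) ∘ ofComplex) (τ : ℂ) =
      ((taylorHom τ f).order.toNat : ℕ∞) := by
    rw [← S24.order_taylorHom, ENat.natCast_toNat (S24.local_order_ne_top τ f hf)]
  refine KillsEll_pow_eq (S24.local_analyticAt f τ) hn (S24.local_hasDerivAt_mob γ τ) ?_ ?_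
  · rw [← S24.local_coe_smul, hγ]
  · have h1 := S24.local_comp_eventuallyEq γ τ (f : ℍ → ℂ)
    have h2 : (fun σ : ℍ => (f : ℍ → ℂ) (γ • σ)) = fun σ => χ * (f : ℍ → ℂ) σ := by
      have := congrArg (fun g : Hol => (g : ℍ → ℂ)) h
      exact this
    rw [h2] at h1
    exact h1.symm

variable {N n : ℕ} [NeZero N]

/-- **(A1-b)** the character kills every `γ ∈ Γ₀(N)` having a fixed point in `ℍ`. -/
theorem HasRoot.kills_of_fixed [NeZero n] {c w : ℍ → ℂ} {φ : Additive (Gamma0 N) →+ ZMod n}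
    (H : HasRoot N n c w φ) (hK : IsKummer (N := N) n (qexp c)) (γ : Gamma0 N) (τ : ℍ)
    (hγ : (γ : SL(2, ℤ)) • τ = τ) : φ (Additive.ofMul γ) = 0 := by
  have hn : 0 < n := Nat.pos_of_ne_zero (NeZero.ne n)
  have : IsDomain Hol := (S24.taylorHom_injective UpperHalfPlane.I).isDomain _
  set C : modFunRing N := ⟨c, H.modFun⟩ with hC
  set W : Hol := ⟨w, H.mdiff⟩ with hW
  have hWC : W ^ n = modFunToHol N C := Subtype.ext (funext fun σ => H.pow_eq σ)
  have hC0 : modFunToHol N C ≠ 0 := by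
    intro h0
    obtain ⟨σ, hσ⟩ := H.ne_zero
    exact hσ (congrFun (congrArg (fun z : Hol => (z : ℍ → ℂ)) h0) σ)
  have hW0 : W ≠ 0 := by
    intro h0
    rw [h0, zero_pow hn.ne'] at hWC
    exact hC0 hWC.symm
  obtain ⟨v, k, hk, hv⟩ := exists_place_taylor N τ
  set μ := multiplier (γ : SL(2, ℤ)) τ with hμ
  -- invariant functions
  have hinvA : ∀ A : modFunRing N, A ≠ 0 →
      μ ^ (taylorHom τ (modFunToHol N A)).order.toNat = 1 := by
    intro A hA
    refine multiplier_pow_eq τ γ hγ (modFunToHol N A)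
      (fun h0 => hA (modFunToHol_injective N (by rw [h0, map_zero]))) 1 ?_
    rw [map_one, one_mul]
    apply Subtype.ext
    funext σ
    exact IsModFun.inv A.2 γ γ.2 σ
  -- a uniformizer
  obtain ⟨π, hπ⟩ := IsDiscreteValuationRing.exists_irreducible v.toValuationSubring
  have hπ1 : v.ord (π : FF ℂ N) = 1 := v.ord_coe_irreducible hπ
  obtain ⟨A, B, hB, hAB⟩ := exists_modFun_div N (π : FF ℂ N)
  have hqB : qexpHom N B ≠ 0 := (map_ne_zero_iff _ (qexpHom_injective N)).mpr hB
  have hA : A ≠ 0 := by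
    rintro rfl
    rw [hAB, map_zero, zero_div, Place.ord_zero] at hπ1
    exact zero_ne_one hπ1
  have hqA : qexpHom N A ≠ 0 := (map_ne_zero_iff _ (qexpHom_injective N)).mpr hA
  have hord : v.ord (qexpHom N A) = v.ord (qexpHom N B) + 1 := by
    have h1 : qexpHom N A = (π : FF ℂ N) * qexpHom N B := by
      rw [hAB, div_mul_cancel₀ _ hqB]
    have hπ0 : (π : FF ℂ N) ≠ 0 := by
      intro h0
      rw [h0, Place.ord_zero] at hπ1
      exact zero_ne_one hπ1
    rw [h1, Place.ord_mul v hπ0 hqB, hπ1]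
    ring
  have hμk : μ ^ k = 1 := by
    have h1 := hv A
    have h2 := hv B
    rw [order_taylorE] at h1 h2
    have h3 : (taylorHom τ (modFunToHol N A)).order.toNat =
        (taylorHom τ (modFunToHol N B)).order.toNat + k := by
      have : ((taylorHom τ (modFunToHol N A)).order.toNat : ℤ) =
          ((taylorHom τ (modFunToHol N B)).order.toNat : ℤ) + k := by
        rw [h1, h2, hord]
        ring
      exact_mod_cast this
    have h4 := hinvA A hA
    rw [h3, pow_add, hinvA B hB, one_mul] at h4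
    exact h4
  -- the order of the root
  obtain ⟨m, hm⟩ : (n : ℤ) ∣ v.ord (qexpHom N C) := isKummer_dvd_ord hK _ v
  have hordW : ((taylorHom τ W).order.toNat : ℤ) = k * m := by
    have h1 := hv C
    rw [order_taylorE, ← hWC, map_pow, PowerSeries.order_pow, hm] at h1
    have h2 : (n • (taylorHom τ W).order).toNat = n * (taylorHom τ W).order.toNat := by
      rw [nsmul_eq_mul, ENat.toNat_mul]
      simp
    rw [h2] at h1
    have hnz : (n : ℤ) ≠ 0 := by exact_mod_cast hn.ne'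
    apply mul_left_cancel₀ hnz
    push_cast at h1
    rw [h1]
    ring
  have hm0 : 0 ≤ m := by
    by_contra hneg
    push Not at hneg
    have : (k : ℤ) * m < 0 := mul_neg_of_pos_of_neg (by exact_mod_cast hk) hneg
    omega
  obtain ⟨m', rfl⟩ := Int.eq_ofNat_of_zero_le hm0
  have hordW' : (taylorHom τ W).order.toNat = k * m' := by exact_mod_cast hordW
  have hchar : compHom (γ : SL(2, ℤ)) W =
      constHol (ZMod.stdAddChar (φ (Additive.ofMul γ))) * W :=
    Subtype.ext (funext fun σ => H.char γ σ)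
  have h5 := multiplier_pow_eq τ γ hγ W hW0 _ hchar
  rw [hordW', pow_mul, ← hμ, hμk, one_pow] at h5
  apply ZMod.injective_stdAddChar
  rw [← h5, AddChar.map_zero_eq_one]

end

end Fermat.Agent.GR.A
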