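import Fermat.Agent.GR.A.KillsParCore
import Fermat.Agent.GR.A.KillsEll
import Fermat.Agent.GR.A.FixedPt
import Fermat.Agent.S21.Primitive

/-!
# GR-A, (A1) part 3b: the character of a Kummer function kills the parabolic elements; conclusion
-/

set_option autoImplicit false

namespace Fermat.Agent.GR.A

open ModularCurve AlgebraicCurve UpperHalfPlane CongruenceSubgroup
open scoped MatrixGroups Manifold
open Fermat.Agent.S28 (IsExp)
open Fermat.Agent.S24 (MerInf laurentHom)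

noncomputable section

theorem exists_vadd_of_c_eq_zero (β : SL(2, ℤ)) (h : β 1 0 = 0) :
    ∃ m : ℤ, ∀ z : ℍ, β • z = (m : ℝ) +ᵥ z := by
  have hdet : β 0 0 * β 1 1 = 1 := by
    have := β.det_coe
    rw [Matrix.det_fin_two] at this
    have h' : (β : Matrix (Fin 2) (Fin 2) ℤ) 1 0 = 0 := h
    rw [h', mul_zero, sub_zero] at this
    exact this
  refine ⟨β 0 0 * β 0 1, fun z => ?_⟩
  apply UpperHalfPlane.ext
  rw [S24.local_coe_smul, UpperHalfPlane.coe_vadd]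
  unfold S24.localMob
  rw [h]
  rcases Int.eq_one_or_neg_one_of_mul_eq_one' hdet with ⟨h1, h2⟩ | ⟨h1, h2⟩
  · rw [h1, h2]
    push_cast
    ring
  · rw [h1, h2]
    push_cast
    ring

variable {N : ℕ} [NeZero N]

theorem mem_MerInf_comp_of_periodic {δ : SL(2, ℤ)} {B : ℕ} [NeZero B] {h : ℍ → ℂ}
    (hh : IsModFun N h) (hδ : ∀ τ : ℍ, h (δ • ((B : ℝ) +ᵥ τ)) = h (δ • τ)) :
    (fun τ => h (δ • τ)) ∈ MerInf B := by
  have : NeZero (N * B) := ⟨Nat.mul_ne_zero (NeZero.ne N) (NeZero.ne B)⟩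
  exact GR.B.mem_MerInf_of_periodic (h := B) (h' := N * B) (dvd_mul_left B N)
    (GR.B.mem_MerInf_of_dvd (dvd_mul_right N B) (hh.cusp δ)) hδ

theorem jdF_one_smul (δ : SL(2, ℤ)) (τ : ℍ) : S28.jdF 1 (δ • τ) = S28.jdF 1 τ :=
  (isModFun_jdF 1 1 dvd_rfl).inv δ (by rw [Gamma0_mem]; exact Subsingleton.elim _ _) τ

/-- the place attached to a cusp `δ ∞`, computed with the local parameter `q_B`. -/
theorem exists_place_cusp (δ : SL(2, ℤ)) (B : ℕ) [NeZero B]
    (hδ : ∀ h : ℍ → ℂ, IsModFun N h → ∀ τ : ℍ, h (δ • ((B : ℝ) +ᵥ τ)) = h (δ • τ)) :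
    ∃ (v : Place ℂ (FF ℂ N)) (k : ℕ), 0 < k ∧
      ∀ (h : modFunRing N) (hm : (fun τ => (h : ℍ → ℂ) (δ • τ)) ∈ MerInf B),
        (laurentHom B ⟨_, hm⟩).order = k * v.ord (qexpHom N h) := by
  have hB : 0 < B := Nat.pos_of_ne_zero (NeZero.ne B)
  let E : modFunRing N →+* LaurentSeries ℂ := (laurentHom B).comp
    (((S28.symAct δ).comp (modFunRing N).subtype).codRestrict (MerInf B)
      (fun h => mem_MerInf_comp_of_periodic h.2 (hδ h h.2)))
  have hE : ∀ (h : modFunRing N) (hm : (fun τ => (h : ℍ → ℂ) (δ • τ)) ∈ MerInf B),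
      E h = laurentHom B ⟨_, hm⟩ := fun h hm => rfl
  have hinj : Function.Injective E := by
    intro a b hab
    have ha := mem_MerInf_comp_of_periodic a.2 (hδ a a.2)
    have hb := mem_MerInf_comp_of_periodic b.2 (hδ b b.2)
    rw [hE a ha, hE b hb] at hab
    have h1 := congrArg Subtype.val (S24.laurentHom_injective B hab)
    apply Subtype.ext
    funext τ
    have h2 := congrFun h1 (δ⁻¹ • τ)
    simpa using h2
  have hconst : ∀ c : ℂ, E (constModFun N c) = HahnSeries.C c := by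
    intro c
    have hm := mem_MerInf_comp_of_periodic (constModFun N c).2 (hδ _ (constModFun N c).2)
    rw [hE _ hm]
    exact laurentHom_eq_of_isExp B (S28.isExp_C B c) hm
  have hj : (E (jModFun N)).order ≠ 0 := by
    have hm := mem_MerInf_comp_of_periodic (jModFun N).2 (hδ _ (jModFun N).2)
    rw [hE _ hm]
    have h1 : IsExp B (fun τ => ((jModFun N : modFunRing N) : ℍ → ℂ) (δ • τ))
        (qExpand ℂ B (jqModC ℂ)) := by
      have h2 := isExp_level B (isModFun_jdF 1 1 dvd_rfl).isExp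
      rw [qexp_jdF 1 1 dvd_rfl, qExpand_one_apply] at h2
      have h3 : (fun τ => ((jModFun N : modFunRing N) : ℍ → ℂ) (δ • τ)) = S28.jdF 1 :=
        funext fun τ => jdF_one_smul δ τ
      rw [h3]
      exact h2
    rw [laurentHom_eq_of_isExp B h1 hm, S24.local_order_qExpand_jq B]
    have : (0 : ℤ) < B := by exact_mod_cast hB
    omega
  obtain ⟨v, k, hk, hv⟩ := exists_place_of_modFun N E hinj hconst (jModFun N) hj
  exact ⟨v, k, hk, fun h hm => by rw [← hE h hm, hv]⟩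

variable {n : ℕ} [NeZero n] {c w : ℍ → ℂ} {φ : Additive (Gamma0 N) →+ ZMod n}

theorem HasRoot.kills_aux (H : HasRoot N n c w φ) (hK : IsKummer (N := N) n (qexp c))
    (γ : Gamma0 N) (δ : SL(2, ℤ)) (B : ℕ) [NeZero B]
    (key : ∀ z : ℍ, δ • ((B : ℝ) +ᵥ z) = (γ : SL(2, ℤ)) • (δ • z)) :
    φ (Additive.ofMul γ) = 0 := by
  have hδ : ∀ h : ℍ → ℂ, IsModFun N h → ∀ τ : ℍ, h (δ • ((B : ℝ) +ᵥ τ)) = h (δ • τ) := by
    intro h hh τ
    rw [key, hh.inv γ γ.2]
  obtain ⟨v, k, -, hv⟩ := exists_place_cusp δ B hδ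
  have hC := mem_MerInf_comp_of_periodic H.modFun (hδ c H.modFun)
  refine KillsPar_core (B := B) (W := fun z => w (δ • z)) (C := fun z => c (δ • z))
    (S28.mdiff_comp_smul H.mdiff δ) _ (fun τ => ?_) (fun τ => H.pow_eq _) hC ?_ ?_
  · show w (δ • ((B : ℝ) +ᵥ τ)) = _
    rw [key, H.char]
  · intro h0
    obtain ⟨τ, hτ⟩ := H.ne_zero
    apply hτ
    have := congrFun h0 (δ⁻¹ • τ)
    simpa using this
  · rw [hv ⟨c, H.modFun⟩ hC]
    exact Dvd.dvd.mul_left (isKummer_dvd_ord hK _ v) _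

/-- **(A1-c)** the character kills the parabolic elements. -/
theorem HasRoot.kills_of_parabolic (H : HasRoot N n c w φ) (hK : IsKummer (N := N) n (qexp c))
    (γ : Gamma0 N)
    (htr : ((γ : SL(2, ℤ)) : Matrix (Fin 2) (Fin 2) ℤ).trace ^ 2 = 4) :
    φ (Additive.ofMul γ) = 0 := by
  obtain ⟨δ, hδ⟩ := S21.exists_conj_upper (γ : SL(2, ℤ)) htr
  obtain ⟨m, hm⟩ := exists_vadd_of_c_eq_zero _ hδ
  have key : ∀ z : ℍ, δ • ((m : ℝ) +ᵥ z) = (γ : SL(2, ℤ)) • (δ • z) := by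
    intro z
    rw [← hm, ← mul_smul, ← mul_smul]
    congr 1
    group
  rcases lt_trichotomy m 0 with hneg | rfl | hpos
  · obtain ⟨B, hB⟩ : ∃ B : ℕ, m = -(B : ℤ) := ⟨(-m).toNat, by omega⟩
    have : NeZero B := ⟨by rintro rfl; simp at hB; omega⟩
    have h1 : φ (Additive.ofMul γ⁻¹) = 0 := by
      refine H.kills_aux hK γ⁻¹ δ B fun z => ?_
      have h2 := key ((B : ℝ) +ᵥ z)
      have h3 : (m : ℝ) +ᵥ ((B : ℝ) +ᵥ z) = z := by
        rw [← add_vadd, hB]
        push_cast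
        rw [neg_add_cancel, zero_vadd]
      rw [h3] at h2
      rw [Subgroup.coe_inv, h2, inv_smul_smul]
    rw [ofMul_inv, map_neg, neg_eq_zero] at h1
    exact h1
  · refine H.kills_of_fixed hK γ (δ • UpperHalfPlane.I) ?_
    rw [← key]
    simp
  · obtain ⟨B, hB⟩ : ∃ B : ℕ, m = (B : ℤ) := ⟨m.toNat, by omega⟩
    have : NeZero B := ⟨by rintro rfl; simp at hB; omega⟩
    refine H.kills_aux hK γ δ B fun z => ?_
    rw [← key, hB]
    norm_cast

/-- **(A1-bc)** the character of a Kummer function kills the elliptic and parabolic elements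
(the conclusion is `GR.B.Kills φ`, unfolded). -/
theorem HasRoot.kills (H : HasRoot N n c w φ) (hK : IsKummer (N := N) n (qexp c)) :
    ∀ γ : Gamma0 N, (IsOfFinOrder (γ : SL(2, ℤ)) ∨
      ((γ : SL(2, ℤ)) : Matrix (Fin 2) (Fin 2) ℤ).trace ^ 2 = 4) → φ (Additive.ofMul γ) = 0 := by
  rintro γ (hfin | htr)
  · have h1 := abs_trace_le_two_of_isOfFinOrder _ hfin
    by_cases h2 : ((γ : SL(2, ℤ)) : Matrix (Fin 2) (Fin 2) ℤ).trace ^ 2 = 4
    · exact H.kills_of_parabolic hK γ h2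
    · have h3 : ((γ : SL(2, ℤ)) : Matrix (Fin 2) (Fin 2) ℤ).trace ^ 2 < 4 := by
        have h4 : ((γ : SL(2, ℤ)) : Matrix (Fin 2) (Fin 2) ℤ).trace ^ 2 ≤ 4 := by
          have := abs_le.mp h1
          nlinarith [this.1, this.2]
        omega
      obtain ⟨τ, hτ⟩ := exists_fixed_point _ h3
      exact H.kills_of_fixed hK γ τ hτ
  · exact H.kills_of_parabolic hK γ htr

/-- **(A1)** every Kummer function has a character, which kills the elliptic and parabolic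
elements. -/
theorem exists_hasChar_of_isKummer {u : LaurentSeries ℂ} (hK : IsKummer (N := N) n u) :
    ∃ φ : Additive (Gamma0 N) →+ ZMod n,
      (∀ γ : Gamma0 N, (IsOfFinOrder (γ : SL(2, ℤ)) ∨
        ((γ : SL(2, ℤ)) : Matrix (Fin 2) (Fin 2) ℤ).trace ^ 2 = 4) → φ (Additive.ofMul γ) = 0) ∧
      HasChar N n u φ := by
  have hn : 0 < n := Nat.pos_of_ne_zero (NeZero.ne n)
  obtain ⟨A, B, hB, hAB⟩ := exists_modFun_div N (⟨u, hK.mem⟩ : FF ℂ N)
  have hAB' : u = qexp A / qexp B := congrArg Subtype.val hAB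
  have hqB : qexp (B : ℍ → ℂ) ≠ 0 := by
    intro h0
    exact hB (Subtype.ext ((IsModFun.qexp_eq_zero_iff B.2).mp h0))
  have hqBm : qexp (B : ℍ → ℂ) ∈ FF ℂ N := IsModFun.qexp_mem B.2
  set c : ℍ → ℂ := (A : ℍ → ℂ) * (B : ℍ → ℂ) ^ (n - 1) with hc
  have hcm : IsModFun N c := IsModFun.mul A.2 (IsModFun.pow B.2 _)
  have hqc : qexp c = u * qexp (B : ℍ → ℂ) ^ n := by
    rw [hc, qexp_mul A.2 (IsModFun.pow B.2 _), qexp_pow B.2, hAB']
    obtain ⟨k, rfl⟩ : ∃ k, n = k + 1 := ⟨n - 1, by omega⟩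
    rw [Nat.add_sub_cancel, pow_succ]
    field_simp
  have hKc : IsKummer (N := N) n (qexp c) := by
    rw [hqc]
    exact hK.mul (isKummer_pow_self hqBm hqB)
  have hc0 : ∃ τ, c τ ≠ 0 := by
    by_contra hcon
    push Not at hcon
    have : c = 0 := funext hcon
    exact hKc.ne_zero ((hcm.qexp_eq_zero_iff).mpr this)
  obtain ⟨w, φ, H⟩ := exists_hasRoot hcm hc0 hKc
  refine ⟨φ, H.kills hKc, c, w, qexp c, H, hcm.isExp, (qexp (B : ℍ → ℂ))⁻¹, inv_mem hqBm,
    inv_ne_zero hqB, ?_⟩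
  rw [hqc, inv_pow, mul_assoc, mul_inv_cancel₀ (pow_ne_zero n hqB), mul_one]

end

end Fermat.Agent.GR.A
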