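import Fermat.Agent.GR.A.ModFun
import Fermat.Agent.GR.B.MerLevel

/-!
# GR-A, (A1) part 3a: the analytic core of the parabolic case
-/

set_option autoImplicit false

namespace Fermat.Agent.GR.A

open ModularCurve UpperHalfPlane Function Complex
open scoped MatrixGroups Manifold Real
open Fermat.Agent.S28 (IsExp tParam)
open Fermat.Agent.S24 (MerInf laurentHom)

local notation "𝕢" => Periodic.qParam

noncomputable section

/-- `τ ↦ e(s τ / (n B))`. -/
def fracExp (s n B : ℕ) (τ : ℍ) : ℂ := Complex.exp (2 * π * Complex.I * s * τ / (n * B))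

theorem mdiff_fracExp (s n B : ℕ) : MDiff (fracExp s n B) := by
  rw [UpperHalfPlane.mdifferentiable_iff]
  have h1 : DifferentiableOn ℂ (fun z : ℂ => Complex.exp (2 * π * Complex.I * s * z / (n * B)))
      {z | 0 < z.im} := by
    apply Differentiable.differentiableOn
    fun_prop
  refine h1.congr fun z hz => ?_
  simp only [comp_apply, ofComplex_apply_of_im_pos hz, fracExp]

theorem fracExp_pow (s n B : ℕ) (hn : n ≠ 0) (τ : ℍ) :
    fracExp s n B τ ^ n = tParam B τ ^ s := by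
  have hn' : (n : ℂ) ≠ 0 := by exact_mod_cast hn
  unfold fracExp tParam Periodic.qParam
  rw [← Complex.exp_nat_mul, ← Complex.exp_nat_mul]
  congr 1
  push_cast
  by_cases hB : (B : ℂ) = 0
  · simp [hB]
  · field_simp

theorem fracExp_vadd (s n B : ℕ) [NeZero n] (hB : B ≠ 0) (τ : ℍ) :
    fracExp s n B ((B : ℝ) +ᵥ τ) = ZMod.stdAddChar ((s : ℕ) : ZMod n) * fracExp s n B τ := by
  have hn' : (n : ℂ) ≠ 0 := by exact_mod_cast NeZero.ne n
  have hB' : (B : ℂ) ≠ 0 := by exact_mod_cast hB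
  have h1 : ZMod.stdAddChar ((s : ℕ) : ZMod n) = Complex.exp (2 * π * Complex.I * s / n) := by
    have := ZMod.stdAddChar_coe (N := n) (s : ℤ)
    simpa using this
  rw [h1]
  unfold fracExp
  rw [← Complex.exp_add, UpperHalfPlane.coe_vadd]
  congr 1
  push_cast
  field_simp

theorem fracExp_ne_zero (s n B : ℕ) (τ : ℍ) : fracExp s n B τ ≠ 0 := Complex.exp_ne_zero _

/-- **core of the parabolic case.** -/
theorem KillsPar_core {n B : ℕ} [NeZero n] [NeZero B] {W C : ℍ → ℂ} (hW : MDiff W) (a : ZMod n)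
    (hper : ∀ τ : ℍ, W ((B : ℝ) +ᵥ τ) = ZMod.stdAddChar a * W τ)
    (hpow : ∀ τ, W τ ^ n = C τ) (hC : C ∈ MerInf B) (hC0 : C ≠ 0)
    (hdvd : (n : ℤ) ∣ (laurentHom B ⟨C, hC⟩).order) : a = 0 := by
  have hn : 0 < n := Nat.pos_of_ne_zero (NeZero.ne n)
  have hB : 0 < B := Nat.pos_of_ne_zero (NeZero.ne B)
  set s : ℕ := (-a).val with hs
  have hsa : ((s : ℕ) : ZMod n) = -a := ZMod.natCast_zmod_val (-a)
  set V : ℍ → ℂ := W * fracExp s n B with hV
  have hVd : MDiff V := hW.mul (mdiff_fracExp s n B)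
  have hVper : ∀ τ : ℍ, V ((B : ℝ) +ᵥ τ) = V τ := by
    intro τ
    simp only [hV, Pi.mul_apply]
    rw [hper, fracExp_vadd s n B hB.ne', hsa]
    have : ZMod.stdAddChar a * ZMod.stdAddChar (-a) = (1 : ℂ) := by
      rw [← AddChar.map_add_eq_mul, add_neg_cancel, AddChar.map_zero_eq_one]
    linear_combination (W τ * fracExp s n B τ) * this
  have hVpow : V ^ n = C * fun τ => tParam B τ ^ (s : ℤ) := by
    funext τ
    simp only [hV, Pi.mul_apply, Pi.pow_apply, mul_pow, hpow, fracExp_pow s n B hn.ne', zpow_natCast]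
  obtain ⟨-, -, m, hm⟩ := S24.mem_MerInf.mp hC
  have hVmem : V ∈ MerInf B := by
    refine S24.mem_MerInf.mpr ⟨hVd, ?_, m, ?_⟩
    · refine S24.Hol_periodic_of_forall B fun τ τ' hτ => ?_
      have : τ' = (B : ℝ) +ᵥ τ := by
        apply UpperHalfPlane.ext
        rw [hτ, UpperHalfPlane.coe_vadd]
        ring
      rw [this, hVper]
    · apply isBoundedAtImInfty_of_pow hn
      have h1 := S24.Hol_bdd_mul_qpow (h := B) hm s
      have h2 : (fun τ : ℍ => V τ ^ n * 𝕢 (B : ℝ) τ ^ m) =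
          fun τ : ℍ => C τ * 𝕢 (B : ℝ) τ ^ m * 𝕢 (B : ℝ) τ ^ s := by
        funext τ
        have := congrFun hVpow τ
        simp only [Pi.pow_apply, Pi.mul_apply, zpow_natCast, tParam] at this
        rw [this]
        ring
      rw [h2]
      exact h1
  have e1 : IsExp B (V ^ n) (laurentHom B ⟨V, hVmem⟩ ^ n) :=
    (isExp_laurentHom B ⟨V, hVmem⟩).pow n
  have e2 : IsExp B (C * fun τ => tParam B τ ^ (s : ℤ))
      (laurentHom B ⟨C, hC⟩ * HahnSeries.single (s : ℤ) 1) :=
    (isExp_laurentHom B ⟨C, hC⟩).mul (S28.isExp_single B s)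
  rw [hVpow] at e1
  have e3 := e1.unique hB e2
  have hLC0 : laurentHom B ⟨C, hC⟩ ≠ 0 := by
    intro h0
    apply hC0
    have := S24.laurentHom_injective B (h0.trans (map_zero _).symm)
    exact congrArg Subtype.val this
  have e4 := congrArg HahnSeries.order e3
  rw [HahnSeries.order_pow, HahnSeries.order_mul hLC0 (HahnSeries.single_ne_zero one_ne_zero),
    HahnSeries.order_single one_ne_zero, nsmul_eq_mul] at e4
  have h5 : (n : ℤ) ∣ (s : ℤ) := by
    have h6 : (s : ℤ) = n * (laurentHom B ⟨V, hVmem⟩).order - (laurentHom B ⟨C, hC⟩).order := by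
      rw [e4]
      ring
    rw [h6]
    exact dvd_sub (dvd_mul_right _ _) hdvd
  have h7 : ((s : ℕ) : ZMod n) = 0 := by
    rw [ZMod.natCast_eq_zero_iff]
    exact_mod_cast h5
  rw [hsa] at h7
  exact neg_eq_zero.mp h7

end

end Fermat.Agent.GR.A
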