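import Mathlib

set_option autoImplicit false

namespace Fermat.Agent.GR.A

open UpperHalfPlane
open scoped MatrixGroups

/-- Cayley–Hamilton for `SL(2, ℤ)`. -/
theorem SL2Fix3_sq (γ : SL(2, ℤ)) :
    (γ : Matrix (Fin 2) (Fin 2) ℤ) * (γ : Matrix (Fin 2) (Fin 2) ℤ) =
      (γ 0 0 + γ 1 1) • (γ : Matrix (Fin 2) (Fin 2) ℤ) - 1 := by
  have hdet := Matrix.SpecialLinearGroup.det_coe γ
  rw [Matrix.det_fin_two] at hdet
  ext i j
  fin_cases i <;> fin_cases j
  · simp only [Fin.zero_eta, Fin.isValue, Matrix.mul_apply, Fin.sum_univ_two, Matrix.sub_apply,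
      Matrix.smul_apply, smul_eq_mul, Matrix.one_apply_eq]
    linear_combination -hdet
  · simp only [Fin.zero_eta, Fin.mk_one, Fin.isValue, Matrix.mul_apply, Fin.sum_univ_two,
      Matrix.sub_apply, Matrix.smul_apply, smul_eq_mul, ne_eq, zero_ne_one, not_false_eq_true,
      Matrix.one_apply_ne]
    ring
  · simp only [Fin.zero_eta, Fin.mk_one, Fin.isValue, Matrix.mul_apply, Fin.sum_univ_two,
      Matrix.sub_apply, Matrix.smul_apply, smul_eq_mul, ne_eq, one_ne_zero, not_false_eq_true,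
      Matrix.one_apply_ne]
    ring
  · simp only [Fin.mk_one, Fin.isValue, Matrix.mul_apply, Fin.sum_univ_two, Matrix.sub_apply,
      Matrix.smul_apply, smul_eq_mul, Matrix.one_apply_eq]
    linear_combination -hdet

theorem SL2Fix3_pow_twelve (γ : SL(2, ℤ)) (ht : γ 0 0 + γ 1 1 = 0 ∨ γ 0 0 + γ 1 1 = 1 ∨
    γ 0 0 + γ 1 1 = -1) : γ ^ 12 = 1 := by
  have hsq := SL2Fix3_sq γ
  apply Subtype.ext
  rw [Matrix.SpecialLinearGroup.coe_pow, Matrix.SpecialLinearGroup.coe_one]
  set M := (γ : Matrix (Fin 2) (Fin 2) ℤ) with hM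
  rcases ht with h | h | h
  · rw [h, zero_smul, zero_sub] at hsq
    have : M ^ 12 = (M * M) ^ 6 := by rw [← pow_two, ← pow_mul]
    rw [this, hsq]
    exact Even.neg_one_pow (by decide)
  · rw [h, one_smul] at hsq
    have h3 : M ^ 3 = -1 := by
      have : M ^ 3 = M * (M * M) := by noncomm_ring
      rw [this, hsq, mul_sub, hsq]
      noncomm_ring
    have : M ^ 12 = (M ^ 3) ^ 4 := by rw [← pow_mul]
    rw [this, h3]
    exact Even.neg_one_pow (by decide)
  · rw [h] at hsq
    have h3 : M ^ 3 = 1 := by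
      have : M ^ 3 = M * (M * M) := by noncomm_ring
      rw [this, hsq, mul_sub, mul_smul_comm, hsq]
      noncomm_ring
    have : M ^ 12 = (M ^ 3) ^ 4 := by rw [← pow_mul]
    rw [this, h3]
    simp

theorem finOrder_of_fixed (γ : SL(2, ℤ)) (τ : ℍ) (h : γ • τ = τ) : IsOfFinOrder γ := by
  rw [isOfFinOrder_iff_pow_eq_one]
  have hdet := Matrix.SpecialLinearGroup.det_coe γ
  rw [Matrix.det_fin_two] at hdet
  have h1 : ((γ • τ : ℍ) : ℂ) = τ := by rw [h]
  rw [UpperHalfPlane.specialLinearGroup_apply] at h1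
  have hden : ((γ 1 0 : ℤ) : ℂ) * τ + ((γ 1 1 : ℤ) : ℂ) ≠ 0 := by
    have := UpperHalfPlane.denom_ne_zero (γ : GL (Fin 2) ℝ) τ
    simpa [UpperHalfPlane.denom] using this
  have h2 : (((γ 0 0 : ℤ) : ℂ) * τ + ((γ 0 1 : ℤ) : ℂ)) /
      (((γ 1 0 : ℤ) : ℂ) * τ + ((γ 1 1 : ℤ) : ℂ)) = τ := by
    simpa using h1
  rw [div_eq_iff hden] at h2
  set a : ℤ := γ 0 0 with ha
  set b : ℤ := γ 0 1 with hb
  set c : ℤ := γ 1 0 with hc
  set d : ℤ := γ 1 1 with hd
  have hy : 0 < τ.im := τ.im_pos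
  have him := congrArg Complex.im h2
  have hre := congrArg Complex.re h2
  simp only [Complex.add_im, Complex.mul_im, Complex.intCast_re, Complex.intCast_im, zero_mul,
    add_zero, Complex.add_re, Complex.mul_re, sub_zero, UpperHalfPlane.coe_im,
    UpperHalfPlane.coe_re] at him hre
  -- `a y = x (c y) + y (c x + d)`, `a x + b = x (c x + d) - y (c y)`
  have e1 : (a : ℝ) - d = 2 * c * τ.re := by
    have : τ.im * ((a : ℝ) - d - 2 * c * τ.re) = 0 := by linear_combination him
    rcases mul_eq_zero.mp this with h0 | h0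
    · exact absurd h0 hy.ne'
    · linarith
  have e2 : (b : ℝ) = -c * (τ.re ^ 2 + τ.im ^ 2) := by
    linear_combination hre - τ.re * e1
  have hdetR : (a : ℝ) * d - b * c = 1 := by exact_mod_cast hdet
  have e3 : ((a : ℝ) + d) ^ 2 = 4 - 4 * (c : ℝ) ^ 2 * τ.im ^ 2 := by
    have : ((a : ℝ) + d) ^ 2 = ((a : ℝ) - d) ^ 2 + 4 * (a * d) := by ring
    rw [this, e1]
    have h4 : (a : ℝ) * d = 1 + b * c := by linarith
    rw [h4, e2]
    ring
  by_cases hc0 : c = 0
  · -- `γ = ± 1`
    have hc0' : (c : ℝ) = 0 := by exact_mod_cast hc0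
    have hb0 : b = 0 := by
      have : (b : ℝ) = 0 := by rw [e2, hc0']; ring
      exact_mod_cast this
    have had : a = d := by
      have : (a : ℝ) = d := by rw [hc0'] at e1; linarith
      exact_mod_cast this
    refine ⟨2, by norm_num, ?_⟩
    apply Subtype.ext
    rw [Matrix.SpecialLinearGroup.coe_pow, Matrix.SpecialLinearGroup.coe_one, pow_two,
      SL2Fix3_sq γ]
    rw [hb0, hc0, ← had] at hdet
    ext i j
    fin_cases i <;> fin_cases j
    · simp only [Fin.zero_eta, Fin.isValue, Matrix.sub_apply, Matrix.smul_apply, smul_eq_mul,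
        Matrix.one_apply_eq]
      rw [← ha, ← hd, ← had]
      linear_combination 2 * hdet
    · simp only [Fin.zero_eta, Fin.mk_one, Fin.isValue, Matrix.sub_apply, Matrix.smul_apply,
        smul_eq_mul, ne_eq, zero_ne_one, not_false_eq_true, Matrix.one_apply_ne]
      rw [← hb, hb0]
      ring
    · simp only [Fin.zero_eta, Fin.mk_one, Fin.isValue, Matrix.sub_apply, Matrix.smul_apply,
        smul_eq_mul, ne_eq, one_ne_zero, not_false_eq_true, Matrix.one_apply_ne]
      rw [← hc, hc0]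
      ring
    · simp only [Fin.mk_one, Fin.isValue, Matrix.sub_apply, Matrix.smul_apply, smul_eq_mul,
        Matrix.one_apply_eq]
      rw [← ha, ← hd, ← had]
      linear_combination 2 * hdet
  · refine ⟨12, by norm_num, SL2Fix3_pow_twelve γ ?_⟩
    rw [← ha, ← hd]
    have hc0' : (c : ℝ) ≠ 0 := by exact_mod_cast hc0
    have hlt : ((a : ℝ) + d) ^ 2 < 4 := by
      rw [e3]
      have : 0 < (c : ℝ) ^ 2 * τ.im ^ 2 := by positivity
      linarith
    have hlt' : (a + d) ^ 2 < 4 := by exact_mod_cast hlt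
    have h1 : a + d < 2 := by nlinarith
    have h2 : -2 < a + d := by nlinarith
    omega

end Fermat.Agent.GR.A
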