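import Fermat.Agent.GR.A.ModFun
import Fermat.Agent.GR.C.Place1

/-!
# GR-A: embeddings of the function field into Laurent series and the places they induce

* `exists_place_mul_ord` (VAL): an embedding `Φ : F → ℂ((t))` over `ℂ` with nontrivial order function
  satisfies `order ∘ Φ = k * v.ord` for a place `v` and some `k ≥ 1`.
* `modFunRing N`: the ring of holomorphic modular functions; `FF ℂ N` is its fraction field
  (`exists_lift_modFun`).
-/

set_option autoImplicit false

namespace Fermat.Agent.GR.A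

open ModularCurve AlgebraicCurve UpperHalfPlane
open scoped MatrixGroups Manifold
open Fermat.Agent.S28 (IsExp)

noncomputable section

/-- **(VAL)** -/
theorem exists_place_mul_ord {F : Type*} [Field F] [Algebra ℂ F] (Φ : F →+* LaurentSeries ℂ)
    (hΦ : ∀ c : ℂ, Φ (algebraMap ℂ F c) = HahnSeries.C c) (x : F) (hx : (Φ x).order ≠ 0) :
    ∃ (v : Place ℂ F) (k : ℕ), 0 < k ∧ ∀ f : F, (Φ f).order = k * v.ord f := by
  classical
  have hmul : ∀ {f g : F}, f ≠ 0 → g ≠ 0 → (Φ (f * g)).order = (Φ f).order + (Φ g).order := by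
    intro f g hf hg
    rw [map_mul]
    exact HahnSeries.order_mul ((map_ne_zero Φ).2 hf) ((map_ne_zero Φ).2 hg)
  have hinv : ∀ f : F, f ≠ 0 → (Φ f⁻¹).order = -(Φ f).order := by
    intro f hf
    have := hmul hf (inv_ne_zero hf)
    rw [mul_inv_cancel₀ hf, map_one, HahnSeries.order_one] at this
    omega
  -- the value group
  let S : AddSubgroup ℤ :=
    { carrier := {m | ∃ f : F, f ≠ 0 ∧ (Φ f).order = m}
      zero_mem' := ⟨1, one_ne_zero, by simp⟩
      add_mem' := by
        rintro a b ⟨f, hf, rfl⟩ ⟨g, hg, rfl⟩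
        exact ⟨f * g, mul_ne_zero hf hg, hmul hf hg⟩
      neg_mem' := by
        rintro a ⟨f, hf, rfl⟩
        exact ⟨f⁻¹, inv_ne_zero hf, hinv f hf⟩ }
  obtain ⟨a, ha⟩ := Int.subgroup_cyclic S
  have hx0 : x ≠ 0 := by
    rintro rfl
    simp at hx
  have hmem : ∀ f : F, f ≠ 0 → a ∣ (Φ f).order := by
    intro f hf
    have h1 : (Φ f).order ∈ S := ⟨f, hf, rfl⟩
    rw [ha, AddSubgroup.mem_closure_singleton] at h1
    obtain ⟨m, hm⟩ := h1
    exact ⟨m, by rw [← hm, smul_eq_mul, mul_comm]⟩
  have ha0 : a ≠ 0 := by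
    rintro rfl
    exact hx (zero_dvd_iff.mp (hmem x hx0))
  have haS : a ∈ S := by
    rw [ha]
    exact AddSubgroup.mem_closure_singleton_self a
  -- a uniformizer
  obtain ⟨t, ht0, ht⟩ : ∃ t : F, t ≠ 0 ∧ (Φ t).order = (a.natAbs : ℤ) := by
    obtain ⟨t, ht0, ht⟩ := haS
    rcases Int.natAbs_eq a with h | h
    · exact ⟨t, ht0, by rw [ht]; exact h⟩
    · exact ⟨t⁻¹, inv_ne_zero ht0, by rw [hinv t ht0, ht]; omega⟩
  set k : ℕ := a.natAbs with hk
  have hk0 : 0 < k := Int.natAbs_pos.mpr ha0
  have hkz : (k : ℤ) ≠ 0 := by exact_mod_cast hk0.ne'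
  have hdvd : ∀ f : F, f ≠ 0 → (k : ℤ) ∣ (Φ f).order := fun f hf =>
    Int.natAbs_dvd.mpr (hmem f hf)
  obtain ⟨v, -, hv⟩ := GR.C.Place1_core (K := ℂ) (GR.C.Place1_sub Φ)
    (fun f => (Φ f).order / k) (by simp)
    (fun {f g} hf hg => by
      rw [hmul hf hg, Int.add_ediv_of_dvd_left (hdvd f hf)])
    (fun f hf => by
      rw [GR.C.Place1_mem_sub]
      obtain ⟨m, hm⟩ := hdvd f hf
      rw [hm, Int.mul_ediv_cancel_left _ hkz]
      constructor
      · intro h
        by_contra hneg
        push Not at hneg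
        have : (k : ℤ) * m < 0 := mul_neg_of_pos_of_neg (by exact_mod_cast hk0) hneg
        omega
      · intro h
        positivity)
    (fun c => by rw [GR.C.Place1_mem_sub, hΦ, HahnSeries.order_C]) t ht0
    (by rw [ht, Int.ediv_self hkz])
  refine ⟨v, k, hk0, fun f => ?_⟩
  rcases eq_or_ne f 0 with rfl | hf
  · simp
  · rw [hv f hf, Int.mul_ediv_cancel' (hdvd f hf)]

/-- the ring of holomorphic modular functions for `Γ₀(N)`. -/
def modFunRing (N : ℕ) : Subring (ℍ → ℂ) where
  carrier := {h | IsModFun N h}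
  mul_mem' := fun ha hb => IsModFun.mul ha hb
  one_mem' := isModFun_one N
  add_mem' := fun ha hb => IsModFun.add ha hb
  zero_mem' := isModFun_zero N
  neg_mem' := fun ha => IsModFun.neg ha

theorem mem_modFunRing {N : ℕ} {h : ℍ → ℂ} : h ∈ modFunRing N ↔ IsModFun N h := Iff.rfl

variable (N : ℕ) [NeZero N]

/-- the `q`-expansion as a ring homomorphism into the function field. -/
def qexpHom : modFunRing N →+* FF ℂ N where
  toFun h := ⟨qexp (h : ℍ → ℂ), IsModFun.qexp_mem h.2⟩
  map_one' := by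
    apply Subtype.ext
    have h1 := qexp_const 1
    rw [map_one] at h1
    exact h1
  map_mul' a b := Subtype.ext (qexp_mul a.2 b.2)
  map_zero' := Subtype.ext ((isModFun_zero N).qexp_eq_zero_iff.mpr rfl)
  map_add' a b := Subtype.ext (qexp_add a.2 b.2)

theorem coe_qexpHom (h : modFunRing N) : ((qexpHom N h : FF ℂ N) : LaurentSeries ℂ) = qexp h := rfl

theorem qexpHom_injective : Function.Injective (qexpHom N) := by
  intro a b hab
  exact Subtype.ext (IsModFun.ext_qexp a.2 b.2 (congrArg Subtype.val hab))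

/-- constants in the ring of modular functions. -/
def constModFun (c : ℂ) : modFunRing N := ⟨fun _ => c, isModFun_const N c⟩

theorem qexpHom_const (c : ℂ) : qexpHom N (constModFun N c) = algebraMap ℂ (FF ℂ N) c := by
  apply Subtype.ext
  show qexp (fun _ : ℍ => c) = algebraMap ℂ (LaurentSeries ℂ) c
  rw [qexp_const, algebraMap_laurentSeries_eq_single]
  rfl

theorem exists_modFun_div (f : FF ℂ N) :
    ∃ a b : modFunRing N, b ≠ 0 ∧ f = qexpHom N a / qexpHom N b := by
  obtain ⟨a, ha, b, hb, hab⟩ := IntermediateField.mem_adjoin_iff_div.mp f.2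
  by_cases hb0 : b = 0
  · refine ⟨0, 1, one_ne_zero, ?_⟩
    apply Subtype.ext
    rw [map_zero, zero_div, hab, hb0, div_zero]
    rfl
  · obtain ⟨fa, hfa, rfl⟩ := exists_isModFun_of_mem_adjoin N ha
    obtain ⟨fb, hfb, rfl⟩ := exists_isModFun_of_mem_adjoin N hb
    refine ⟨⟨fa, hfa⟩, ⟨fb, hfb⟩, ?_, Subtype.ext hab⟩
    intro h0
    apply hb0
    have : fb = 0 := congrArg Subtype.val h0
    rw [this]
    exact (isModFun_zero N).qexp_eq_zero_iff.mpr rfl

/-- injective ring homomorphisms from the ring of modular functions extend to the function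
field. -/
theorem exists_lift_modFun {L : Type*} [Field L] (E : modFunRing N →+* L)
    (hE : Function.Injective E) : ∃ Φ : FF ℂ N →+* L, ∀ h : modFunRing N, Φ (qexpHom N h) = E h := by
  let _ : Algebra (modFunRing N) (FF ℂ N) := (qexpHom N).toAlgebra
  have : FaithfulSMul (modFunRing N) (FF ℂ N) :=
    (faithfulSMul_iff_algebraMap_injective _ _).mpr (qexpHom_injective N)
  have : IsDomain (modFunRing N) := (qexpHom_injective N).isDomain _
  have : IsFractionRing (modFunRing N) (FF ℂ N) := IsFractionRing.of_field _ _ (fun z => by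
    obtain ⟨a, b, -, h⟩ := exists_modFun_div N z
    exact ⟨a, b, h⟩)
  exact ⟨IsFractionRing.lift hE, fun a => IsFractionRing.lift_algebraMap hE a⟩

/-- **(VAL) for the function field**: an injective ring hom `E` from modular functions to `ℂ((t))`,
identity on constants, nontrivial on some `x`, computes `k * v.ord` for a place `v`. -/
theorem exists_place_of_modFun (E : modFunRing N →+* LaurentSeries ℂ) (hE : Function.Injective E)
    (hc : ∀ c : ℂ, E (constModFun N c) = HahnSeries.C c) (x : modFunRing N)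
    (hx : (E x).order ≠ 0) :
    ∃ (v : Place ℂ (FF ℂ N)) (k : ℕ), 0 < k ∧
      ∀ h : modFunRing N, (E h).order = k * v.ord (qexpHom N h) := by
  obtain ⟨Φ, hΦ⟩ := exists_lift_modFun N E hE
  obtain ⟨v, k, hk, hv⟩ := exists_place_mul_ord Φ
    (fun c => by rw [← qexpHom_const, hΦ, hc]) (qexpHom N x) (by rw [hΦ]; exact hx)
  exact ⟨v, k, hk, fun h => by rw [← hΦ, hv]⟩

end

end Fermat.Agent.GR.A
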